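import Mathlib
import Fermat.Agent.S53.PowerSeriesComplete

/-!
# M59 / [B] : cell [HOM] (helper4; prefix `m59bh_`)

`w : σ → ℕ` a weight on the variables of `MvPowerSeries σ R`.

* `m59bh_wHC_mul` : the weighted homogeneous component of a product;
* `m59bh_homPart w P` : `P^h = {f | every weighted homogeneous component of f lies in P}`, an ideal;
* `m59bh_homPart_isPrime` : `P` prime `⟹` `P^h` prime (lowest component argument);
* `m59bh_homPart_le` : `P^h ≤ P` for `w ≤ 1`, `σ` finite, `MvPowerSeries σ R` noetherian local
  (ideals are closed);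
* `m59bh_hom_of_minimal` : **[HOM]** a minimal prime over an ideal `J` stable under the weighted
  homogeneous components is itself stable under them.
-/

set_option autoImplicit false
set_option linter.unusedSectionVars false
set_option linter.style.haveILetI false

namespace Fermat.Agent.M59

open MvPowerSeries Finsupp

section Mul

variable {σ : Type*} {R : Type*} [CommRing R] (w : σ → ℕ)

/-- the weighted homogeneous component of a product. -/
theorem m59bh_wHC_mul (f g : MvPowerSeries σ R) (k : ℕ) :
    weightedHomogeneousComponent w k (f * g) =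
      ∑ ij ∈ Finset.HasAntidiagonal.antidiagonal k,
        weightedHomogeneousComponent w ij.1 f * weightedHomogeneousComponent w ij.2 g := by
  classical
  ext d
  rw [coeff_weightedHomogeneousComponent, map_sum]
  simp only [coeff_mul, coeff_weightedHomogeneousComponent]
  rw [Finset.sum_comm]
  split_ifs with hd
  · refine Finset.sum_congr rfl fun x hx => ?_
    rw [Finset.HasAntidiagonal.mem_antidiagonal] at hx
    have hx' : weight w x.1 + weight w x.2 = k := by rw [← map_add, hx, hd]
    rw [Finset.sum_eq_single (weight w x.1, weight w x.2)]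
    · rw [if_pos rfl, if_pos rfl]
    · rintro ⟨i, j⟩ _ hne
      by_cases h1 : weight w x.1 = i
      · by_cases h2 : weight w x.2 = j
        · exact absurd (by rw [h1, h2]) hne
        · rw [if_neg h2, mul_zero]
      · rw [if_neg h1, zero_mul]
    · intro hnot
      exact absurd (Finset.HasAntidiagonal.mem_antidiagonal.mpr hx') hnot
  · symm
    refine Finset.sum_eq_zero fun x hx => ?_
    rw [Finset.HasAntidiagonal.mem_antidiagonal] at hx
    refine Finset.sum_eq_zero fun ij hij => ?_
    rw [Finset.HasAntidiagonal.mem_antidiagonal] at hij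
    by_cases h1 : weight w x.1 = ij.1
    · by_cases h2 : weight w x.2 = ij.2
      · exfalso
        apply hd
        rw [← hx, map_add, h1, h2, hij]
      · rw [if_neg h2, mul_zero]
    · rw [if_neg h1, zero_mul]

/-- `P^h`: the series all of whose weighted homogeneous components lie in `P`. -/
def m59bh_homPart (P : Ideal (MvPowerSeries σ R)) : Ideal (MvPowerSeries σ R) where
  carrier := {f | ∀ k, weightedHomogeneousComponent w k f ∈ P}
  add_mem' := by
    intro f g hf hg k
    rw [map_add]
    exact P.add_mem (hf k) (hg k)
  zero_mem' := by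
    intro k
    rw [map_zero]
    exact P.zero_mem
  smul_mem' := by
    intro c f hf k
    rw [smul_eq_mul, m59bh_wHC_mul]
    exact P.sum_mem fun ij _ => P.mul_mem_left _ (hf ij.2)

theorem m59bh_mem_homPart {P : Ideal (MvPowerSeries σ R)} {f : MvPowerSeries σ R} :
    f ∈ m59bh_homPart w P ↔ ∀ k, weightedHomogeneousComponent w k f ∈ P := Iff.rfl

/-- the lowest component argument: `P^h` is prime. -/
theorem m59bh_homPart_isPrime {P : Ideal (MvPowerSeries σ R)} (hP : P.IsPrime) :
    (m59bh_homPart w P).IsPrime := by
  classical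
  refine ⟨?_, ?_⟩
  · intro htop
    have h1 : (1 : MvPowerSeries σ R) ∈ m59bh_homPart w P := htop ▸ Submodule.mem_top
    have h2 := h1 0
    have h3 : weightedHomogeneousComponent w 0 (1 : MvPowerSeries σ R) = 1 := by
      ext d
      rw [coeff_weightedHomogeneousComponent, coeff_one]
      by_cases hd : d = 0
      · subst hd
        rw [if_pos (map_zero _), if_pos rfl]
      · rw [if_neg hd]
        split_ifs <;> rfl
    rw [h3] at h2
    exact hP.ne_top ((Ideal.eq_top_iff_one P).mpr h2)
  · intro f g hfg
    by_contra hcon
    push Not at hcon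
    obtain ⟨hf, hg⟩ := hcon
    rw [m59bh_mem_homPart] at hf hg
    push Not at hf hg
    -- lowest components not in `P`
    let i := Nat.find hf
    let j := Nat.find hg
    have hi : weightedHomogeneousComponent w i f ∉ P := Nat.find_spec hf
    have hj : weightedHomogeneousComponent w j g ∉ P := Nat.find_spec hg
    have hi' : ∀ a < i, weightedHomogeneousComponent w a f ∈ P := fun a ha => by
      by_contra h
      exact Nat.find_min hf ha h
    have hj' : ∀ b < j, weightedHomogeneousComponent w b g ∈ P := fun b hb => by
      by_contra h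
      exact Nat.find_min hg hb h
    have h1 := hfg (i + j)
    rw [m59bh_wHC_mul] at h1
    have hmem : (i, j) ∈ Finset.HasAntidiagonal.antidiagonal (i + j) := Finset.HasAntidiagonal.mem_antidiagonal.mpr rfl
    rw [← Finset.add_sum_erase _ _ hmem] at h1
    have h2 : ∑ ij ∈ (Finset.HasAntidiagonal.antidiagonal (i + j)).erase (i, j),
        weightedHomogeneousComponent w ij.1 f * weightedHomogeneousComponent w ij.2 g ∈ P := by
      refine P.sum_mem fun ab hab => ?_
      rw [Finset.mem_erase, Finset.HasAntidiagonal.mem_antidiagonal] at hab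
      obtain ⟨hne, hab⟩ := hab
      rcases lt_trichotomy ab.1 i with h | h | h
      · exact P.mul_mem_right _ (hi' _ h)
      · exfalso
        apply hne
        have : ab.2 = j := by omega
        exact Prod.ext h this
      · exact P.mul_mem_left _ (hj' _ (by omega))
    have h3 := (Ideal.add_mem_iff_left P h2).mp h1
    rcases hP.mem_or_mem h3 with h | h
    · exact hi h
    · exact hj h

end Mul

section Closed

variable {σ : Type*} [Finite σ] {R : Type*} [CommRing R] (w : σ → ℕ)

/-- for a weight `w ≤ 1`, a series whose components of weight `< n` vanish lies in the `n`-th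
power of the ideal of variables. -/
theorem m59bh_mem_pow_of_wHC_eq_zero (hw : ∀ s, w s ≤ 1) (n : ℕ) (f : MvPowerSeries σ R)
    (h : ∀ k < n, weightedHomogeneousComponent w k f = 0) :
    f ∈ (Ideal.span (Set.range X) : Ideal (MvPowerSeries σ R)) ^ n := by
  classical
  apply S53.mem_span_range_X_pow_of_truncTotal_eq_zero
  ext d
  rw [coeff_truncTotal_eq_ite, MvPolynomial.coeff_zero]
  split_ifs with hd
  · -- `weight w d ≤ degree d < n`
    have hle : weight w d ≤ degree d := by
      rw [Finsupp.weight_apply, Finsupp.degree_apply, Finsupp.sum]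
      refine Finset.sum_le_sum fun s _ => ?_
      have := hw s
      rw [smul_eq_mul]
      calc d s * w s ≤ d s * 1 := Nat.mul_le_mul_left _ this
        _ = d s := mul_one _
    have h1 := h (weight w d) (lt_of_le_of_lt hle hd)
    have h2 := congrArg (coeff d) h1
    rw [coeff_weightedHomogeneousComponent, if_pos rfl, map_zero] at h2
    exact h2
  · rfl

/-- the tail `f - ∑_{k<n} f_k` has vanishing components of weight `< n`. -/
theorem m59bh_tail_wHC (n : ℕ) (f : MvPowerSeries σ R) (k : ℕ) (hk : k < n) :
    weightedHomogeneousComponent w k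
      (f - ∑ i ∈ Finset.range n, weightedHomogeneousComponent w i f) = 0 := by
  classical
  ext d
  simp only [map_sub, map_sum, coeff_weightedHomogeneousComponent, map_zero]
  by_cases hd : weight w d = k
  · simp only [if_pos hd]
    rw [Finset.sum_ite_eq, if_pos (Finset.mem_range.mpr (by rw [hd]; exact hk)), sub_self]
  · simp only [if_neg hd]
    rw [Finset.sum_const_zero, sub_zero]

variable [IsNoetherianRing (MvPowerSeries σ R)] [IsLocalRing (MvPowerSeries σ R)]

/-- ideals are closed: `P^h ≤ P`. -/
theorem m59bh_homPart_le (hw : ∀ s, w s ≤ 1) (P : Ideal (MvPowerSeries σ R)) (hP : P ≠ ⊤) :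
    m59bh_homPart w P ≤ P := by
  classical
  intro f hf
  rw [m59bh_mem_homPart] at hf
  have hX : (Ideal.span (Set.range X) : Ideal (MvPowerSeries σ R)) ≤
      IsLocalRing.maximalIdeal (MvPowerSeries σ R) := by
    rw [Ideal.span_le]
    rintro _ ⟨s, rfl⟩
    rw [SetLike.mem_coe, IsLocalRing.mem_maximalIdeal, mem_nonunits_iff,
      MvPowerSeries.isUnit_iff_constantCoeff, MvPowerSeries.constantCoeff_X]
    intro h0
    have h01 : (0 : R) = 1 := isUnit_zero_iff.mp h0
    have h1 : (1 : MvPowerSeries σ R) = 0 := by
      ext e
      have : ∀ r : R, r = 0 := fun r => by rw [← mul_one r, ← h01, mul_zero]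
      exact this _
    exact absurd h1 one_ne_zero
  -- `f ∈ P + 𝔪 ^ n` for every `n`
  have key : ∀ n : ℕ, f ∈ P ⊔ IsLocalRing.maximalIdeal (MvPowerSeries σ R) ^ n := by
    intro n
    have h1 : f - ∑ i ∈ Finset.range n, weightedHomogeneousComponent w i f ∈
        (Ideal.span (Set.range X) : Ideal (MvPowerSeries σ R)) ^ n :=
      m59bh_mem_pow_of_wHC_eq_zero w hw n _ (fun k hk => m59bh_tail_wHC w n f k hk)
    have h2 : ∑ i ∈ Finset.range n, weightedHomogeneousComponent w i f ∈ P :=
      P.sum_mem fun i _ => hf i
    have h3 : f = ∑ i ∈ Finset.range n, weightedHomogeneousComponent w i f +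
        (f - ∑ i ∈ Finset.range n, weightedHomogeneousComponent w i f) := by ring
    rw [h3]
    exact Submodule.add_mem_sup h2 (Ideal.pow_right_mono hX n h1)
  -- Krull intersection in the quotient
  have hq : Ideal.Quotient.mk P f = 0 := by
    haveI : Nontrivial (MvPowerSeries σ R ⧸ P) := Ideal.Quotient.nontrivial_iff.mpr hP
    haveI : IsLocalRing (MvPowerSeries σ R ⧸ P) :=
      IsLocalRing.of_surjective' (Ideal.Quotient.mk P) Ideal.Quotient.mk_surjective
    have h1 : Ideal.Quotient.mk P f ∈
        (⨅ n : ℕ, IsLocalRing.maximalIdeal (MvPowerSeries σ R ⧸ P) ^ n) := by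
      rw [Ideal.mem_iInf]
      intro n
      obtain ⟨a, ha, b, hb, hab⟩ := Submodule.mem_sup.mp (key n)
      rw [← hab, map_add, Ideal.Quotient.eq_zero_iff_mem.mpr ha, zero_add]
      have h2 : Ideal.Quotient.mk P b ∈
          (IsLocalRing.maximalIdeal (MvPowerSeries σ R) ^ n).map (Ideal.Quotient.mk P) :=
        Ideal.mem_map_of_mem _ hb
      rw [Ideal.map_pow] at h2
      refine Ideal.pow_right_mono ?_ n h2
      rw [Ideal.map_le_iff_le_comap]
      intro x hx
      rw [Ideal.mem_comap]
      haveI : IsLocalHom (Ideal.Quotient.mk P) :=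
        IsLocalHom.of_surjective (Ideal.Quotient.mk P) Ideal.Quotient.mk_surjective
      exact map_nonunit (Ideal.Quotient.mk P) x hx
    rw [Ideal.iInf_pow_eq_bot_of_isLocalRing _ (IsLocalRing.maximalIdeal.isMaximal _).ne_top,
      Ideal.mem_bot] at h1
    exact h1
  exact Ideal.Quotient.eq_zero_iff_mem.mp hq

/-- **[HOM]**: a minimal prime over an ideal stable under the weighted homogeneous components
is stable under them. -/
theorem m59bh_hom_of_minimal (hw : ∀ s, w s ≤ 1) (J P : Ideal (MvPowerSeries σ R))
    (hJ : ∀ f ∈ J, ∀ k, weightedHomogeneousComponent w k f ∈ J)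
    (hP : P ∈ J.minimalPrimes) (f : MvPowerSeries σ R) (hf : f ∈ P) (k : ℕ) :
    weightedHomogeneousComponent w k f ∈ P := by
  obtain ⟨⟨hprime, hJP⟩, hmin⟩ := hP
  have h1 : (m59bh_homPart w P).IsPrime := m59bh_homPart_isPrime w hprime
  have h2 : J ≤ m59bh_homPart w P := fun g hg k => hJP (hJ g hg k)
  have h3 : m59bh_homPart w P ≤ P := m59bh_homPart_le w hw P hprime.ne_top
  have h4 : P ≤ m59bh_homPart w P := hmin ⟨h1, h2⟩ h3
  exact h4 hf k

/-- an ideal generated by weighted homogeneous elements is stable under the components. -/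
theorem m59bh_span_stable {σ : Type*} {R : Type*} [CommRing R] (w : σ → ℕ)
    (S : Set (MvPowerSeries σ R))
    (hS : ∀ g ∈ S, ∃ d, IsWeightedHomogeneous w g d) (f : MvPowerSeries σ R)
    (hf : f ∈ Ideal.span S) (k : ℕ) :
    weightedHomogeneousComponent w k f ∈ Ideal.span S := by
  classical
  induction hf using Submodule.span_induction generalizing k with
  | mem g hg =>
    obtain ⟨d, hd⟩ := hS g hg
    by_cases hk : k = d
    · subst hk
      rw [← isWeightedHomogeneous_iff_eq_weightedHomogeneousComponent.mp hd]
      exact Ideal.subset_span hg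
    · have : weightedHomogeneousComponent w k g = 0 := by
        ext e
        rw [coeff_weightedHomogeneousComponent, map_zero]
        split_ifs with he
        · exact hd.coeff_eq_zero (by rw [he]; exact hk)
        · rfl
      rw [this]
      exact Submodule.zero_mem _
  | zero => rw [map_zero]; exact Submodule.zero_mem _
  | add x y _ _ hx hy => rw [map_add]; exact Submodule.add_mem _ (hx k) (hy k)
  | smul c x _ hx =>
    rw [smul_eq_mul, m59bh_wHC_mul]
    exact Submodule.sum_mem _ fun ij _ => Ideal.mul_mem_left _ _ (hx ij.2)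

end Closed

end Fermat.Agent.M59

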