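import Mathlib
import Fermat.Agent.TW.Loc.Rel8
import Fermat.Agent.TW.Loc.QuotInst
import Fermat.Agent.M59.Loc.Hom

/-!
# M59 / [B] : the concrete patched ring `R_∞ = P / J` of the S59 engine (helper4; prefix `m59b_`)

Variables of `P = m59b_P O T8 Tn κ = twb_r8_P O T8 ((Tn × Fin 3) ⊕ κ)`
(`= MvPowerSeries ((T8 × Fin 2 × Fin 2 × Fin 2) ⊕ ((Tn × Fin 3) ⊕ κ)) O`):

* `T8` : the SCALAR-hard primes of `B'`, with main's eight coordinates: `X (inl (t, 0, i, j))` =
  entries of `N_t = Σ_t - 1`, `X (inl (t, 1, i, j))` = entries of `Φ_t - a_t`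
  (`twb_r8_Sig`, `twb_r8_Phi` of `TW/Loc/Rel8.lean`, verbatim);
* `Tn` : the NON-scalar primes of `B'` in the companion normalisation (#5231): `X (inr (inl (l, 0)))`
  `= t'_l = tr Φ_l - t0_l`, `X (inr (inl (l, 1))) = n₁`, `X (inr (inl (l, 2))) = n₂`
  (`N_l = (n₁, n₂; -n₂, -n₁)`);
* `κ` : free variables (patching variables, and the coordinates at `p`).

Relations (`m59b_J`): at `t : T8` the HOMOGENEOUS system `tr N = 0`, `det N = 0`, `Φ N = l N Φ`,
`det Φ = l` (`m59b_rel8`; it holds in every Hecke ring where the unipotent system holds, since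
`(Σ - 1)² = 0`); at `l : Tn` the three relations `(1 + l) n₁ = t n₂`,
`(1 - l)((1 + l) n₂ - t n₁) = 0`, `n₁² = n₂²` (`m59b_reln`).

Elements: `m59b_u` (all the `N`-coordinates), `m59b_r8`, `m59b_rn` (`(tr Φ)² - (l + 1)²`),
`m59b_s8`, `m59b_sn` (`(l + 1) - ε tr Φ`).

Results of this file: the weights `m59b_w8 t`, `m59b_wn l` (`1` on the `N`-coordinates of one prime)
and the stability of `J` under the weighted homogeneous components (`m59b_J_stable8`,
`m59b_J_stablen`: input of [HOM], `m59bh_hom_of_minimal`); `m59b_J_le_maximalIdeal`, `m59b_J_ne_top`.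
-/

set_option autoImplicit false
set_option linter.unusedSectionVars false
set_option linter.style.haveILetI false

namespace Fermat.Agent.M59

open MvPowerSeries Matrix IsLocalRing Fermat.Agent.TW

noncomputable section

/-! ### weighted homogeneity: small API -/

section Homog

variable {σ : Type*} {R : Type*} [CommRing R] (w : σ → ℕ)

theorem m59b_homog_X (s : σ) : IsWeightedHomogeneous w (X s : MvPowerSeries σ R) (w s) := by
  classical
  intro d hd
  rw [coeff_X] at hd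
  split_ifs at hd with h
  · rw [h, Finsupp.weight_single, one_smul]
  · exact absurd rfl hd

theorem m59b_homog_C (c : R) : IsWeightedHomogeneous w (C c : MvPowerSeries σ R) 0 := by
  classical
  intro d hd
  rw [coeff_C] at hd
  split_ifs at hd with h
  · rw [h, map_zero]
  · exact absurd rfl hd

theorem m59b_homog_zero (k : ℕ) : IsWeightedHomogeneous w (0 : MvPowerSeries σ R) k := by
  intro d hd
  exact absurd (map_zero _) hd

theorem m59b_homog_one : IsWeightedHomogeneous w (1 : MvPowerSeries σ R) 0 := by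
  have h : IsWeightedHomogeneous w (C (1 : R) : MvPowerSeries σ R) 0 := m59b_homog_C w 1
  rwa [map_one] at h

theorem m59b_homog_natCast (n : ℕ) : IsWeightedHomogeneous w ((n : ℕ) : MvPowerSeries σ R) 0 := by
  have h : IsWeightedHomogeneous w (C (n : R) : MvPowerSeries σ R) 0 := m59b_homog_C w (n : R)
  rwa [map_natCast] at h

theorem m59b_homog_neg {f : MvPowerSeries σ R} {k : ℕ} (hf : IsWeightedHomogeneous w f k) :
    IsWeightedHomogeneous w (-f) k := by
  intro d hd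
  apply hf
  intro h
  apply hd
  rw [map_neg, h, neg_zero]

theorem m59b_homog_sub {f g : MvPowerSeries σ R} {k : ℕ} (hf : IsWeightedHomogeneous w f k)
    (hg : IsWeightedHomogeneous w g k) : IsWeightedHomogeneous w (f - g) k := by
  rw [sub_eq_add_neg]
  exact IsWeightedHomogeneous.add hf (m59b_homog_neg w hg)

theorem m59b_homog_add {f g : MvPowerSeries σ R} {k : ℕ} (hf : IsWeightedHomogeneous w f k)
    (hg : IsWeightedHomogeneous w g k) : IsWeightedHomogeneous w (f + g) k :=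
  IsWeightedHomogeneous.add hf hg

theorem m59b_homog_mul {f g : MvPowerSeries σ R} {k k' : ℕ} (hf : IsWeightedHomogeneous w f k)
    (hg : IsWeightedHomogeneous w g k') : IsWeightedHomogeneous w (f * g) (k + k') :=
  IsWeightedHomogeneous.mul hf hg

theorem m59b_homog_X' (s : σ) (δ : ℕ) (h : w s = δ) :
    IsWeightedHomogeneous w (X s : MvPowerSeries σ R) δ := by
  subst h
  exact m59b_homog_X w s

theorem m59b_homog_zero_mul {f g : MvPowerSeries σ R} {k : ℕ} (hf : IsWeightedHomogeneous w f 0)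
    (hg : IsWeightedHomogeneous w g k) : IsWeightedHomogeneous w (f * g) k := by
  have h : IsWeightedHomogeneous w (f * g) (0 + k) := IsWeightedHomogeneous.mul hf hg
  rwa [zero_add] at h

theorem m59b_homog_mul_zero {f g : MvPowerSeries σ R} {k : ℕ} (hf : IsWeightedHomogeneous w f k)
    (hg : IsWeightedHomogeneous w g 0) : IsWeightedHomogeneous w (f * g) k := by
  have h : IsWeightedHomogeneous w (f * g) (k + 0) := IsWeightedHomogeneous.mul hf hg
  rwa [add_zero] at h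

end Homog

/-! ### the ring -/

section Defs

variable (O : Type) [CommRing O] (T8 Tn κ : Type)

/-- the variables other than the eight-coordinate blocks. -/
abbrev m59b_Aux : Type := (Tn × Fin 3) ⊕ κ

/-- the power series ring `P`. -/
abbrev m59b_P : Type := twb_r8_P O T8 (m59b_Aux Tn κ)

variable {T8 Tn}

/-- the universal `N_t = Σ_t - 1` at a scalar-hard prime. -/
def m59b_N8 (t : T8) : Matrix (Fin 2) (Fin 2) (m59b_P O T8 Tn κ) :=
  Matrix.of fun i j => X (Sum.inl (t, 0, i, j))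

/-- the universal `Φ_t = a_t + (X (t, 1, i, j))` at a scalar-hard prime (main's `twb_r8_Phi`). -/
def m59b_Phi8 (a : T8 → O) (t : T8) : Matrix (Fin 2) (Fin 2) (m59b_P O T8 Tn κ) :=
  twb_r8_Phi O (m59b_Aux Tn κ) a t

/-- the relations at a scalar-hard prime: `tr N = det N = 0`, `Φ N = l N Φ`, `det Φ = l`. -/
def m59b_rel8 (a : T8 → O) (l8 : T8 → ℕ) (t : T8) : Set (m59b_P O T8 Tn κ) :=
  {(m59b_N8 O κ t).trace, (m59b_N8 O κ t).det} ∪
    twb_r8_entries (m59b_Phi8 O κ a t * m59b_N8 O κ t -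
      ((l8 t : ℕ) : m59b_P O T8 Tn κ) • (m59b_N8 O κ t * m59b_Phi8 O κ a t)) ∪
    {(m59b_Phi8 O κ a t).det - ((l8 t : ℕ) : m59b_P O T8 Tn κ)}

variable (T8)

/-- the trace coordinate `t_l = t0_l + t'_l` at a non-scalar prime. -/
def m59b_tn (t0 : Tn → O) (l : Tn) : m59b_P O T8 Tn κ :=
  C (t0 l) + X (Sum.inr (Sum.inl (l, 0)))

/-- the coordinate `n₁` at a non-scalar prime. -/
def m59b_n1 (l : Tn) : m59b_P O T8 Tn κ := X (Sum.inr (Sum.inl (l, 1)))

/-- the coordinate `n₂` at a non-scalar prime. -/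
def m59b_n2 (l : Tn) : m59b_P O T8 Tn κ := X (Sum.inr (Sum.inl (l, 2)))

/-- the relations at a non-scalar prime (companion normalisation). -/
def m59b_reln (t0 : Tn → O) (ln : Tn → ℕ) (l : Tn) : Set (m59b_P O T8 Tn κ) :=
  {(1 + ((ln l : ℕ) : m59b_P O T8 Tn κ)) * m59b_n1 O T8 κ l - m59b_tn O T8 κ t0 l * m59b_n2 O T8 κ l,
    (1 - ((ln l : ℕ) : m59b_P O T8 Tn κ)) *
      ((1 + ((ln l : ℕ) : m59b_P O T8 Tn κ)) * m59b_n2 O T8 κ l -
        m59b_tn O T8 κ t0 l * m59b_n1 O T8 κ l),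
    m59b_n1 O T8 κ l ^ 2 - m59b_n2 O T8 κ l ^ 2}

variable {T8}

/-- the ideal of relations. -/
def m59b_J (a : T8 → O) (l8 : T8 → ℕ) (t0 : Tn → O) (ln : Tn → ℕ) : Ideal (m59b_P O T8 Tn κ) :=
  Ideal.span ((⋃ t : T8, m59b_rel8 O κ a l8 t) ∪ (⋃ l : Tn, m59b_reln O T8 κ t0 ln l))

/-- `R_∞ = P / J`. -/
abbrev m59b_R (a : T8 → O) (l8 : T8 → ℕ) (t0 : Tn → O) (ln : Tn → ℕ) : Type :=
  m59b_P O T8 Tn κ ⧸ m59b_J O κ a l8 t0 ln

/-- all the `N`-coordinates (the elements `u` of `m59d_chain_patch`). -/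
def m59b_u : (T8 × Fin 2 × Fin 2) ⊕ (Tn × Fin 2) → m59b_P O T8 Tn κ
  | Sum.inl (t, i, j) => X (Sum.inl (t, 0, i, j))
  | Sum.inr (l, i) => X (Sum.inr (Sum.inl (l, Fin.succ i)))

/-- `r_t = (tr Φ_t)² - (l + 1)²` at a scalar-hard prime. -/
def m59b_r8 (a : T8 → O) (l8 : T8 → ℕ) (t : T8) : m59b_P O T8 Tn κ :=
  (m59b_Phi8 O κ a t).trace ^ 2 - (((l8 t : ℕ) : m59b_P O T8 Tn κ) + 1) ^ 2

/-- `r_l = t_l² - (l + 1)²` at a non-scalar prime. -/
def m59b_rn (t0 : Tn → O) (ln : Tn → ℕ) (l : Tn) : m59b_P O T8 Tn κ :=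
  m59b_tn O T8 κ t0 l ^ 2 - (((ln l : ℕ) : m59b_P O T8 Tn κ) + 1) ^ 2

/-- `s_t = (l + 1) - ε tr Φ_t` at a scalar-hard prime. -/
def m59b_s8 (a : T8 → O) (l8 : T8 → ℕ) (ε : T8 → ℤ) (t : T8) : m59b_P O T8 Tn κ :=
  (((l8 t : ℕ) : m59b_P O T8 Tn κ) + 1) - ((ε t : ℤ) : m59b_P O T8 Tn κ) * (m59b_Phi8 O κ a t).trace

/-- `s_l = (l + 1) - ε t_l` at a non-scalar prime. -/
def m59b_sn (t0 : Tn → O) (ln : Tn → ℕ) (ε : Tn → ℤ) (l : Tn) : m59b_P O T8 Tn κ :=
  (((ln l : ℕ) : m59b_P O T8 Tn κ) + 1) - ((ε l : ℤ) : m59b_P O T8 Tn κ) * m59b_tn O T8 κ t0 l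

open Classical in
/-- the weight `1` on the four `N`-coordinates of the scalar-hard prime `t`, `0` elsewhere. -/
def m59b_w8 (t : T8) : twb_r8_Idx T8 (m59b_Aux Tn κ) → ℕ
  | Sum.inl (t', e, _, _) => if t' = t ∧ e = 0 then 1 else 0
  | Sum.inr _ => 0

open Classical in
/-- the weight `1` on `n₁, n₂` of the non-scalar prime `l`, `0` elsewhere. -/
def m59b_wn (l : Tn) : twb_r8_Idx T8 (m59b_Aux Tn κ) → ℕ
  | Sum.inl _ => 0
  | Sum.inr (Sum.inl (l', i)) => if l' = l ∧ i ≠ 0 then 1 else 0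
  | Sum.inr (Sum.inr _) => 0

end Defs

/-! ### homogeneity of the relations -/

section HomogRel

variable {O : Type} [CommRing O] {T8 Tn κ : Type}
  (w : twb_r8_Idx T8 (m59b_Aux Tn κ) → ℕ)

theorem m59b_Phi8_homog (a : T8 → O) (t : T8) (h1 : ∀ i j, w (Sum.inl (t, 1, i, j)) = 0)
    (i j : Fin 2) : IsWeightedHomogeneous w (m59b_Phi8 O κ a t i j) 0 := by
  have hX : IsWeightedHomogeneous w
      (X (Sum.inl (t, 1, i, j)) : m59b_P O T8 Tn κ) 0 :=
    m59b_homog_X' w _ 0 (h1 i j)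
  have hS : IsWeightedHomogeneous w
      ((Matrix.scalar (Fin 2) (C (a t) : m59b_P O T8 Tn κ)) i j) 0 := by
    by_cases hij : i = j
    · subst hij
      rw [Matrix.scalar_apply, Matrix.diagonal_apply_eq]
      exact m59b_homog_C w _
    · rw [Matrix.scalar_apply, Matrix.diagonal_apply_ne _ hij]
      exact m59b_homog_zero w 0
  show IsWeightedHomogeneous w
    ((Matrix.scalar (Fin 2) (C (a t) : m59b_P O T8 Tn κ)) i j + X (Sum.inl (t, 1, i, j))) 0
  exact m59b_homog_add w hS hX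

/-- the relations at `t` are homogeneous for every weight which is constant `= δ` on the
`N`-coordinates of `t` and `0` on the `Φ`-coordinates of `t`. -/
theorem m59b_rel8_homog (a : T8 → O) (l8 : T8 → ℕ) (t : T8) (δ : ℕ)
    (h0 : ∀ i j, w (Sum.inl (t, 0, i, j)) = δ) (h1 : ∀ i j, w (Sum.inl (t, 1, i, j)) = 0) :
    ∀ g ∈ m59b_rel8 O κ a l8 t, ∃ d, IsWeightedHomogeneous w g d := by
  have hN : ∀ i j, IsWeightedHomogeneous w (m59b_N8 O κ t i j : m59b_P O T8 Tn κ) δ :=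
    fun i j => m59b_homog_X' w _ δ (h0 i j)
  have hΦ := m59b_Phi8_homog w a t h1
  intro g hg
  rcases hg with (hg | hg) | hg
  · rcases hg with hg | hg
    · rw [hg, Matrix.trace_fin_two]
      exact ⟨δ, m59b_homog_add w (hN 0 0) (hN 1 1)⟩
    · rw [Set.mem_singleton_iff] at hg
      rw [hg, Matrix.det_fin_two]
      exact ⟨δ + δ, m59b_homog_sub w (m59b_homog_mul w (hN 0 0) (hN 1 1))
        (m59b_homog_mul w (hN 0 1) (hN 1 0))⟩
  · obtain ⟨⟨i, j⟩, rfl⟩ := hg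
    refine ⟨δ, ?_⟩
    simp only [Matrix.sub_apply, Matrix.smul_apply, Matrix.mul_apply, Fin.sum_univ_two,
      smul_eq_mul]
    refine m59b_homog_sub w ?_ ?_
    · exact m59b_homog_add w (m59b_homog_zero_mul w (hΦ i 0) (hN 0 j))
        (m59b_homog_zero_mul w (hΦ i 1) (hN 1 j))
    · refine m59b_homog_zero_mul w (m59b_homog_natCast w _) ?_
      exact m59b_homog_add w (m59b_homog_mul_zero w (hN i 0) (hΦ 0 j))
        (m59b_homog_mul_zero w (hN i 1) (hΦ 1 j))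
  · rw [Set.mem_singleton_iff] at hg
    rw [hg, Matrix.det_fin_two]
    refine ⟨0, m59b_homog_sub w (m59b_homog_sub w ?_ ?_) (m59b_homog_natCast w _)⟩
    · exact m59b_homog_zero_mul w (hΦ 0 0) (hΦ 1 1)
    · exact m59b_homog_zero_mul w (hΦ 0 1) (hΦ 1 0)

/-- the relations at `l` are homogeneous for every weight which is `0` on `t'_l` and has the same
value `δ` on `n₁`, `n₂`. -/
theorem m59b_reln_homog (t0 : Tn → O) (ln : Tn → ℕ) (l : Tn) (δ : ℕ)
    (h0 : w (Sum.inr (Sum.inl (l, 0))) = 0) (h1 : w (Sum.inr (Sum.inl (l, 1))) = δ)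
    (h2 : w (Sum.inr (Sum.inl (l, 2))) = δ) :
    ∀ g ∈ m59b_reln O T8 κ t0 ln l, ∃ d, IsWeightedHomogeneous w g d := by
  have hn1 : IsWeightedHomogeneous w (m59b_n1 O T8 κ l : m59b_P O T8 Tn κ) δ :=
    m59b_homog_X' w _ δ h1
  have hn2 : IsWeightedHomogeneous w (m59b_n2 O T8 κ l : m59b_P O T8 Tn κ) δ :=
    m59b_homog_X' w _ δ h2
  have ht : IsWeightedHomogeneous w (m59b_tn O T8 κ t0 l : m59b_P O T8 Tn κ) 0 :=
    m59b_homog_add w (m59b_homog_C w _) (m59b_homog_X' w _ 0 h0)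
  have hc : IsWeightedHomogeneous w (1 + ((ln l : ℕ) : m59b_P O T8 Tn κ)) 0 :=
    m59b_homog_add w (m59b_homog_one w) (m59b_homog_natCast w _)
  have hc' : IsWeightedHomogeneous w (1 - ((ln l : ℕ) : m59b_P O T8 Tn κ)) 0 :=
    m59b_homog_sub w (m59b_homog_one w) (m59b_homog_natCast w _)
  intro g hg
  rcases hg with hg | hg | hg
  · rw [hg]
    exact ⟨δ, m59b_homog_sub w (m59b_homog_zero_mul w hc hn1) (m59b_homog_zero_mul w ht hn2)⟩
  · rw [hg]
    exact ⟨δ, m59b_homog_zero_mul w hc'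
      (m59b_homog_sub w (m59b_homog_zero_mul w hc hn2) (m59b_homog_zero_mul w ht hn1))⟩
  · rw [Set.mem_singleton_iff] at hg
    rw [hg, pow_two, pow_two]
    exact ⟨δ + δ, m59b_homog_sub w (m59b_homog_mul w hn1 hn1) (m59b_homog_mul w hn2 hn2)⟩

variable (O κ) in
/-- **stability of `J`** under the weighted homogeneous components, for a weight which on every
block is `(δ on N, 0 on Φ)` resp. `(0 on t', δ on n₁, n₂)`. -/
theorem m59b_J_stable (a : T8 → O) (l8 : T8 → ℕ) (t0 : Tn → O) (ln : Tn → ℕ)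
    (δ8 : T8 → ℕ) (δn : Tn → ℕ)
    (h80 : ∀ t i j, w (Sum.inl (t, 0, i, j)) = δ8 t) (h81 : ∀ t i j, w (Sum.inl (t, 1, i, j)) = 0)
    (hn0 : ∀ l, w (Sum.inr (Sum.inl (l, 0))) = 0) (hn1 : ∀ l, w (Sum.inr (Sum.inl (l, 1))) = δn l)
    (hn2 : ∀ l, w (Sum.inr (Sum.inl (l, 2))) = δn l)
    (f : m59b_P O T8 Tn κ) (hf : f ∈ m59b_J O κ a l8 t0 ln) (k : ℕ) :
    weightedHomogeneousComponent w k f ∈ m59b_J O κ a l8 t0 ln := by
  refine m59bh_span_stable w _ ?_ f hf k
  intro g hg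
  rcases hg with hg | hg
  · obtain ⟨t, ht⟩ := Set.mem_iUnion.mp hg
    exact m59b_rel8_homog w a l8 t (δ8 t) (h80 t) (h81 t) g ht
  · obtain ⟨l, hl⟩ := Set.mem_iUnion.mp hg
    exact m59b_reln_homog w t0 ln l (δn l) (hn0 l) (hn1 l) (hn2 l) g hl

end HomogRel

/-! ### the concrete weights -/

section Weights

variable (O : Type) [CommRing O] {T8 Tn : Type} (κ : Type)

theorem m59b_w8_le_one (t : T8) (s : twb_r8_Idx T8 (m59b_Aux Tn κ)) : m59b_w8 κ t s ≤ 1 := by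
  classical
  rcases s with ⟨t', e, i, j⟩ | s
  · show (if t' = t ∧ e = 0 then 1 else 0) ≤ 1
    split_ifs <;> omega
  · exact Nat.zero_le 1

theorem m59b_wn_le_one (l : Tn) (s : twb_r8_Idx T8 (m59b_Aux Tn κ)) :
    m59b_wn (T8 := T8) κ l s ≤ 1 := by
  classical
  rcases s with s | ⟨l', i⟩ | s
  · exact Nat.zero_le 1
  · show (if l' = l ∧ i ≠ 0 then 1 else 0) ≤ 1
    split_ifs <;> omega
  · exact Nat.zero_le 1

/-- `J` is stable under the components of the weight `m59b_w8 t`. -/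
theorem m59b_J_stable8 (a : T8 → O) (l8 : T8 → ℕ) (t0 : Tn → O) (ln : Tn → ℕ) (t : T8)
    (f : m59b_P O T8 Tn κ) (hf : f ∈ m59b_J O κ a l8 t0 ln) (k : ℕ) :
    weightedHomogeneousComponent (m59b_w8 κ t) k f ∈ m59b_J O κ a l8 t0 ln := by
  classical
  refine m59b_J_stable O κ (m59b_w8 κ t) a l8 t0 ln (fun t' => if t' = t then 1 else 0)
    (fun _ => 0) ?_ ?_ ?_ ?_ ?_ f hf k
  · intro t' i j
    show (if t' = t ∧ (0 : Fin 2) = 0 then 1 else 0) = _
    by_cases h : t' = t <;> simp [h]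
  · intro t' i j
    show (if t' = t ∧ (1 : Fin 2) = 0 then 1 else 0) = 0
    simp
  · intro l; rfl
  · intro l; rfl
  · intro l; rfl

/-- `J` is stable under the components of the weight `m59b_wn l`. -/
theorem m59b_J_stablen (a : T8 → O) (l8 : T8 → ℕ) (t0 : Tn → O) (ln : Tn → ℕ) (l : Tn)
    (f : m59b_P O T8 Tn κ) (hf : f ∈ m59b_J O κ a l8 t0 ln) (k : ℕ) :
    weightedHomogeneousComponent (m59b_wn κ l) k f ∈ m59b_J O κ a l8 t0 ln := by
  classical
  refine m59b_J_stable O κ (m59b_wn κ l) a l8 t0 ln (fun _ => 0)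
    (fun l' => if l' = l then 1 else 0) ?_ ?_ ?_ ?_ ?_ f hf k
  · intro t' i j; rfl
  · intro t' i j; rfl
  · intro l'
    show (if l' = l ∧ (0 : Fin 3) ≠ 0 then 1 else 0) = 0
    simp
  · intro l'
    show (if l' = l ∧ (1 : Fin 3) ≠ 0 then 1 else 0) = _
    by_cases h : l' = l <;> simp [h]
  · intro l'
    show (if l' = l ∧ (2 : Fin 3) ≠ 0 then 1 else 0) = _
    by_cases h : l' = l <;> simp [h]

end Weights

/-! ### `J ≤ 𝔪_P` and the instances of `R_∞` -/

section Inst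

variable (O : Type) [CommRing O] [IsLocalRing O] {T8 Tn : Type} (κ : Type)

theorem m59b_J_le_maximalIdeal (a : T8 → O) (l8 : T8 → ℕ) (t0 : Tn → O) (ln : Tn → ℕ)
    (ha : ∀ t, a t ^ 2 - (l8 t : O) ∈ maximalIdeal O) :
    m59b_J O κ a l8 t0 ln ≤ maximalIdeal (m59b_P O T8 Tn κ) := by
  rw [m59b_J, Ideal.span_le]
  intro g hg
  rw [SetLike.mem_coe, twb_qi_mem_maximalIdeal_iff]
  rcases hg with hg | hg
  · obtain ⟨t, ht⟩ := Set.mem_iUnion.mp hg
    rcases ht with (ht | ht) | ht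
    · rcases ht with ht | ht
      · rw [ht]
        simp [m59b_N8, Matrix.trace_fin_two]
      · rw [Set.mem_singleton_iff] at ht
        rw [ht]
        simp [m59b_N8, Matrix.det_fin_two]
    · obtain ⟨⟨i, j⟩, rfl⟩ := ht
      simp [m59b_N8, Matrix.mul_apply, Fin.sum_univ_two]
    · rw [Set.mem_singleton_iff] at ht
      rw [ht]
      have h := ha t
      have e : constantCoeff ((m59b_Phi8 O κ a t).det - ((l8 t : ℕ) : m59b_P O T8 Tn κ)) =
          a t ^ 2 - (l8 t : O) := by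
        simp [m59b_Phi8, twb_r8_Phi, Matrix.det_fin_two, pow_two]
      rw [e]
      exact h
  · obtain ⟨l, hl⟩ := Set.mem_iUnion.mp hg
    rcases hl with hl | hl | hl
    · rw [hl]
      simp [m59b_n1, m59b_n2]
    · rw [hl]
      simp [m59b_n1, m59b_n2]
    · rw [Set.mem_singleton_iff] at hl
      rw [hl]
      simp [m59b_n1, m59b_n2]

theorem m59b_J_ne_top (a : T8 → O) (l8 : T8 → ℕ) (t0 : Tn → O) (ln : Tn → ℕ)
    (ha : ∀ t, a t ^ 2 - (l8 t : O) ∈ maximalIdeal O) :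
    m59b_J O κ a l8 t0 ln ≠ ⊤ := fun h =>
  (maximalIdeal.isMaximal (m59b_P O T8 Tn κ)).ne_top
    (top_le_iff.1 (h ▸ m59b_J_le_maximalIdeal O κ a l8 t0 ln ha))

/-- `R_∞` is local. -/
theorem m59b_R_isLocalRing (a : T8 → O) (l8 : T8 → ℕ) (t0 : Tn → O) (ln : Tn → ℕ)
    (ha : ∀ t, a t ^ 2 - (l8 t : O) ∈ maximalIdeal O) :
    IsLocalRing (m59b_R O κ a l8 t0 ln) :=
  twb_qi_isLocalRing (m59b_J_ne_top O κ a l8 t0 ln ha)

section packaged

variable [IsNoetherianRing O] [Finite T8] [Finite Tn] [Finite κ]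
  (a : T8 → O) (l8 : T8 → ℕ) (t0 : Tn → O) (ln : Tn → ℕ)

/-- `R_∞` is noetherian. -/
theorem m59b_R_isNoetherianRing : IsNoetherianRing (m59b_R O κ a l8 t0 ln) :=
  inferInstance

/-- `R_∞` is complete. -/
theorem m59b_R_isAdicComplete [IsAdicComplete (maximalIdeal O) O]
    [IsLocalRing (m59b_R O κ a l8 t0 ln)] :
    IsAdicComplete (maximalIdeal (m59b_R O κ a l8 t0 ln)) (m59b_R O κ a l8 t0 ln) :=
  twb_qi_isAdicComplete_mvps _

/-- `hR` of `m59d_chain_patch`. -/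
theorem m59b_R_finite [Finite (ResidueField O)] [IsLocalRing (m59b_R O κ a l8 t0 ln)] (k : ℕ) :
    Finite (m59b_R O κ a l8 t0 ln ⧸ maximalIdeal (m59b_R O κ a l8 t0 ln) ^ k) :=
  twb_qi_finite_quot_pow_mvps _ k

end packaged

end Inst

end

end Fermat.Agent.M59
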