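import Mathlib
import Fermat.Agent.S53.PowerSeriesComplete

/-!
# M59 / [B] : cell (LOC-norm), abstract form (helper4; prefix `m59bl_`)

`R₀ = MvPowerSeries σ O`, `x₀ : σ` a distinguished variable, `w = ` the indicator weight of `x₀`.

* `m59bl_algHom_ext` : two `O`-algebra maps `R₀ → O'` (`O'` noetherian local) which agree on the
  variables and send them into the maximal ideal are equal;
* `m59bl_kill x₀` : the endomorphism `X x₀ ↦ 0` of `R₀`, coefficientwise;
* `m59bl_div x₀ k f` : the quotient of the component of weight `k` of `f` by `X x₀ ^ k`;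
* `m59bl_loc_norm` : **(LOC-norm)**: `P` a prime, stable under the weighted homogeneous components,
  `X x₀ ∉ P`, `y y' : R₀ →ₐ[O] O` two points which agree off `x₀`, `y (X x₀) = 0`,
  `P ≤ ker y` `⟹` `P ≤ ker y'`.
-/

set_option autoImplicit false
set_option linter.unusedSectionVars false

namespace Fermat.Agent.M59

open MvPowerSeries Finsupp IsLocalRing

section Ext

variable {σ : Type*} [Finite σ] {O : Type*} [CommRing O]
  {O' : Type*} [CommRing O'] [Algebra O O'] [IsLocalRing O'] [IsNoetherianRing O']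

/-- the image of the `n`-th power of the ideal of variables under a map sending the variables into
the maximal ideal lies in `𝔪 ^ n`. -/
theorem m59bl_map_pow_mem (φ : MvPowerSeries σ O →ₐ[O] O')
    (hφ : ∀ s, φ (X s) ∈ maximalIdeal O') (n : ℕ) (f : MvPowerSeries σ O)
    (hf : f ∈ (Ideal.span (Set.range X) : Ideal (MvPowerSeries σ O)) ^ n) :
    φ f ∈ maximalIdeal O' ^ n := by
  have h1 : (Ideal.span (Set.range X) : Ideal (MvPowerSeries σ O)).map (φ : _ →+* O') ≤
      maximalIdeal O' := by
    rw [Ideal.map_span, Ideal.span_le]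
    rintro _ ⟨_, ⟨s, rfl⟩, rfl⟩
    exact hφ s
  have h2 := Ideal.mem_map_of_mem (φ : MvPowerSeries σ O →+* O') hf
  rw [Ideal.map_pow] at h2
  exact Ideal.pow_right_mono h1 n h2

/-- uniqueness of points. -/
theorem m59bl_algHom_ext (φ ψ : MvPowerSeries σ O →ₐ[O] O')
    (hφ : ∀ s, φ (X s) ∈ maximalIdeal O') (hX : ∀ s, φ (X s) = ψ (X s)) : φ = ψ := by
  have hψ : ∀ s, ψ (X s) ∈ maximalIdeal O' := fun s => hX s ▸ hφ s
  have hpoly : ∀ p : MvPolynomial σ O, φ (p : MvPowerSeries σ O) = ψ (p : MvPowerSeries σ O) := by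
    intro p
    have e1 : (φ.comp (MvPolynomial.coeToMvPowerSeries.algHom (σ := σ) (R := O) O)) =
        (ψ.comp (MvPolynomial.coeToMvPowerSeries.algHom (σ := σ) (R := O) O)) := by
      apply MvPolynomial.algHom_ext
      intro i
      simpa using hX i
    exact congrArg (fun g => g p) e1
  apply AlgHom.ext
  intro f
  have key : ∀ n : ℕ, φ f - ψ f ∈ maximalIdeal O' ^ n := by
    intro n
    have h1 := S53.sub_truncTotal_mem_span_range_X_pow n f
    have h2 : φ f - ψ f =
        φ (f - ((truncTotal n f : MvPolynomial σ O) : MvPowerSeries σ O)) -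
          ψ (f - ((truncTotal n f : MvPolynomial σ O) : MvPowerSeries σ O)) := by
      rw [map_sub, map_sub, hpoly]
      ring
    rw [h2]
    exact Ideal.sub_mem _ (m59bl_map_pow_mem φ hφ n _ h1) (m59bl_map_pow_mem ψ hψ n _ h1)
  have h3 : φ f - ψ f ∈ (⨅ n : ℕ, maximalIdeal O' ^ n) := by
    rw [Ideal.mem_iInf]
    exact key
  rw [Ideal.iInf_pow_eq_bot_of_isLocalRing _ (maximalIdeal.isMaximal O').ne_top, Ideal.mem_bot,
    sub_eq_zero] at h3
  exact h3

end Ext

section Kill

variable {σ : Type*} [DecidableEq σ] {O : Type*} [CommRing O] (x₀ : σ)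

/-- the indicator weight of `x₀`. -/
def m59bl_w : σ → ℕ := fun s => if s = x₀ then 1 else 0

theorem m59bl_w_le (s : σ) : m59bl_w x₀ s ≤ 1 := by
  unfold m59bl_w
  split_ifs <;> omega

theorem m59bl_weight (d : σ →₀ ℕ) : weight (m59bl_w x₀) d = d x₀ := by
  classical
  rw [Finsupp.weight_apply, Finsupp.sum]
  by_cases h : x₀ ∈ d.support
  · rw [Finset.sum_eq_single x₀]
    · simp [m59bl_w]
    · intro s _ hs
      simp [m59bl_w, hs]
    · intro hn
      exact absurd h hn
  · rw [Finsupp.notMem_support_iff.mp h]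
    refine Finset.sum_eq_zero fun s hs => ?_
    have : s ≠ x₀ := fun e => h (e ▸ hs)
    simp [m59bl_w, this]

/-- the underlying function of `m59bl_kill`. -/
noncomputable def m59bl_killFun (f : MvPowerSeries σ O) : MvPowerSeries σ O :=
  fun d => if d x₀ = 0 then coeff d f else 0

theorem m59bl_coeff_killFun (f : MvPowerSeries σ O) (d : σ →₀ ℕ) :
    coeff d (m59bl_killFun x₀ f) = if d x₀ = 0 then coeff d f else 0 := rfl

/-- the endomorphism `X x₀ ↦ 0`, coefficientwise. -/
noncomputable def m59bl_kill : MvPowerSeries σ O →ₐ[O] MvPowerSeries σ O where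
  toFun := m59bl_killFun x₀
  map_one' := by
    classical
    ext d
    rw [m59bl_coeff_killFun, coeff_one]
    by_cases hd : d = 0
    · subst hd
      simp
    · rw [if_neg hd]
      split_ifs <;> rfl
  map_mul' f g := by
    classical
    ext d
    rw [m59bl_coeff_killFun, coeff_mul, coeff_mul]
    split_ifs with hd
    · refine Finset.sum_congr rfl fun x hx => ?_
      rw [Finset.HasAntidiagonal.mem_antidiagonal] at hx
      have h1 : x.1 x₀ + x.2 x₀ = 0 := by
        rw [← Finsupp.add_apply, hx, hd]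
      have h2 : x.1 x₀ = 0 := by omega
      have h3 : x.2 x₀ = 0 := by omega
      rw [m59bl_coeff_killFun, m59bl_coeff_killFun, if_pos h2, if_pos h3]
    · symm
      refine Finset.sum_eq_zero fun x hx => ?_
      rw [Finset.HasAntidiagonal.mem_antidiagonal] at hx
      rw [m59bl_coeff_killFun, m59bl_coeff_killFun]
      by_cases h2 : x.1 x₀ = 0
      · by_cases h3 : x.2 x₀ = 0
        · exfalso
          apply hd
          rw [← hx, Finsupp.add_apply, h2, h3]
        · rw [if_neg h3, mul_zero]
      · rw [if_neg h2, zero_mul]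
  map_zero' := by
    ext d
    rw [m59bl_coeff_killFun]
    simp
  map_add' f g := by
    ext d
    rw [map_add, m59bl_coeff_killFun, m59bl_coeff_killFun, m59bl_coeff_killFun]
    split_ifs <;> simp
  commutes' r := by
    classical
    ext d
    rw [m59bl_coeff_killFun, MvPowerSeries.algebraMap_apply, Algebra.algebraMap_self,
      RingHom.id_apply, coeff_C]
    by_cases hd : d = 0
    · subst hd
      simp
    · rw [if_neg hd]
      split_ifs <;> rfl

theorem m59bl_coeff_kill (f : MvPowerSeries σ O) (d : σ →₀ ℕ) :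
    coeff d (m59bl_kill x₀ f) = if d x₀ = 0 then coeff d f else 0 := rfl

theorem m59bl_kill_X (s : σ) :
    m59bl_kill (O := O) x₀ (X s) = if s = x₀ then 0 else X s := by
  classical
  ext d
  rw [m59bl_coeff_kill, coeff_X]
  by_cases hs : s = x₀
  · subst hs
    rw [if_pos rfl, map_zero]
    by_cases hd : d = Finsupp.single s 1
    · subst hd
      simp
    · rw [if_neg hd]
      split_ifs <;> rfl
  · rw [if_neg hs, coeff_X]
    by_cases hd : d = Finsupp.single s 1
    · subst hd
      rw [if_pos rfl, if_pos]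
      rw [Finsupp.single_apply, if_neg hs]
    · rw [if_neg hd]
      split_ifs <;> rfl

/-- the quotient of the component of weight `k` by `X x₀ ^ k`. -/
noncomputable def m59bl_div (k : ℕ) (f : MvPowerSeries σ O) : MvPowerSeries σ O :=
  fun d => if d x₀ = 0 then coeff (d + Finsupp.single x₀ k) f else 0

theorem m59bl_coeff_div (k : ℕ) (f : MvPowerSeries σ O) (d : σ →₀ ℕ) :
    coeff d (m59bl_div x₀ k f) = if d x₀ = 0 then coeff (d + Finsupp.single x₀ k) f else 0 := rfl

theorem m59bl_kill_div (k : ℕ) (f : MvPowerSeries σ O) :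
    m59bl_kill x₀ (m59bl_div x₀ k f) = m59bl_div x₀ k f := by
  ext d
  rw [m59bl_coeff_kill, m59bl_coeff_div]
  split_ifs <;> rfl

/-- `f_k = X x₀ ^ k * (f_k / X x₀ ^ k)`. -/
theorem m59bl_wHC_eq (k : ℕ) (f : MvPowerSeries σ O) :
    weightedHomogeneousComponent (m59bl_w x₀) k f = X x₀ ^ k * m59bl_div x₀ k f := by
  classical
  ext d
  rw [coeff_weightedHomogeneousComponent, m59bl_weight, X_pow_eq, coeff_monomial_mul, one_mul]
  by_cases hle : Finsupp.single x₀ k ≤ d
  · rw [if_pos hle, m59bl_coeff_div]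
    have h1 : k ≤ d x₀ := by
      have := hle x₀
      rwa [Finsupp.single_eq_same] at this
    have h2 : (d - Finsupp.single x₀ k) x₀ = d x₀ - k := by
      rw [Finsupp.tsub_apply, Finsupp.single_eq_same]
    rw [h2, tsub_add_cancel_of_le hle]
    by_cases hk : d x₀ = k
    · rw [if_pos hk, if_pos (by omega)]
    · rw [if_neg hk, if_neg (by omega)]
  · rw [if_neg hle]
    have h1 : ¬ k ≤ d x₀ := by
      intro h
      apply hle
      intro s
      by_cases hs : s = x₀
      · subst hs
        rwa [Finsupp.single_eq_same]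
      · rw [Finsupp.single_apply, if_neg (Ne.symm hs)]
        exact Nat.zero_le _
    rw [if_neg (by omega)]

end Kill

section Loc

variable {σ : Type*} [Finite σ] [DecidableEq σ] {O : Type*} [CommRing O] [IsLocalRing O]
  [IsNoetherianRing O] (x₀ : σ)

/-- **(LOC-norm), abstract form.** -/
theorem m59bl_loc_norm (P : Ideal (MvPowerSeries σ O)) (hP : P.IsPrime)
    (hhom : ∀ f ∈ P, ∀ k, weightedHomogeneousComponent (m59bl_w x₀) k f ∈ P)
    (hx : (X x₀ : MvPowerSeries σ O) ∉ P)
    (y y' : MvPowerSeries σ O →ₐ[O] O)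
    (hy : ∀ s, y (X s) ∈ maximalIdeal O) (hy' : ∀ s, y' (X s) ∈ maximalIdeal O)
    (hagree : ∀ s, s ≠ x₀ → y (X s) = y' (X s)) (hy0 : y (X x₀) = 0)
    (hPy : ∀ f ∈ P, y f = 0) :
    ∀ f ∈ P, y' f = 0 := by
  classical
  -- `y' ∘ kill = y`
  have hcomp : y'.comp (m59bl_kill x₀) = y := by
    apply m59bl_algHom_ext
    · intro s
      rw [AlgHom.comp_apply, m59bl_kill_X]
      split_ifs with hs
      · rw [map_zero]
        exact Ideal.zero_mem _
      · exact hy' s
    · intro s
      rw [AlgHom.comp_apply, m59bl_kill_X]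
      split_ifs with hs
      · rw [map_zero, hs, hy0]
      · exact (hagree s hs).symm
  -- the components
  have hcompo : ∀ f ∈ P, ∀ k, y' (weightedHomogeneousComponent (m59bl_w x₀) k f) = 0 := by
    intro f hf k
    have h1 := hhom f hf k
    rw [m59bl_wHC_eq] at h1 ⊢
    have h2 : m59bl_div x₀ k f ∈ P := by
      rcases hP.mem_or_mem h1 with h | h
      · exact absurd (hP.mem_of_pow_mem k h) hx
      · exact h
    have h3 : y' (m59bl_div x₀ k f) = 0 := by
      rw [← m59bl_kill_div, ← AlgHom.comp_apply, hcomp]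
      exact hPy _ h2
    rw [map_mul, h3, mul_zero]
  intro f hf
  have key : ∀ n : ℕ, y' f ∈ maximalIdeal O ^ n := by
    intro n
    have h1 : f - ∑ i ∈ Finset.range n, weightedHomogeneousComponent (m59bl_w x₀) i f ∈
        (Ideal.span (Set.range X) : Ideal (MvPowerSeries σ O)) ^ n := by
      apply S53.mem_span_range_X_pow_of_truncTotal_eq_zero
      ext d
      rw [coeff_truncTotal_eq_ite, MvPolynomial.coeff_zero]
      split_ifs with hd
      · have hle : d x₀ ≤ degree d := Finsupp.le_degree x₀ d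
        simp only [map_sub, map_sum, coeff_weightedHomogeneousComponent, m59bl_weight]
        rw [Finset.sum_ite_eq, if_pos (Finset.mem_range.mpr (lt_of_le_of_lt hle hd)), sub_self]
      · rfl
    have h2 : y' f = y' (f - ∑ i ∈ Finset.range n,
        weightedHomogeneousComponent (m59bl_w x₀) i f) := by
      rw [map_sub, map_sum, Finset.sum_eq_zero (fun i _ => hcompo f hf i), sub_zero]
    rw [h2]
    exact m59bl_map_pow_mem y' hy' n _ h1
  have h3 : y' f ∈ (⨅ n : ℕ, maximalIdeal O ^ n) := by
    rw [Ideal.mem_iInf]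
    exact key
  rw [Ideal.iInf_pow_eq_bot_of_isLocalRing _ (maximalIdeal.isMaximal O).ne_top,
    Ideal.mem_bot] at h3
  exact h3

end Loc

end Fermat.Agent.M59

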