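import Mathlib
import Fermat.Agent.S56.PS.Lift
import Fermat.Agent.M59.Loc.Ring
import Fermat.Agent.M59.Loc.LocNorm

/-!
# M59 / [B] : (B2), irreducibility of the unramified base ring `R_∞ / (u)` (helper4; prefix `m59bi_`)

`I = m59b_J + (u)` (`u` = all the `N`-coordinates) is a PRIME ideal of `P = m59b_P`:

* `m59bi_g a l8 t = (l + x₀₁ x₁₀) (a + x₁₁)⁻¹ - a` : the solution of `det Φ_t = l` for `x₀₀`;
* `m59bi_psi` : the `O`-algebra endomorphism of `P` (`s56ps_eval`) with `N ↦ 0`, `x₀₀(t) ↦ g_t`,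
  the other variables fixed;
* `m59bi_sub_mem` : `X s - ψ (X s) ∈ I`; `m59bi_le_ker` : `I ≤ ker ψ`;
* `m59bi_sub_psi_mem` : `f - ψ f ∈ I` for all `f` (uniqueness of continuous `O`-algebra maps
  `P → P ⧸ I`, `m59bl_algHom_ext`);
* `m59bi_I_isPrime` : `I = ker ψ` is prime (`P` is a domain);
* `m59bi_irr` : **(B2)** `(nilradical (R_∞ ⧸ span (range u))).IsPrime`.
-/

set_option autoImplicit false
set_option linter.unusedSectionVars false
set_option linter.style.haveILetI false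

namespace Fermat.Agent.M59

open MvPowerSeries Matrix IsLocalRing Fermat.Agent.TW Fermat.Agent.S56

noncomputable section

section Irr

variable {O : Type} [CommRing O] [IsLocalRing O] [IsNoetherianRing O]
  [IsAdicComplete (maximalIdeal O) O] {T8 Tn κ : Type} [Finite T8] [Finite Tn] [Finite κ]

variable (Tn κ) in
/-- the denominator `a_t + x₁₁`. -/
def m59bi_den (a : T8 → O) (t : T8) : m59b_P O T8 Tn κ := C (a t) + X (Sum.inl (t, 1, 1, 1))

theorem m59bi_den_isUnit (a : T8 → O) (t : T8) (ha : IsUnit (a t)) :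
    IsUnit (m59bi_den Tn κ a t) := by
  rw [MvPowerSeries.isUnit_iff_constantCoeff, m59bi_den, map_add, constantCoeff_C,
    constantCoeff_X, add_zero]
  exact ha

variable (Tn κ) in
/-- the solution `g_t` of `det Φ_t = l` for `x₀₀`. -/
def m59bi_g (a : T8 → O) (l8 : T8 → ℕ) (t : T8) : m59b_P O T8 Tn κ :=
  (C ((l8 t : ℕ) : O) + X (Sum.inl (t, 1, 0, 1)) * X (Sum.inl (t, 1, 1, 0))) *
    Ring.inverse (m59bi_den Tn κ a t) - C (a t)

theorem m59bi_g_mul (a : T8 → O) (l8 : T8 → ℕ) (t : T8) (ha : IsUnit (a t)) :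
    (C (a t) + m59bi_g Tn κ a l8 t) * m59bi_den Tn κ a t =
      C ((l8 t : ℕ) : O) + X (Sum.inl (t, 1, 0, 1)) * X (Sum.inl (t, 1, 1, 0)) := by
  rw [m59bi_g, add_sub_cancel, mul_assoc, Ring.inverse_mul_cancel _ (m59bi_den_isUnit a t ha),
    mul_one]

theorem m59bi_g_mem (a : T8 → O) (l8 : T8 → ℕ) (t : T8) (ha : IsUnit (a t))
    (han : a t ^ 2 - (l8 t : O) ∈ maximalIdeal O) :
    m59bi_g Tn κ a l8 t ∈ maximalIdeal (m59b_P O T8 Tn κ) := by
  rw [twb_qi_mem_maximalIdeal_iff]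
  have h := congrArg constantCoeff (m59bi_g_mul (Tn := Tn) (κ := κ) a l8 t ha)
  rw [map_mul, map_add, map_add, map_mul, constantCoeff_C, constantCoeff_C, constantCoeff_X,
    zero_mul, add_zero, m59bi_den, map_add, constantCoeff_C, constantCoeff_X, add_zero] at h
  set c := constantCoeff (m59bi_g Tn κ a l8 t) with hc
  have h2 : a t * c = (l8 t : O) - a t ^ 2 := by
    have : (a t + c) * a t = (l8 t : O) := h
    linear_combination this
  have h3 : a t * c ∈ maximalIdeal O := by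
    rw [h2]
    have := neg_mem han
    rwa [neg_sub] at this
  rcases (maximalIdeal.isMaximal O).isPrime.mem_or_mem h3 with h4 | h4
  · exact absurd ha h4
  · exact h4

open Classical in
variable (Tn κ) in
/-- the images of the variables under `ψ`. -/
def m59bi_x (a : T8 → O) (l8 : T8 → ℕ) :
    twb_r8_Idx T8 (m59b_Aux Tn κ) → m59b_P O T8 Tn κ
  | Sum.inl (t, e, i, j) =>
      if e = 0 then 0 else if i = 0 ∧ j = 0 then m59bi_g Tn κ a l8 t else X (Sum.inl (t, e, i, j))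
  | Sum.inr (Sum.inl (l, i)) => if i = 0 then X (Sum.inr (Sum.inl (l, i))) else 0
  | Sum.inr (Sum.inr k) => X (Sum.inr (Sum.inr k))

theorem m59bi_x_N (a : T8 → O) (l8 : T8 → ℕ) (t : T8) (i j : Fin 2) :
    m59bi_x Tn κ a l8 (Sum.inl (t, 0, i, j)) = 0 := by
  simp [m59bi_x]

theorem m59bi_x_Phi (a : T8 → O) (l8 : T8 → ℕ) (t : T8) (i j : Fin 2) :
    m59bi_x Tn κ a l8 (Sum.inl (t, 1, i, j)) =
      if i = 0 ∧ j = 0 then m59bi_g Tn κ a l8 t else X (Sum.inl (t, 1, i, j)) := by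
  simp [m59bi_x]

theorem m59bi_x_n (a : T8 → O) (l8 : T8 → ℕ) (l : Tn) (i : Fin 3) (hi : i ≠ 0) :
    m59bi_x (T8 := T8) Tn κ a l8 (Sum.inr (Sum.inl (l, i))) = 0 := by
  simp [m59bi_x, hi]

theorem m59bi_x_mem (a : T8 → O) (l8 : T8 → ℕ) (ha : ∀ t, IsUnit (a t))
    (han : ∀ t, a t ^ 2 - (l8 t : O) ∈ maximalIdeal O) (s : twb_r8_Idx T8 (m59b_Aux Tn κ)) :
    m59bi_x Tn κ a l8 s ∈ maximalIdeal (m59b_P O T8 Tn κ) := by
  have hX : ∀ s', (X s' : m59b_P O T8 Tn κ) ∈ maximalIdeal (m59b_P O T8 Tn κ) := by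
    intro s'
    rw [twb_qi_mem_maximalIdeal_iff, constantCoeff_X]
    exact zero_mem _
  rcases s with ⟨t, e, i, j⟩ | ⟨l, i⟩ | k
  · show (if e = 0 then 0 else if i = 0 ∧ j = 0 then m59bi_g Tn κ a l8 t
      else X (Sum.inl (t, e, i, j))) ∈ _
    split_ifs
    · exact zero_mem _
    · exact m59bi_g_mem a l8 t (ha t) (han t)
    · exact hX _
  · show (if i = 0 then X (Sum.inr (Sum.inl (l, i))) else 0) ∈ _
    split_ifs
    · exact hX _
    · exact zero_mem _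
  · exact hX _

variable (Tn κ) in
/-- the endomorphism `ψ`. -/
def m59bi_psi (a : T8 → O) (l8 : T8 → ℕ) (ha : ∀ t, IsUnit (a t))
    (han : ∀ t, a t ^ 2 - (l8 t : O) ∈ maximalIdeal O) :
    m59b_P O T8 Tn κ →ₐ[O] m59b_P O T8 Tn κ :=
  s56ps_eval (𝒪 := O) (m59bi_x Tn κ a l8) (m59bi_x_mem a l8 ha han)

theorem m59bi_psi_X (a : T8 → O) (l8 : T8 → ℕ) (ha : ∀ t, IsUnit (a t))
    (han : ∀ t, a t ^ 2 - (l8 t : O) ∈ maximalIdeal O) (s : twb_r8_Idx T8 (m59b_Aux Tn κ)) :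
    m59bi_psi Tn κ a l8 ha han (X s) = m59bi_x Tn κ a l8 s :=
  s56ps_eval_X _ _ s

theorem m59bi_psi_C (a : T8 → O) (l8 : T8 → ℕ) (ha : ∀ t, IsUnit (a t))
    (han : ∀ t, a t ^ 2 - (l8 t : O) ∈ maximalIdeal O) (c : O) :
    m59bi_psi Tn κ a l8 ha han (C c) = C c := by
  have := (m59bi_psi Tn κ a l8 ha han).commutes c
  rwa [← MvPowerSeries.c_eq_algebraMap] at this

/-- the ideal `I = J + (u)`. -/
def m59bi_I (κ : Type) (a : T8 → O) (l8 : T8 → ℕ) (t0 : Tn → O) (ln : Tn → ℕ) :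
    Ideal (m59b_P O T8 Tn κ) :=
  m59b_J O κ a l8 t0 ln ⊔ Ideal.span (Set.range (m59b_u O κ))

theorem m59bi_N_mem (a : T8 → O) (l8 : T8 → ℕ) (t0 : Tn → O) (ln : Tn → ℕ) (t : T8)
    (i j : Fin 2) : (X (Sum.inl (t, 0, i, j)) : m59b_P O T8 Tn κ) ∈ m59bi_I κ a l8 t0 ln :=
  Ideal.mem_sup_right (Ideal.subset_span ⟨Sum.inl (t, i, j), rfl⟩)

theorem m59bi_n_mem (a : T8 → O) (l8 : T8 → ℕ) (t0 : Tn → O) (ln : Tn → ℕ) (l : Tn)
    (i : Fin 2) : (X (Sum.inr (Sum.inl (l, Fin.succ i))) : m59b_P O T8 Tn κ) ∈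
      m59bi_I κ a l8 t0 ln :=
  Ideal.mem_sup_right (Ideal.subset_span ⟨Sum.inr (l, i), rfl⟩)

theorem m59bi_det_mem (a : T8 → O) (l8 : T8 → ℕ) (t0 : Tn → O) (ln : Tn → ℕ) (t : T8) :
    (m59b_Phi8 O κ a t).det - ((l8 t : ℕ) : m59b_P O T8 Tn κ) ∈ m59bi_I κ a l8 t0 ln :=
  Ideal.mem_sup_left (Ideal.subset_span (Or.inl (Set.mem_iUnion.mpr ⟨t, Or.inr rfl⟩)))

/-- `X s - ψ (X s) ∈ I`. -/
theorem m59bi_sub_mem (a : T8 → O) (l8 : T8 → ℕ) (t0 : Tn → O) (ln : Tn → ℕ)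
    (ha : ∀ t, IsUnit (a t)) (s : twb_r8_Idx T8 (m59b_Aux Tn κ)) :
    X s - m59bi_x Tn κ a l8 s ∈ m59bi_I κ a l8 t0 ln := by
  rcases s with ⟨t, e, i, j⟩ | ⟨l, i⟩ | k
  · show X (Sum.inl (t, e, i, j)) - (if e = 0 then 0 else if i = 0 ∧ j = 0 then
      m59bi_g Tn κ a l8 t else X (Sum.inl (t, e, i, j))) ∈ _
    by_cases he : e = 0
    · subst he
      rw [if_pos rfl, sub_zero]
      exact m59bi_N_mem a l8 t0 ln t i j
    · rw [if_neg he]
      have he1 : e = 1 := by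
        fin_cases e
        · exact absurd rfl he
        · rfl
      subst he1
      by_cases hij : i = 0 ∧ j = 0
      · obtain ⟨rfl, rfl⟩ := hij
        rw [if_pos ⟨rfl, rfl⟩]
        -- `(x₀₀ - g) * den = det Φ - l`
        have key : (X (Sum.inl (t, 1, 0, 0)) - m59bi_g Tn κ a l8 t) * m59bi_den Tn κ a t =
            (m59b_Phi8 O κ a t).det - ((l8 t : ℕ) : m59b_P O T8 Tn κ) := by
          have h1 := m59bi_g_mul (Tn := Tn) (κ := κ) a l8 t (ha t)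
          have h2 : (m59b_Phi8 O κ a t).det =
              (C (a t) + X (Sum.inl (t, 1, 0, 0))) * m59bi_den Tn κ a t -
                X (Sum.inl (t, 1, 0, 1)) * X (Sum.inl (t, 1, 1, 0)) := by
            rw [Matrix.det_fin_two]
            simp only [m59b_Phi8, twb_r8_Phi, m59bi_den, Matrix.add_apply, Matrix.scalar_apply,
              Matrix.diagonal_apply_eq, Matrix.of_apply, ne_eq, zero_ne_one, one_ne_zero,
              not_false_eq_true, Matrix.diagonal_apply_ne, zero_add]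
          rw [h2, ← map_natCast (C (σ := twb_r8_Idx T8 (m59b_Aux Tn κ)) (R := O))]
          linear_combination (-1 : m59b_P O T8 Tn κ) * h1
        have h3 := Ideal.mul_mem_right (Ring.inverse (m59bi_den Tn κ a t)) _
          (m59bi_det_mem (κ := κ) a l8 t0 ln t)
        rw [← key, mul_assoc, Ring.mul_inverse_cancel _ (m59bi_den_isUnit a t (ha t)),
          mul_one] at h3
        exact h3
      · rw [if_neg hij, sub_self]
        exact zero_mem _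
  · show X (Sum.inr (Sum.inl (l, i))) - (if i = 0 then X (Sum.inr (Sum.inl (l, i))) else 0) ∈ _
    by_cases hi : i = 0
    · rw [if_pos hi, sub_self]
      exact zero_mem _
    · rw [if_neg hi, sub_zero]
      obtain ⟨i', rfl⟩ := Fin.exists_succ_eq.mpr hi
      exact m59bi_n_mem a l8 t0 ln l i'
  · show X (Sum.inr (Sum.inr k)) - X (Sum.inr (Sum.inr k)) ∈ _
    rw [sub_self]
    exact zero_mem _

/-- `I ≤ 𝔪_P`. -/
theorem m59bi_I_le_maximalIdeal (a : T8 → O) (l8 : T8 → ℕ) (t0 : Tn → O) (ln : Tn → ℕ)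
    (han : ∀ t, a t ^ 2 - (l8 t : O) ∈ maximalIdeal O) :
    m59bi_I κ a l8 t0 ln ≤ maximalIdeal (m59b_P O T8 Tn κ) := by
  refine sup_le (m59b_J_le_maximalIdeal O κ a l8 t0 ln han) ?_
  rw [Ideal.span_le]
  rintro _ ⟨i, rfl⟩
  rw [SetLike.mem_coe, twb_qi_mem_maximalIdeal_iff]
  rcases i with ⟨t, i, j⟩ | ⟨l, i⟩
  · show constantCoeff (X (Sum.inl (t, 0, i, j)) : m59b_P O T8 Tn κ) ∈ _
    rw [constantCoeff_X]
    exact zero_mem _
  · show constantCoeff (X (Sum.inr (Sum.inl (l, Fin.succ i))) : m59b_P O T8 Tn κ) ∈ _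
    rw [constantCoeff_X]
    exact zero_mem _

/-- `I ≤ ker ψ`. -/
theorem m59bi_le_ker (a : T8 → O) (l8 : T8 → ℕ) (t0 : Tn → O) (ln : Tn → ℕ)
    (ha : ∀ t, IsUnit (a t)) (han : ∀ t, a t ^ 2 - (l8 t : O) ∈ maximalIdeal O) :
    m59bi_I κ a l8 t0 ln ≤ RingHom.ker (m59bi_psi Tn κ a l8 ha han).toRingHom := by
  set ψ := m59bi_psi Tn κ a l8 ha han with hψ
  have hN : ∀ t i j, ψ (m59b_N8 O κ t i j) = 0 := by
    intro t i j
    show ψ (X (Sum.inl (t, 0, i, j))) = 0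
    rw [hψ, m59bi_psi_X, m59bi_x_N]
  have hn : ∀ l (i : Fin 3), i ≠ 0 → ψ (X (Sum.inr (Sum.inl (l, i)))) = 0 := by
    intro l i hi
    rw [hψ, m59bi_psi_X, m59bi_x_n a l8 l i hi]
  have hΦ00 : ∀ t, ψ (m59b_Phi8 O κ a t 0 0) = C (a t) + m59bi_g Tn κ a l8 t := by
    intro t
    simp only [m59b_Phi8, twb_r8_Phi, Matrix.add_apply, Matrix.scalar_apply,
      Matrix.diagonal_apply_eq, Matrix.of_apply]
    rw [map_add, hψ, m59bi_psi_C, m59bi_psi_X, m59bi_x_Phi, if_pos ⟨rfl, rfl⟩]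
  have hΦ01 : ∀ t, ψ (m59b_Phi8 O κ a t 0 1) = X (Sum.inl (t, 1, 0, 1)) := by
    intro t
    simp only [m59b_Phi8, twb_r8_Phi, Matrix.add_apply, Matrix.scalar_apply, Matrix.of_apply,
      ne_eq, zero_ne_one, not_false_eq_true, Matrix.diagonal_apply_ne, zero_add]
    rw [hψ, m59bi_psi_X, m59bi_x_Phi,
      if_neg (by decide : ¬ ((0 : Fin 2) = 0 ∧ (1 : Fin 2) = 0))]
  have hΦ10 : ∀ t, ψ (m59b_Phi8 O κ a t 1 0) = X (Sum.inl (t, 1, 1, 0)) := by
    intro t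
    simp only [m59b_Phi8, twb_r8_Phi, Matrix.add_apply, Matrix.scalar_apply, Matrix.of_apply,
      ne_eq, one_ne_zero, not_false_eq_true, Matrix.diagonal_apply_ne, zero_add]
    rw [hψ, m59bi_psi_X, m59bi_x_Phi,
      if_neg (by decide : ¬ ((1 : Fin 2) = 0 ∧ (0 : Fin 2) = 0))]
  have hΦ11 : ∀ t, ψ (m59b_Phi8 O κ a t 1 1) = m59bi_den Tn κ a t := by
    intro t
    simp only [m59b_Phi8, twb_r8_Phi, Matrix.add_apply, Matrix.scalar_apply,
      Matrix.diagonal_apply_eq, Matrix.of_apply]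
    rw [map_add, hψ, m59bi_psi_C, m59bi_psi_X, m59bi_x_Phi,
      if_neg (by decide : ¬ ((1 : Fin 2) = 0 ∧ (1 : Fin 2) = 0))]
    rfl
  rw [m59bi_I, sup_le_iff]
  constructor
  · rw [m59b_J, Ideal.span_le]
    intro g hg
    rw [SetLike.mem_coe, RingHom.mem_ker]
    show ψ g = 0
    rcases hg with hg | hg
    · obtain ⟨t, ht⟩ := Set.mem_iUnion.mp hg
      rcases ht with (ht | ht) | ht
      · rcases ht with ht | ht
        · rw [ht, Matrix.trace_fin_two, map_add, hN, hN, add_zero]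
        · rw [Set.mem_singleton_iff] at ht
          rw [ht, Matrix.det_fin_two, map_sub, map_mul, map_mul, hN t 0 0, hN t 0 1, zero_mul,
            zero_mul, sub_zero]
      · obtain ⟨⟨i, j⟩, rfl⟩ := ht
        simp only [Matrix.sub_apply, Matrix.smul_apply, Matrix.mul_apply, Fin.sum_univ_two,
          smul_eq_mul, map_sub, map_add, map_mul, hN, mul_zero, zero_mul, add_zero, sub_zero]
      · rw [Set.mem_singleton_iff] at ht
        rw [ht, Matrix.det_fin_two, map_sub, map_sub, map_mul, map_mul, hΦ00, hΦ01, hΦ10, hΦ11,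
          map_natCast, m59bi_g_mul a l8 t (ha t), map_natCast]
        ring
    · obtain ⟨l, hl⟩ := Set.mem_iUnion.mp hg
      have h1 : ψ (m59b_n1 O T8 κ l) = 0 := hn l 1 (by decide)
      have h2 : ψ (m59b_n2 O T8 κ l) = 0 := hn l 2 (by decide)
      rcases hl with hl | hl | hl
      · rw [hl]
        simp only [map_sub, map_mul, h1, h2, mul_zero, sub_zero]
      · rw [hl]
        simp only [map_sub, map_mul, h1, h2, mul_zero, sub_zero]
      · rw [Set.mem_singleton_iff] at hl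
        rw [hl, map_sub, map_pow, map_pow, h1, h2]
        ring
  · rw [Ideal.span_le]
    rintro _ ⟨i, rfl⟩
    rw [SetLike.mem_coe, RingHom.mem_ker]
    show ψ _ = 0
    rcases i with ⟨t, i, j⟩ | ⟨l, i⟩
    · exact hN t i j
    · exact hn l (Fin.succ i) (Fin.succ_ne_zero i)

/-- `f - ψ f ∈ I` for every `f`. -/
theorem m59bi_sub_psi_mem (a : T8 → O) (l8 : T8 → ℕ) (t0 : Tn → O) (ln : Tn → ℕ)
    (ha : ∀ t, IsUnit (a t)) (han : ∀ t, a t ^ 2 - (l8 t : O) ∈ maximalIdeal O)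
    (f : m59b_P O T8 Tn κ) :
    f - m59bi_psi Tn κ a l8 ha han f ∈ m59bi_I κ a l8 t0 ln := by
  set I := m59bi_I κ a l8 t0 ln with hI
  have hItop : I ≠ ⊤ := fun h =>
    (maximalIdeal.isMaximal (m59b_P O T8 Tn κ)).ne_top
      (top_le_iff.1 (h ▸ m59bi_I_le_maximalIdeal a l8 t0 ln han))
  haveI : IsLocalRing (m59b_P O T8 Tn κ ⧸ I) := twb_qi_isLocalRing hItop
  haveI : IsLocalHom (Ideal.Quotient.mk I) :=
    IsLocalHom.of_surjective (Ideal.Quotient.mk I) Ideal.Quotient.mk_surjective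
  let φ₁ : m59b_P O T8 Tn κ →ₐ[O] m59b_P O T8 Tn κ ⧸ I := Ideal.Quotient.mkₐ O I
  let φ₂ : m59b_P O T8 Tn κ →ₐ[O] m59b_P O T8 Tn κ ⧸ I :=
    φ₁.comp (m59bi_psi Tn κ a l8 ha han)
  have hφ : ∀ s, φ₁ (X s) ∈ maximalIdeal (m59b_P O T8 Tn κ ⧸ I) := by
    intro s
    have hX : (X s : m59b_P O T8 Tn κ) ∈ maximalIdeal (m59b_P O T8 Tn κ) := by
      rw [twb_qi_mem_maximalIdeal_iff, constantCoeff_X]
      exact zero_mem _
    exact map_nonunit (Ideal.Quotient.mk I) _ hX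
  have hX : ∀ s, φ₁ (X s) = φ₂ (X s) := by
    intro s
    show Ideal.Quotient.mk I (X s) = Ideal.Quotient.mk I (m59bi_psi Tn κ a l8 ha han (X s))
    rw [m59bi_psi_X, Ideal.Quotient.eq]
    exact m59bi_sub_mem a l8 t0 ln ha s
  have key := m59bl_algHom_ext φ₁ φ₂ hφ hX
  have h1 : φ₁ f = φ₂ f := by rw [key]
  have h2 : Ideal.Quotient.mk I f = Ideal.Quotient.mk I (m59bi_psi Tn κ a l8 ha han f) := h1
  rwa [Ideal.Quotient.eq] at h2

variable [IsDomain O]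

/-- **`I = J + (u)` is prime.** -/
theorem m59bi_I_isPrime (a : T8 → O) (l8 : T8 → ℕ) (t0 : Tn → O) (ln : Tn → ℕ)
    (ha : ∀ t, IsUnit (a t)) (han : ∀ t, a t ^ 2 - (l8 t : O) ∈ maximalIdeal O) :
    (m59bi_I κ a l8 t0 ln).IsPrime := by
  have h : m59bi_I κ a l8 t0 ln = RingHom.ker (m59bi_psi Tn κ a l8 ha han).toRingHom := by
    apply le_antisymm (m59bi_le_ker a l8 t0 ln ha han)
    intro f hf
    rw [RingHom.mem_ker] at hf
    have h1 := m59bi_sub_psi_mem a l8 t0 ln ha han f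
    have h2 : m59bi_psi Tn κ a l8 ha han f = 0 := hf
    rwa [h2, sub_zero] at h1
  rw [h]
  haveI : IsDomain (m59b_P O T8 Tn κ) := NoZeroDivisors.to_isDomain _
  exact RingHom.ker_isPrime _

/-- the images of the `N`-coordinates in `R_∞`. -/
def m59bi_uR (κ : Type) (a : T8 → O) (l8 : T8 → ℕ) (t0 : Tn → O) (ln : Tn → ℕ) :
    (T8 × Fin 2 × Fin 2) ⊕ (Tn × Fin 2) → m59b_R O κ a l8 t0 ln :=
  fun i => Ideal.Quotient.mk (m59b_J O κ a l8 t0 ln) (m59b_u O κ i)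

/-- `(u)` is a prime ideal of `R_∞`. -/
theorem m59bi_span_uR_isPrime (a : T8 → O) (l8 : T8 → ℕ) (t0 : Tn → O) (ln : Tn → ℕ)
    (ha : ∀ t, IsUnit (a t)) (han : ∀ t, a t ^ 2 - (l8 t : O) ∈ maximalIdeal O) :
    (Ideal.span (Set.range (m59bi_uR κ a l8 t0 ln))).IsPrime := by
  have hI := m59bi_I_isPrime (κ := κ) a l8 t0 ln ha han
  have hker : RingHom.ker (Ideal.Quotient.mk (m59b_J O κ a l8 t0 ln)) ≤ m59bi_I κ a l8 t0 ln := by
    rw [Ideal.mk_ker]
    exact le_sup_left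
  have h := Ideal.map_isPrime_of_surjective (f := Ideal.Quotient.mk (m59b_J O κ a l8 t0 ln))
    Ideal.Quotient.mk_surjective hker
  have e : (m59bi_I κ a l8 t0 ln).map (Ideal.Quotient.mk (m59b_J O κ a l8 t0 ln)) =
      Ideal.span (Set.range (m59bi_uR κ a l8 t0 ln)) := by
    rw [m59bi_I, Ideal.map_sup, Ideal.map_quotient_self, bot_sup_eq, Ideal.map_span]
    congr 1
    ext x
    constructor
    · rintro ⟨_, ⟨i, rfl⟩, rfl⟩
      exact ⟨i, rfl⟩
    · rintro ⟨i, rfl⟩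
      exact ⟨_, ⟨i, rfl⟩, rfl⟩
  rwa [e] at h

/-- **(B2)**: the nilradical of the unramified base ring `R_∞ / (u)` is prime (the ring is a
domain). -/
theorem m59bi_irr (a : T8 → O) (l8 : T8 → ℕ) (t0 : Tn → O) (ln : Tn → ℕ)
    (ha : ∀ t, IsUnit (a t)) (han : ∀ t, a t ^ 2 - (l8 t : O) ∈ maximalIdeal O) :
    (nilradical (m59b_R O κ a l8 t0 ln ⧸
      Ideal.span (Set.range (m59bi_uR κ a l8 t0 ln)))).IsPrime := by
  haveI := m59bi_span_uR_isPrime (κ := κ) a l8 t0 ln ha han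
  haveI : IsDomain (m59b_R O κ a l8 t0 ln ⧸ Ideal.span (Set.range (m59bi_uR κ a l8 t0 ln))) :=
    Ideal.Quotient.isDomain _
  have hbot : (⊥ : Ideal (m59b_R O κ a l8 t0 ln ⧸
      Ideal.span (Set.range (m59bi_uR κ a l8 t0 ln)))).IsPrime := Ideal.isPrime_bot
  show (Ideal.radical ⊥).IsPrime
  rw [Ideal.IsPrime.radical hbot]
  exact hbot

end Irr

end

end Fermat.Agent.M59
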