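import Mathlib
import Fermat.Agent.TW.Loc.Dim8
import Fermat.Agent.M59.Loc.Ring

/-!
# M59 / [B] : (B1), the dimension of `R_∞ = m59b_P / m59b_J`, and the [NZ]-by-dimension variants
(helper4; prefix `m59bd_`)

`O` noetherian local with maximal ideal `(λ)`, `p ∈ (λ)` an odd prime, `2` a unit, `l8 t ≡ 1 mod p`.

* `m59bd_unit_or_mem` : a prime of `O[[σ]]` containing `C λ` and `C c + g`, `g ∈ 𝔪`, contains `g`;
* `m59bd_hash_of_rel8` : an ideal containing `C λ` and the homogeneous relations at `t` contains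
  main's `#`-relations at `t` (the hypotheses of `twb_d8_local`);
* `m59bd_local8`, `m59bd_local8_nz`, `m59bd_localn`, `m59bd_localn_nz` : the local computations;
* `m59bd_dim_le` : **(B1), general form**: for `J' ⊇ J`, `A8 ⊆ T8`, `An ⊆ Tn` with `N_b, r_b ∈ J'`
  for `b ∈ A8 ∪ An`:  `dim (P ⧸ J') ≤ 1 + |κ| + 3 |T8| + |Tn| - |A8| - |An|`;
* `m59bd_dim_R_le` : **(B1)**; `m59bd_dim_quot_le` : (B2), the dimension part;
* `m59bd_dim_nz8`, `m59bd_dim_nzn` : [NZ] by dimension.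
-/

set_option autoImplicit false
set_option linter.unusedSectionVars false
set_option linter.style.haveILetI false

namespace Fermat.Agent.M59

open MvPowerSeries Matrix IsLocalRing Fermat.Agent.TW

noncomputable section

section UnitOrMem

variable {O : Type*} [CommRing O] [IsLocalRing O] {σ : Type*}

/-- constants of the maximal ideal `(λ)` lie in every ideal containing `C λ`. -/
theorem m59bd_C_mem {lam : O} (hmax : maximalIdeal O = Ideal.span {lam})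
    (𝔭 : Ideal (MvPowerSeries σ O)) (hlam : (C lam : MvPowerSeries σ O) ∈ 𝔭) (c : O)
    (hc : c ∈ maximalIdeal O) : (C c : MvPowerSeries σ O) ∈ 𝔭 := by
  rw [hmax] at hc
  obtain ⟨b, rfl⟩ := Ideal.mem_span_singleton'.mp hc
  rw [map_mul]
  exact Ideal.mul_mem_left _ _ hlam

/-- a prime containing `C λ` and `C c + g` with `g` in the maximal ideal contains `g`. -/
theorem m59bd_unit_or_mem {lam : O} (hmax : maximalIdeal O = Ideal.span {lam})
    (𝔭 : Ideal (MvPowerSeries σ O)) (h𝔭 : 𝔭.IsPrime) (hlam : (C lam : MvPowerSeries σ O) ∈ 𝔭)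
    (c : O) (g : MvPowerSeries σ O) (hg : constantCoeff g = 0) (h : C c + g ∈ 𝔭) : g ∈ 𝔭 := by
  by_cases hc : IsUnit c
  · exfalso
    apply h𝔭.ne_top
    apply Ideal.eq_top_of_isUnit_mem _ h
    rw [MvPowerSeries.isUnit_iff_constantCoeff, map_add, constantCoeff_C, hg, add_zero]
    exact hc
  · have hc' : c ∈ maximalIdeal O := hc
    have h1 := m59bd_C_mem hmax 𝔭 hlam c hc'
    have h2 := sub_mem h h1
    rwa [add_sub_cancel_left] at h2

end UnitOrMem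

section Mat

variable {R : Type*} [CommRing R]

theorem m59bd_sq_zero (M : Matrix (Fin 2) (Fin 2) R) (h1 : M.trace = 0) (h2 : M.det = 0) :
    M ^ 2 = 0 := by
  rw [twb_m8_sq, h1, h2, zero_smul, zero_smul, sub_zero]

theorem m59bd_natCast_mat_zero (p : ℕ) (hp0 : ((p : ℕ) : R) = 0) :
    ((p : ℕ) : Matrix (Fin 2) (Fin 2) R) = 0 := by
  ext i j
  fin_cases i <;> fin_cases j <;> simp [Matrix.natCast_apply, hp0]

/-- `∑_{k<p} (1+N)^k = 0` if `N² = 0`, `p = 0`, `p` an odd prime. -/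
theorem m59bd_geom_zero {p : ℕ} (hp : p.Prime) (hp2 : p ≠ 2) (hp0 : ((p : ℕ) : R) = 0)
    (N : Matrix (Fin 2) (Fin 2) R) (hN : N ^ 2 = 0) :
    ∑ k ∈ Finset.range p, (1 + N) ^ k = 0 := by
  obtain ⟨G, hG⟩ := twb_m8_geom hp N
  rw [hG]
  have h2 : 2 ≤ p - 1 := by
    have := hp.two_le
    omega
  obtain ⟨m, hm⟩ := Nat.exists_eq_add_of_le h2
  rw [hm, pow_add, hN, zero_mul, m59bd_natCast_mat_zero p hp0, zero_mul, add_zero]

/-- `Φ (1+N) = (1+N) Φ` if `Φ N = l N Φ` and `l = 1`. -/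
theorem m59bd_comm_of (Ph N : Matrix (Fin 2) (Fin 2) R) (l : R) (hl : l = 1)
    (h : Ph * N - l • (N * Ph) = 0) : Ph * (1 + N) - (1 + N) * Ph = 0 := by
  rw [hl, one_smul, sub_eq_zero] at h
  rw [mul_add, add_mul, mul_one, one_mul, h]
  abel

end Mat

section Local

variable {O : Type} [CommRing O] [IsLocalRing O] {T8 Tn κ : Type}

/-- an ideal containing `C λ` and the homogeneous relations at `t` contains the `#`-relations. -/
theorem m59bd_hash_of_rel8 {lam : O} {p : ℕ} (hp : p.Prime) (hp2 : p ≠ 2)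
    (hpl : (p : O) ∈ Ideal.span {lam}) (a : T8 → O) (l8 : T8 → ℕ) (t : T8) (hl : l8 t % p = 1)
    (𝔭 : Ideal (m59b_P O T8 Tn κ)) (hlam : (C lam : m59b_P O T8 Tn κ) ∈ 𝔭)
    (hrel : ∀ g ∈ m59b_rel8 (Tn := Tn) O κ a l8 t, g ∈ 𝔭) :
    (∀ i j, (∑ k ∈ Finset.range p, twb_r8_Sig O (m59b_Aux Tn κ) t ^ k) i j ∈ 𝔭) ∧
    (∀ i j, (twb_r8_Phi O (m59b_Aux Tn κ) a t * twb_r8_Sig O (m59b_Aux Tn κ) t -
      twb_r8_Sig O (m59b_Aux Tn κ) t * twb_r8_Phi O (m59b_Aux Tn κ) a t) i j ∈ 𝔭) ∧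
    (twb_r8_Phi O (m59b_Aux Tn κ) a t).det - ((l8 t : ℕ) : m59b_P O T8 Tn κ) ∈ 𝔭 := by
  set f := Ideal.Quotient.mk 𝔭 with hf
  have hmem : ∀ x, x ∈ 𝔭 ↔ f x = 0 := fun x => (Ideal.Quotient.eq_zero_iff_mem).symm
  have hmat : ∀ M : Matrix (Fin 2) (Fin 2) (m59b_P O T8 Tn κ),
      (∀ i j, M i j ∈ 𝔭) ↔ f.mapMatrix M = 0 := by
    intro M
    constructor
    · intro h
      ext i j
      rw [RingHom.mapMatrix_apply, Matrix.map_apply, Matrix.zero_apply]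
      exact (hmem _).mp (h i j)
    · intro h i j
      rw [hmem]
      have := congrFun (congrFun h i) j
      rwa [RingHom.mapMatrix_apply, Matrix.map_apply, Matrix.zero_apply] at this
  have hp0 : ((p : ℕ) : m59b_P O T8 Tn κ ⧸ 𝔭) = 0 := by
    obtain ⟨c, hc⟩ := Ideal.mem_span_singleton'.mp hpl
    have : ((p : ℕ) : m59b_P O T8 Tn κ) ∈ 𝔭 := by
      have h1 : ((p : ℕ) : m59b_P O T8 Tn κ) = C c * C lam := by
        rw [← map_mul, hc, map_natCast]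
      rw [h1]
      exact Ideal.mul_mem_left _ _ hlam
    rw [← map_natCast f, ← hmem]
    exact this
  set Nb := f.mapMatrix (m59b_N8 O κ t) with hNb
  set Pb := f.mapMatrix (twb_r8_Phi O (m59b_Aux Tn κ) a t) with hPb
  have hSig : f.mapMatrix (twb_r8_Sig O (m59b_Aux Tn κ) t) = 1 + Nb := by
    have : twb_r8_Sig O (m59b_Aux Tn κ) t = 1 + m59b_N8 O κ t := rfl
    rw [this, map_add, map_one]
  have htr : Nb.trace = 0 := by
    have h1 : (m59b_N8 O κ t).trace ∈ 𝔭 := hrel _ (Or.inl (Or.inl (Or.inl rfl)))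
    have h2 : f ((m59b_N8 O κ t).trace) = Nb.trace := by
      rw [hNb, RingHom.mapMatrix_apply, Matrix.trace_fin_two, Matrix.trace_fin_two, map_add]
      rfl
    rw [← h2, ← hmem]
    exact h1
  have hdet : Nb.det = 0 := by
    have h1 : (m59b_N8 O κ t).det ∈ 𝔭 := hrel _ (Or.inl (Or.inl (Or.inr rfl)))
    have h2 : f ((m59b_N8 O κ t).det) = Nb.det := by
      rw [hNb, RingHom.map_det]
    rw [← h2, ← hmem]
    exact h1
  have hN2 : Nb ^ 2 = 0 := by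
    exact m59bd_sq_zero Nb htr hdet
  have hcomm0 : Pb * Nb - ((l8 t : ℕ) : m59b_P O T8 Tn κ ⧸ 𝔭) • (Nb * Pb) = 0 := by
    have h1 : ∀ i j, (m59b_Phi8 O κ a t * m59b_N8 O κ t -
        ((l8 t : ℕ) : m59b_P O T8 Tn κ) • (m59b_N8 O κ t * m59b_Phi8 O κ a t) :
          Matrix (Fin 2) (Fin 2) (m59b_P O T8 Tn κ)) i j ∈ 𝔭 :=
      fun i j => hrel _ (Or.inl (Or.inr ⟨(i, j), rfl⟩))
    have h2 := (hmat _).mp h1
    rw [map_sub, map_mul] at h2
    have h3 : f.mapMatrix (((l8 t : ℕ) : m59b_P O T8 Tn κ) •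
        (m59b_N8 O κ t * m59b_Phi8 O κ a t)) =
        ((l8 t : ℕ) : m59b_P O T8 Tn κ ⧸ 𝔭) • (Nb * Pb) := by
      ext i j
      simp only [RingHom.mapMatrix_apply, Matrix.map_apply, Matrix.smul_apply, smul_eq_mul,
        map_mul, map_natCast]
      rw [hNb, hPb]
      simp only [RingHom.mapMatrix_apply, Matrix.mul_apply, Matrix.map_apply, map_sum, map_mul]
      rfl
    rw [h3] at h2
    exact h2
  have hl0 : ((l8 t : ℕ) : m59b_P O T8 Tn κ ⧸ 𝔭) = 1 := by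
    have h1 : l8 t = p * (l8 t / p) + 1 := by
      have := Nat.div_add_mod (l8 t) p
      omega
    rw [h1]
    push_cast
    rw [hp0, zero_mul, zero_add]
  refine ⟨?_, ?_, ?_⟩
  · rw [hmat, map_sum]
    simp only [map_pow, hSig]
    exact m59bd_geom_zero hp hp2 hp0 Nb hN2
  · rw [hmat, map_sub, map_mul, map_mul, hSig]
    exact m59bd_comm_of Pb Nb _ hl0 hcomm0
  · exact hrel _ (Or.inr rfl)

/-- `l ≡ 1 mod p` and `p ∈ (λ)` give `l - 1 ∈ (λ)`. -/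
theorem m59bd_sub_one_mem {lam : O} {p : ℕ} (hpl : (p : O) ∈ Ideal.span {lam}) (l : ℕ)
    (hl : l % p = 1) : ((l : O) - 1) ∈ Ideal.span {lam} := by
  have h : l = p * (l / p) + 1 := by
    have := Nat.div_add_mod l p
    omega
  have e : (l : O) - 1 = (p : O) * ((l / p : ℕ) : O) := by
    conv_lhs => rw [h]
    push_cast
    ring
  rw [e]
  exact Ideal.mul_mem_right _ _ hpl

/-- **local computation at a scalar-hard prime** (main's `twb_d8_local` for the homogeneous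
system). -/
theorem m59bd_local8 {lam : O} (hmax : maximalIdeal O = Ideal.span {lam}) {p : ℕ} (hp : p.Prime)
    (hp2 : p ≠ 2) (hpl : (p : O) ∈ Ideal.span {lam}) (h2 : IsUnit (2 : O))
    (a : T8 → O) (l8 : T8 → ℕ) (t : T8) (hl : l8 t % p = 1)
    (𝔭 : Ideal (m59b_P O T8 Tn κ)) (h𝔭 : 𝔭.IsPrime) (hlam : (C lam : m59b_P O T8 Tn κ) ∈ 𝔭)
    (hrel : ∀ g ∈ m59b_rel8 (Tn := Tn) O κ a l8 t, g ∈ 𝔭)
    (hq1 : (X (Sum.inl (t, 1, 0, 1)) - X (Sum.inl (t, 0, 1, 0)) : m59b_P O T8 Tn κ) ∈ 𝔭)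
    (hq2 : (X (Sum.inl (t, 1, 1, 0)) - X (Sum.inl (t, 0, 0, 0)) : m59b_P O T8 Tn κ) ∈ 𝔭)
    (hq3 : (X (Sum.inl (t, 1, 0, 0)) - X (Sum.inl (t, 1, 1, 1))
      - C 2 * X (Sum.inl (t, 0, 0, 1)) : m59b_P O T8 Tn κ) ∈ 𝔭) :
    ∀ e i j : Fin 2, (X (Sum.inl (t, e, i, j)) : m59b_P O T8 Tn κ) ∈ 𝔭 := by
  obtain ⟨hG, hcomm, hdet⟩ := m59bd_hash_of_rel8 hp hp2 hpl a l8 t hl 𝔭 hlam hrel
  exact twb_d8_local hmax hp hpl h2 a l8 t (m59bd_sub_one_mem hpl _ hl) 𝔭 h𝔭 hlam hG hcomm hdet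
    hq1 hq2 hq3

/-- **local computation at a scalar-hard prime where `N = 0` and `r = 0`**: two parameters. -/
theorem m59bd_local8_nz {lam : O} (hmax : maximalIdeal O = Ideal.span {lam})
    (a : T8 → O) (l8 : T8 → ℕ) (t : T8) (han : a t ^ 2 - (l8 t : O) ∈ maximalIdeal O)
    (𝔭 : Ideal (m59b_P O T8 Tn κ)) (h𝔭 : 𝔭.IsPrime) (hlam : (C lam : m59b_P O T8 Tn κ) ∈ 𝔭)
    (hN : ∀ i j : Fin 2, (X (Sum.inl (t, 0, i, j)) : m59b_P O T8 Tn κ) ∈ 𝔭)
    (hr : m59b_r8 (Tn := Tn) O κ a l8 t ∈ 𝔭)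
    (hdet : (m59b_Phi8 (Tn := Tn) O κ a t).det - ((l8 t : ℕ) : m59b_P O T8 Tn κ) ∈ 𝔭)
    (hq1 : (X (Sum.inl (t, 1, 0, 1)) - X (Sum.inl (t, 0, 1, 0)) : m59b_P O T8 Tn κ) ∈ 𝔭)
    (hq2 : (X (Sum.inl (t, 1, 1, 0)) - X (Sum.inl (t, 0, 0, 0)) : m59b_P O T8 Tn κ) ∈ 𝔭) :
    ∀ e i j : Fin 2, (X (Sum.inl (t, e, i, j)) : m59b_P O T8 Tn κ) ∈ 𝔭 := by
  set x00 : m59b_P O T8 Tn κ := X (Sum.inl (t, 1, 0, 0)) with hx00
  set x01 : m59b_P O T8 Tn κ := X (Sum.inl (t, 1, 0, 1)) with hx01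
  set x10 : m59b_P O T8 Tn κ := X (Sum.inl (t, 1, 1, 0)) with hx10
  set x11 : m59b_P O T8 Tn κ := X (Sum.inl (t, 1, 1, 1)) with hx11
  have h01 : x01 ∈ 𝔭 := by
    have := add_mem hq1 (hN 1 0)
    rwa [sub_add_cancel] at this
  have h10 : x10 ∈ 𝔭 := by
    have := add_mem hq2 (hN 0 0)
    rwa [sub_add_cancel] at this
  have hcc : ∀ s, constantCoeff (X s : m59b_P O T8 Tn κ) = 0 := fun s => constantCoeff_X s
  have htrace : (m59b_Phi8 (Tn := Tn) O κ a t).trace = C (2 * a t) + (x00 + x11) := by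
    rw [Matrix.trace_fin_two]
    simp only [m59b_Phi8, twb_r8_Phi, Matrix.add_apply, Matrix.scalar_apply,
      Matrix.diagonal_apply_eq, Matrix.of_apply]
    rw [map_mul, hx00, hx11]
    have : (C (2 : O) : m59b_P O T8 Tn κ) = 2 := by
      rw [show (2 : O) = ((2 : ℕ) : O) by norm_num, map_natCast]; norm_num
    rw [this]
    ring
  have hτ : x00 + x11 ∈ 𝔭 := by
    have hfac : m59b_r8 (Tn := Tn) O κ a l8 t =
        (C (2 * a t - ((l8 t : O) + 1)) + (x00 + x11)) *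
          (C (2 * a t + ((l8 t : O) + 1)) + (x00 + x11)) := by
      rw [m59b_r8, htrace]
      simp only [map_sub, map_add, map_mul, map_natCast, map_one]
      ring
    rw [hfac] at hr
    have hg : constantCoeff (x00 + x11 : m59b_P O T8 Tn κ) = 0 := by
      rw [map_add, hx00, hx11, hcc, hcc, add_zero]
    rcases h𝔭.mem_or_mem hr with h | h
    · exact m59bd_unit_or_mem hmax 𝔭 h𝔭 hlam _ _ hg h
    · exact m59bd_unit_or_mem hmax 𝔭 h𝔭 hlam _ _ hg h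
  have hprod : x00 * x11 ∈ 𝔭 := by
    have hd : (m59b_Phi8 (Tn := Tn) O κ a t).det - ((l8 t : ℕ) : m59b_P O T8 Tn κ) =
        C (a t ^ 2 - (l8 t : O)) + C (a t) * (x00 + x11) + x00 * x11 - x01 * x10 := by
      rw [Matrix.det_fin_two]
      simp only [m59b_Phi8, twb_r8_Phi, Matrix.add_apply, Matrix.scalar_apply,
        Matrix.diagonal_apply_eq, Matrix.of_apply, ne_eq, zero_ne_one, one_ne_zero,
        not_false_eq_true, Matrix.diagonal_apply_ne, zero_add]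
      rw [map_sub, map_pow, map_natCast, hx00, hx01, hx10, hx11]
      ring
    rw [hd] at hdet
    have h1 : (C (a t ^ 2 - (l8 t : O)) : m59b_P O T8 Tn κ) ∈ 𝔭 :=
      m59bd_C_mem hmax 𝔭 hlam _ han
    have h2 : C (a t) * (x00 + x11) ∈ 𝔭 := Ideal.mul_mem_left _ _ hτ
    have h3 : x01 * x10 ∈ 𝔭 := Ideal.mul_mem_right _ _ h01
    have h4 := add_mem (sub_mem (sub_mem hdet h1) h2) h3
    have e : C (a t ^ 2 - (l8 t : O)) + C (a t) * (x00 + x11) + x00 * x11 - x01 * x10 -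
        C (a t ^ 2 - (l8 t : O)) - C (a t) * (x00 + x11) + x01 * x10 = x00 * x11 := by ring
    rwa [e] at h4
  have h00 : x00 ∈ 𝔭 := by
    rcases h𝔭.mem_or_mem hprod with h | h
    · exact h
    · have := sub_mem hτ h
      rwa [add_sub_cancel_right] at this
  have h11 : x11 ∈ 𝔭 := by
    have := sub_mem hτ h00
    rwa [add_sub_cancel_left] at this
  intro e i j
  fin_cases e
  · exact hN i j
  · fin_cases i <;> fin_cases j
    · exact h00
    · exact h01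
    · exact h10
    · exact h11

/-- **local computation at a non-scalar prime**: one parameter `t' + n₂`. -/
theorem m59bd_localn {lam : O} (hmax : maximalIdeal O = Ideal.span {lam})
    (t0 : Tn → O) (ln : Tn → ℕ) (l : Tn)
    (𝔭 : Ideal (m59b_P O T8 Tn κ)) (h𝔭 : 𝔭.IsPrime) (hlam : (C lam : m59b_P O T8 Tn κ) ∈ 𝔭)
    (hrel : ∀ g ∈ m59b_reln O T8 κ t0 ln l, g ∈ 𝔭)
    (hq : (X (Sum.inr (Sum.inl (l, 0))) + X (Sum.inr (Sum.inl (l, 2))) : m59b_P O T8 Tn κ) ∈ 𝔭) :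
    ∀ i : Fin 3, (X (Sum.inr (Sum.inl (l, i))) : m59b_P O T8 Tn κ) ∈ 𝔭 := by
  set x0 : m59b_P O T8 Tn κ := X (Sum.inr (Sum.inl (l, 0))) with hx0
  set n1 : m59b_P O T8 Tn κ := X (Sum.inr (Sum.inl (l, 1))) with hn1
  set n2 : m59b_P O T8 Tn κ := X (Sum.inr (Sum.inl (l, 2))) with hn2
  set L : m59b_P O T8 Tn κ := ((ln l : ℕ) : m59b_P O T8 Tn κ) with hL
  have hr1 : (1 + L) * n1 - (C (t0 l) + x0) * n2 ∈ 𝔭 := hrel _ (Or.inl rfl)
  have hr3 : n1 ^ 2 - n2 ^ 2 ∈ 𝔭 := hrel _ (Or.inr (Or.inr rfl))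
  have hcc2 : constantCoeff n2 = 0 := constantCoeff_X _
  have hLC : L = C ((ln l : ℕ) : O) := by rw [hL, map_natCast]
  -- it suffices to show `n₂ ∈ 𝔭` and `n₁ ∈ 𝔭`
  have hfin : n1 ∈ 𝔭 → n2 ∈ 𝔭 → ∀ i : Fin 3,
      (X (Sum.inr (Sum.inl (l, i))) : m59b_P O T8 Tn κ) ∈ 𝔭 := by
    intro h1 h2 i
    fin_cases i
    · have := sub_mem hq h2
      rwa [add_sub_cancel_right] at this
    · exact h1
    · exact h2
  have hfac : n1 ^ 2 - n2 ^ 2 = (n1 - n2) * (n1 + n2) := by ring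
  rw [hfac] at hr3
  rcases h𝔭.mem_or_mem hr3 with hm | hm
  · -- `n₁ ≡ n₂`
    have h1 : ((1 + L) - (C (t0 l) + x0)) * n2 ∈ 𝔭 := by
      have := sub_mem hr1 (Ideal.mul_mem_left 𝔭 (1 + L) hm)
      have e : (1 + L) * n1 - (C (t0 l) + x0) * n2 - (1 + L) * (n1 - n2) =
          ((1 + L) - (C (t0 l) + x0)) * n2 := by ring
      rwa [e] at this
    have h2 : n2 ∈ 𝔭 := by
      rcases h𝔭.mem_or_mem h1 with h | h
      · have h3 := add_mem h hq
        have e : (1 + L) - (C (t0 l) + x0) + (x0 + n2) = C (1 + ((ln l : ℕ) : O) - t0 l) + n2 := by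
          rw [hLC, map_sub, map_add, map_one]
          ring
        rw [e] at h3
        exact m59bd_unit_or_mem hmax 𝔭 h𝔭 hlam _ _ hcc2 h3
      · exact h
    have h3 : n1 ∈ 𝔭 := by
      have := add_mem hm h2
      rwa [sub_add_cancel] at this
    exact hfin h3 h2
  · -- `n₁ ≡ -n₂`
    have h1 : ((1 + L) + (C (t0 l) + x0)) * n2 ∈ 𝔭 := by
      have := sub_mem (Ideal.mul_mem_left 𝔭 (1 + L) hm) hr1
      have e : (1 + L) * (n1 + n2) - ((1 + L) * n1 - (C (t0 l) + x0) * n2) =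
          ((1 + L) + (C (t0 l) + x0)) * n2 := by ring
      rwa [e] at this
    have h2 : n2 ∈ 𝔭 := by
      rcases h𝔭.mem_or_mem h1 with h | h
      · have h3 := sub_mem h hq
        have e : (1 + L) + (C (t0 l) + x0) - (x0 + n2) =
            C (1 + ((ln l : ℕ) : O) + t0 l) + (-n2) := by
          rw [hLC, map_add, map_add, map_one]
          ring
        rw [e] at h3
        have h4 := m59bd_unit_or_mem hmax 𝔭 h𝔭 hlam _ (-n2) (by rw [map_neg, hcc2, neg_zero]) h3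
        have := neg_mem h4
        rwa [neg_neg] at this
      · exact h
    have h3 : n1 ∈ 𝔭 := by
      have := sub_mem hm h2
      rwa [add_sub_cancel_right] at this
    exact hfin h3 h2

/-- **local computation at a non-scalar prime where `N = 0` and `r = 0`**: no parameter. -/
theorem m59bd_localn_nz {lam : O} (hmax : maximalIdeal O = Ideal.span {lam})
    (t0 : Tn → O) (ln : Tn → ℕ) (l : Tn)
    (𝔭 : Ideal (m59b_P O T8 Tn κ)) (h𝔭 : 𝔭.IsPrime) (hlam : (C lam : m59b_P O T8 Tn κ) ∈ 𝔭)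
    (hr : m59b_rn (T8 := T8) O κ t0 ln l ∈ 𝔭) :
    (X (Sum.inr (Sum.inl (l, 0))) : m59b_P O T8 Tn κ) ∈ 𝔭 := by
  set x0 : m59b_P O T8 Tn κ := X (Sum.inr (Sum.inl (l, 0))) with hx0
  have hcc : constantCoeff x0 = 0 := constantCoeff_X _
  have hfac : m59b_rn (T8 := T8) O κ t0 ln l =
      (C (t0 l - (((ln l : ℕ) : O) + 1)) + x0) * (C (t0 l + (((ln l : ℕ) : O) + 1)) + x0) := by
    rw [m59b_rn, m59b_tn]
    simp only [map_sub, map_add, map_natCast, map_one]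
    ring
  rw [hfac] at hr
  rcases h𝔭.mem_or_mem hr with h | h
  · exact m59bd_unit_or_mem hmax 𝔭 h𝔭 hlam _ _ hcc h
  · exact m59bd_unit_or_mem hmax 𝔭 h𝔭 hlam _ _ hcc h

end Local

section Global

variable {O : Type} [CommRing O] [IsLocalRing O] [IsNoetherianRing O] {T8 Tn κ : Type}
  [Fintype T8] [Fintype Tn] [Fintype κ]

open Classical in
/-- **(B1), general form.** `J' ⊇ J`; at the primes of `A8`, `An` the `N`-coordinates and `r` lie
in `J'`: then `dim (P ⧸ J') ≤ 1 + |κ| + 2 |T8| + (|T8| - |A8|) + (|Tn| - |An|)`. -/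
theorem m59bd_dim_le {lam : O} (hmax : maximalIdeal O = Ideal.span {lam}) {p : ℕ} (hp : p.Prime)
    (hp2 : p ≠ 2) (hpl : (p : O) ∈ Ideal.span {lam}) (h2 : IsUnit (2 : O))
    (a : T8 → O) (l8 : T8 → ℕ) (t0 : Tn → O) (ln : Tn → ℕ) (hl8 : ∀ t, l8 t % p = 1)
    (han : ∀ t, a t ^ 2 - (l8 t : O) ∈ maximalIdeal O)
    (A8 : Finset T8) (An : Finset Tn) (J' : Ideal (m59b_P O T8 Tn κ))
    (hJ : m59b_J O κ a l8 t0 ln ≤ J')
    (hA8 : ∀ t ∈ A8, (∀ i j : Fin 2, (X (Sum.inl (t, 0, i, j)) : m59b_P O T8 Tn κ) ∈ J') ∧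
      m59b_r8 O κ a l8 t ∈ J')
    (hAn : ∀ l ∈ An, m59b_n1 O T8 κ l ∈ J' ∧ m59b_n2 O T8 κ l ∈ J' ∧ m59b_rn O κ t0 ln l ∈ J') :
    ringKrullDim (m59b_P O T8 Tn κ ⧸ J') ≤
      ((1 + Fintype.card κ + 2 * Fintype.card T8 + (Fintype.card T8 - A8.card) +
        (Fintype.card Tn - An.card) : ℕ) : WithBot ℕ∞) := by
  let q1 : T8 → m59b_P O T8 Tn κ := fun t => X (Sum.inl (t, 1, 0, 1)) - X (Sum.inl (t, 0, 1, 0))
  let q2 : T8 → m59b_P O T8 Tn κ := fun t => X (Sum.inl (t, 1, 1, 0)) - X (Sum.inl (t, 0, 0, 0))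
  let q3 : T8 → m59b_P O T8 Tn κ := fun t =>
    X (Sum.inl (t, 1, 0, 0)) - X (Sum.inl (t, 1, 1, 1)) - C 2 * X (Sum.inl (t, 0, 0, 1))
  let qn : Tn → m59b_P O T8 Tn κ := fun l =>
    X (Sum.inr (Sum.inl (l, 0))) + X (Sum.inr (Sum.inl (l, 2)))
  let xk : κ → m59b_P O T8 Tn κ := fun k => X (Sum.inr (Sum.inr k))
  let s : Finset (m59b_P O T8 Tn κ) :=
    insert (C lam) (Finset.univ.image xk ∪ (Finset.univ.image q1 ∪ (Finset.univ.image q2 ∪
      ((Finset.univ \ A8).image q3 ∪ (Finset.univ \ An).image qn))))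
  have hsmem : ∀ x, x ∈ (s : Set (m59b_P O T8 Tn κ)) ↔
      x = C lam ∨ (∃ k, xk k = x) ∨ (∃ t, q1 t = x) ∨ (∃ t, q2 t = x) ∨
        (∃ t, t ∉ A8 ∧ q3 t = x) ∨ (∃ l, l ∉ An ∧ qn l = x) := by
    intro x
    simp only [s, Finset.coe_insert, Finset.coe_union, Finset.coe_image, Finset.coe_univ,
      Set.image_univ, Set.mem_insert_iff, Set.mem_union, Set.mem_range, Set.mem_image,
      Finset.coe_sdiff, Set.mem_sdiff, Set.mem_univ, true_and, Finset.mem_coe]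
  have hlamM : lam ∈ maximalIdeal O := by
    rw [hmax]; exact Ideal.mem_span_singleton_self lam
  have hs : (s : Set (m59b_P O T8 Tn κ)) ⊆ maximalIdeal (m59b_P O T8 Tn κ) := by
    intro x hx
    apply twb_d8_mem_maximalIdeal
    rcases (hsmem x).mp hx with rfl | ⟨k, rfl⟩ | ⟨t, rfl⟩ | ⟨t, rfl⟩ | ⟨t, -, rfl⟩ | ⟨l, -, rfl⟩
    · simpa using hlamM
    · simp [xk]
    · simp [q1]
    · simp [q2]
    · simp [q3]
    · simp [qn]
  have key := twb_dim_quot_le_card_of_primes J' s hs (by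
    intro 𝔭 h𝔭 hJ𝔭 hs𝔭
    have hlam : (C lam : m59b_P O T8 Tn κ) ∈ 𝔭 := hs𝔭 ((hsmem _).mpr (Or.inl rfl))
    have hrel8 : ∀ t, ∀ g ∈ m59b_rel8 (Tn := Tn) O κ a l8 t, g ∈ 𝔭 := fun t g hg =>
      hJ𝔭 (hJ (Ideal.subset_span (Or.inl (Set.mem_iUnion.mpr ⟨t, hg⟩))))
    have hreln : ∀ l, ∀ g ∈ m59b_reln O T8 κ t0 ln l, g ∈ 𝔭 := fun l g hg =>
      hJ𝔭 (hJ (Ideal.subset_span (Or.inr (Set.mem_iUnion.mpr ⟨l, hg⟩))))
    apply twb_dim_maximalIdeal_le 𝔭 _ (fun b hb => m59bd_C_mem hmax 𝔭 hlam b hb)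
    have hq1 : ∀ t, q1 t ∈ 𝔭 := fun t =>
      hs𝔭 ((hsmem _).mpr (Or.inr (Or.inr (Or.inl ⟨t, rfl⟩))))
    have hq2 : ∀ t, q2 t ∈ 𝔭 := fun t =>
      hs𝔭 ((hsmem _).mpr (Or.inr (Or.inr (Or.inr (Or.inl ⟨t, rfl⟩)))))
    rintro (⟨t, e, i, j⟩ | ⟨l, i⟩ | k)
    · by_cases ht : t ∈ A8
      · obtain ⟨hN, hr⟩ := hA8 t ht
        exact m59bd_local8_nz hmax a l8 t (han t) 𝔭 h𝔭 hlam (fun i j => hJ𝔭 (hN i j)) (hJ𝔭 hr)
          (hrel8 t _ (Or.inr rfl)) (hq1 t) (hq2 t) e i j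
      · exact m59bd_local8 hmax hp hp2 hpl h2 a l8 t (hl8 t) 𝔭 h𝔭 hlam (hrel8 t) (hq1 t) (hq2 t)
          (hs𝔭 ((hsmem _).mpr (Or.inr (Or.inr (Or.inr (Or.inr (Or.inl ⟨t, ht, rfl⟩))))))) e i j
    · by_cases hl : l ∈ An
      · obtain ⟨h1, h2', hr⟩ := hAn l hl
        fin_cases i
        · exact m59bd_localn_nz hmax t0 ln l 𝔭 h𝔭 hlam (hJ𝔭 hr)
        · exact hJ𝔭 h1
        · exact hJ𝔭 h2'
      · exact m59bd_localn hmax t0 ln l 𝔭 h𝔭 hlam (hreln l)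
          (hs𝔭 ((hsmem _).mpr (Or.inr (Or.inr (Or.inr (Or.inr (Or.inr ⟨l, hl, rfl⟩))))))) i
    · exact hs𝔭 ((hsmem _).mpr (Or.inr (Or.inl ⟨k, rfl⟩))))
  refine key.trans ?_
  have hcard : s.card ≤ 1 + Fintype.card κ + 2 * Fintype.card T8 + (Fintype.card T8 - A8.card) +
      (Fintype.card Tn - An.card) := by
    have h1 := Finset.card_insert_le (C lam : m59b_P O T8 Tn κ)
      (Finset.univ.image xk ∪ (Finset.univ.image q1 ∪ (Finset.univ.image q2 ∪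
      ((Finset.univ \ A8).image q3 ∪ (Finset.univ \ An).image qn))))
    have h2 := Finset.card_union_le (Finset.univ.image xk)
      (Finset.univ.image q1 ∪ (Finset.univ.image q2 ∪
      ((Finset.univ \ A8).image q3 ∪ (Finset.univ \ An).image qn)))
    have h3 := Finset.card_union_le (Finset.univ.image q1)
      (Finset.univ.image q2 ∪ ((Finset.univ \ A8).image q3 ∪ (Finset.univ \ An).image qn))
    have h4 := Finset.card_union_le (Finset.univ.image q2)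
      ((Finset.univ \ A8).image q3 ∪ (Finset.univ \ An).image qn)
    have h5 := Finset.card_union_le ((Finset.univ \ A8).image q3) ((Finset.univ \ An).image qn)
    have h6 := Finset.card_image_le (s := (Finset.univ : Finset κ)) (f := xk)
    have h7 := Finset.card_image_le (s := (Finset.univ : Finset T8)) (f := q1)
    have h8 := Finset.card_image_le (s := (Finset.univ : Finset T8)) (f := q2)
    have h9 := Finset.card_image_le (s := (Finset.univ \ A8 : Finset T8)) (f := q3)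
    have h10 := Finset.card_image_le (s := (Finset.univ \ An : Finset Tn)) (f := qn)
    rw [Finset.card_univ] at h6 h7 h8
    rw [Finset.card_univ_sdiff] at h9 h10
    have hs_def : s.card = (insert (C lam : m59b_P O T8 Tn κ)
      (Finset.univ.image xk ∪ (Finset.univ.image q1 ∪ (Finset.univ.image q2 ∪
      ((Finset.univ \ A8).image q3 ∪ (Finset.univ \ An).image qn))))).card := rfl
    omega
  exact_mod_cast hcard

/-- **(B1)**: `dim R_∞ ≤ 1 + |κ| + 3 |T8| + |Tn|`, in the form for any `J' ⊇ J` (so also the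
dimension part of (B2): `J' = J + (u)`). -/
theorem m59bd_dim_quot_le {lam : O} (hmax : maximalIdeal O = Ideal.span {lam}) {p : ℕ}
    (hp : p.Prime) (hp2 : p ≠ 2) (hpl : (p : O) ∈ Ideal.span {lam}) (h2 : IsUnit (2 : O))
    (a : T8 → O) (l8 : T8 → ℕ) (t0 : Tn → O) (ln : Tn → ℕ) (hl8 : ∀ t, l8 t % p = 1)
    (han : ∀ t, a t ^ 2 - (l8 t : O) ∈ maximalIdeal O) (J' : Ideal (m59b_P O T8 Tn κ))
    (hJ : m59b_J O κ a l8 t0 ln ≤ J') :
    ringKrullDim (m59b_P O T8 Tn κ ⧸ J') ≤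
      ((1 + Fintype.card κ + 3 * Fintype.card T8 + Fintype.card Tn : ℕ) : WithBot ℕ∞) := by
  have h := m59bd_dim_le hmax hp hp2 hpl h2 a l8 t0 ln hl8 han ∅ ∅ J' hJ
    (fun t ht => absurd ht (Finset.notMem_empty t)) (fun l hl => absurd hl (Finset.notMem_empty l))
  refine h.trans ?_
  have : 1 + Fintype.card κ + 2 * Fintype.card T8 + (Fintype.card T8 - (∅ : Finset T8).card) +
      (Fintype.card Tn - (∅ : Finset Tn).card) =
      1 + Fintype.card κ + 3 * Fintype.card T8 + Fintype.card Tn := by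
    simp only [Finset.card_empty]
    omega
  rw [this]

/-- **(B1)** for `R_∞` itself. -/
theorem m59bd_dim_R_le {lam : O} (hmax : maximalIdeal O = Ideal.span {lam}) {p : ℕ}
    (hp : p.Prime) (hp2 : p ≠ 2) (hpl : (p : O) ∈ Ideal.span {lam}) (h2 : IsUnit (2 : O))
    (a : T8 → O) (l8 : T8 → ℕ) (t0 : Tn → O) (ln : Tn → ℕ) (hl8 : ∀ t, l8 t % p = 1)
    (han : ∀ t, a t ^ 2 - (l8 t : O) ∈ maximalIdeal O) :
    ringKrullDim (m59b_R O κ a l8 t0 ln) ≤
      ((1 + Fintype.card κ + 3 * Fintype.card T8 + Fintype.card Tn : ℕ) : WithBot ℕ∞) :=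
  m59bd_dim_quot_le hmax hp hp2 hpl h2 a l8 t0 ln hl8 han _ le_rfl

/-- **[NZ] by dimension at a scalar-hard prime**: if `J' ⊇ J` contains the `N`-coordinates of
`t` and `r_t`, then `dim (P ⧸ J') ≤ |κ| + 3 |T8| + |Tn|` (one less than (B1)). -/
theorem m59bd_dim_nz8 {lam : O} (hmax : maximalIdeal O = Ideal.span {lam}) {p : ℕ}
    (hp : p.Prime) (hp2 : p ≠ 2) (hpl : (p : O) ∈ Ideal.span {lam}) (h2 : IsUnit (2 : O))
    (a : T8 → O) (l8 : T8 → ℕ) (t0 : Tn → O) (ln : Tn → ℕ) (hl8 : ∀ t, l8 t % p = 1)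
    (han : ∀ t, a t ^ 2 - (l8 t : O) ∈ maximalIdeal O) (J' : Ideal (m59b_P O T8 Tn κ))
    (hJ : m59b_J O κ a l8 t0 ln ≤ J') (t : T8)
    (hN : ∀ i j : Fin 2, (X (Sum.inl (t, 0, i, j)) : m59b_P O T8 Tn κ) ∈ J')
    (hr : m59b_r8 O κ a l8 t ∈ J') :
    ringKrullDim (m59b_P O T8 Tn κ ⧸ J') ≤
      ((Fintype.card κ + 3 * Fintype.card T8 + Fintype.card Tn : ℕ) : WithBot ℕ∞) := by
  classical
  have h := m59bd_dim_le hmax hp hp2 hpl h2 a l8 t0 ln hl8 han {t} ∅ J' hJ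
    (fun t' ht' => by
      rw [Finset.mem_singleton] at ht'
      subst ht'
      exact ⟨hN, hr⟩)
    (fun l hl => absurd hl (Finset.notMem_empty l))
  refine h.trans ?_
  have hpos : 1 ≤ Fintype.card T8 := Fintype.card_pos_iff.mpr ⟨t⟩
  have : 1 + Fintype.card κ + 2 * Fintype.card T8 + (Fintype.card T8 - ({t} : Finset T8).card) +
      (Fintype.card Tn - (∅ : Finset Tn).card) =
      Fintype.card κ + 3 * Fintype.card T8 + Fintype.card Tn := by
    simp only [Finset.card_empty, Finset.card_singleton]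
    omega
  rw [this]

/-- **[NZ] by dimension at a non-scalar prime**. -/
theorem m59bd_dim_nzn {lam : O} (hmax : maximalIdeal O = Ideal.span {lam}) {p : ℕ}
    (hp : p.Prime) (hp2 : p ≠ 2) (hpl : (p : O) ∈ Ideal.span {lam}) (h2 : IsUnit (2 : O))
    (a : T8 → O) (l8 : T8 → ℕ) (t0 : Tn → O) (ln : Tn → ℕ) (hl8 : ∀ t, l8 t % p = 1)
    (han : ∀ t, a t ^ 2 - (l8 t : O) ∈ maximalIdeal O) (J' : Ideal (m59b_P O T8 Tn κ))
    (hJ : m59b_J O κ a l8 t0 ln ≤ J') (l : Tn)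
    (h1 : m59b_n1 O T8 κ l ∈ J') (h2' : m59b_n2 O T8 κ l ∈ J')
    (hr : m59b_rn O κ t0 ln l ∈ J') :
    ringKrullDim (m59b_P O T8 Tn κ ⧸ J') ≤
      ((Fintype.card κ + 3 * Fintype.card T8 + Fintype.card Tn : ℕ) : WithBot ℕ∞) := by
  classical
  have h := m59bd_dim_le hmax hp hp2 hpl h2 a l8 t0 ln hl8 han ∅ {l} J' hJ
    (fun t ht => absurd ht (Finset.notMem_empty t))
    (fun l' hl' => by
      rw [Finset.mem_singleton] at hl'
      subst hl'
      exact ⟨h1, h2', hr⟩)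
  refine h.trans ?_
  have hpos : 1 ≤ Fintype.card Tn := Fintype.card_pos_iff.mpr ⟨l⟩
  have : 1 + Fintype.card κ + 2 * Fintype.card T8 + (Fintype.card T8 - (∅ : Finset T8).card) +
      (Fintype.card Tn - ({l} : Finset Tn).card) =
      Fintype.card κ + 3 * Fintype.card T8 + Fintype.card Tn := by
    simp only [Finset.card_empty, Finset.card_singleton]
    omega
  rw [this]

end Global

end

end Fermat.Agent.M59
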