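import Mathlib
import Fermat.Agent.M59.Loc.Ring

/-!
# M59 / [B], case (III) : the patched ring with the relation `a · v = 0` at `p`
(helper26; prefix `m59lp_`; chief's decision #5352 (2), spec helper4 #5386 (4))

`ka ≠ kv : κ` are the two free coordinates at `p` (`a = z(φ)/z₀ - 1`, `v = b(τ_v)`).

* `m59lp_av`, `m59lp_Jp = m59b_J ⊔ (X ka · X kv)`, `m59lp_Rp = m59b_P ⧸ m59lp_Jp`;
* `m59lp_wv kv` : the `v`-weight (`1` on `X kv`, `0` elsewhere);
* `m59lp_sup_stable`, `m59lp_Jp_stable` : `Jp` is stable under the weighted homogeneous components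
  for EVERY weight for which `m59b_J` is (`X ka · X kv` is a monomial); `m59lp_Jp_stable8`,
  `m59lp_Jp_stablen`, `m59lp_Jp_stablev` : the concrete weights (inputs of [HOM]);
* `m59lp_Jp_le_maximalIdeal`, `m59lp_Jp_ne_top`, the instances of `m59lp_Rp`.
-/

set_option autoImplicit false
set_option linter.unusedSectionVars false
set_option linter.style.haveILetI false

namespace Fermat.Agent.M59

open MvPowerSeries Matrix IsLocalRing Fermat.Agent.TW

noncomputable section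

/-! ### sums of stable ideals -/

section Sup

variable {σ : Type*} {R : Type*} [CommRing R] (w : σ → ℕ)

/-- the sum of two ideals stable under the weighted homogeneous components is stable. -/
theorem m59lp_sup_stable (I1 I2 : Ideal (MvPowerSeries σ R))
    (h1 : ∀ f ∈ I1, ∀ k, weightedHomogeneousComponent w k f ∈ I1)
    (h2 : ∀ f ∈ I2, ∀ k, weightedHomogeneousComponent w k f ∈ I2)
    (f : MvPowerSeries σ R) (hf : f ∈ I1 ⊔ I2) (k : ℕ) :
    weightedHomogeneousComponent w k f ∈ I1 ⊔ I2 := by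
  obtain ⟨f1, hf1, f2, hf2, rfl⟩ := Submodule.mem_sup.mp hf
  rw [map_add]
  exact Submodule.add_mem_sup (h1 f1 hf1 k) (h2 f2 hf2 k)

/-- a product of two variables is weighted homogeneous for every weight. -/
theorem m59lp_homog_XX (i j : σ) :
    IsWeightedHomogeneous w (X i * X j : MvPowerSeries σ R) (w i + w j) :=
  m59b_homog_mul w (m59b_homog_X w i) (m59b_homog_X w j)

end Sup

/-! ### the ring -/

section Defs

variable (O : Type) [CommRing O] {T8 Tn : Type} (κ : Type)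

/-- the free coordinate `X_k`, `k : κ`. -/
def m59lp_xk (k : κ) : m59b_P O T8 Tn κ := X (Sum.inr (Sum.inr k))

/-- the extra relation `a · v` at `p`. -/
def m59lp_av (ka kv : κ) : m59b_P O T8 Tn κ :=
  X (Sum.inr (Sum.inr ka)) * X (Sum.inr (Sum.inr kv))

/-- the ideal of relations in case (III): `J ⊔ (a · v)`. -/
def m59lp_Jp (a : T8 → O) (l8 : T8 → ℕ) (t0 : Tn → O) (ln : Tn → ℕ) (ka kv : κ) :
    Ideal (m59b_P O T8 Tn κ) :=
  m59b_J O κ a l8 t0 ln ⊔ Ideal.span {m59lp_av (T8 := T8) (Tn := Tn) O κ ka kv}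

/-- `R_∞` in case (III). -/
abbrev m59lp_Rp (a : T8 → O) (l8 : T8 → ℕ) (t0 : Tn → O) (ln : Tn → ℕ) (ka kv : κ) : Type :=
  m59b_P O T8 Tn κ ⧸ m59lp_Jp O κ a l8 t0 ln ka kv

open Classical in
/-- the `v`-weight: `1` on `X kv`, `0` elsewhere. -/
def m59lp_wv (kv : κ) : twb_r8_Idx T8 (m59b_Aux Tn κ) → ℕ
  | Sum.inl _ => 0
  | Sum.inr (Sum.inl _) => 0
  | Sum.inr (Sum.inr k) => if k = kv then 1 else 0

variable {κ}

theorem m59lp_J_le_Jp (a : T8 → O) (l8 : T8 → ℕ) (t0 : Tn → O) (ln : Tn → ℕ) (ka kv : κ) :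
    m59b_J O κ a l8 t0 ln ≤ m59lp_Jp O κ a l8 t0 ln ka kv := le_sup_left

theorem m59lp_av_mem_Jp (a : T8 → O) (l8 : T8 → ℕ) (t0 : Tn → O) (ln : Tn → ℕ) (ka kv : κ) :
    m59lp_av (T8 := T8) (Tn := Tn) O κ ka kv ∈ m59lp_Jp O κ a l8 t0 ln ka kv :=
  le_sup_right (α := Ideal (m59b_P O T8 Tn κ)) (Ideal.subset_span rfl)

/-- `Jp ≤ J'` iff `J ≤ J'` and `a · v ∈ J'`. -/
theorem m59lp_Jp_le_iff (a : T8 → O) (l8 : T8 → ℕ) (t0 : Tn → O) (ln : Tn → ℕ) (ka kv : κ)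
    (J' : Ideal (m59b_P O T8 Tn κ)) :
    m59lp_Jp O κ a l8 t0 ln ka kv ≤ J' ↔
      m59b_J O κ a l8 t0 ln ≤ J' ∧ m59lp_av (T8 := T8) (Tn := Tn) O κ ka kv ∈ J' := by
  rw [m59lp_Jp, sup_le_iff, Ideal.span_le, Set.singleton_subset_iff]
  rfl

theorem m59lp_wv_le_one (kv : κ) (s : twb_r8_Idx T8 (m59b_Aux Tn κ)) :
    m59lp_wv (T8 := T8) (Tn := Tn) κ kv s ≤ 1 := by
  classical
  rcases s with s | s | k
  · exact Nat.zero_le 1
  · exact Nat.zero_le 1
  · show (if k = kv then 1 else 0) ≤ 1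
    split_ifs <;> omega

theorem m59lp_wv_self (kv : κ) :
    m59lp_wv (T8 := T8) (Tn := Tn) κ kv (Sum.inr (Sum.inr kv)) = 1 := by
  classical
  show (if kv = kv then 1 else 0) = 1
  rw [if_pos rfl]

theorem m59lp_wv_other {k kv : κ} (h : k ≠ kv) :
    m59lp_wv (T8 := T8) (Tn := Tn) κ kv (Sum.inr (Sum.inr k)) = 0 := by
  classical
  show (if k = kv then 1 else 0) = 0
  rw [if_neg h]

theorem m59lp_wv_eq_one_iff (kv : κ) (i : twb_r8_Idx T8 (m59b_Aux Tn κ)) :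
    m59lp_wv (T8 := T8) (Tn := Tn) κ kv i = 1 ↔ i = Sum.inr (Sum.inr kv) := by
  classical
  constructor
  · intro h
    rcases i with i | i | k
    · exact absurd h (by show (0 : ℕ) ≠ 1; omega)
    · exact absurd h (by show (0 : ℕ) ≠ 1; omega)
    · have h' : (if k = kv then 1 else 0) = 1 := h
      by_cases hk : k = kv
      · rw [hk]
      · rw [if_neg hk] at h'
        exact absurd h' (by omega)
  · rintro rfl
    exact m59lp_wv_self kv

theorem m59lp_wv_ne_zero {kv : κ} {i : twb_r8_Idx T8 (m59b_Aux Tn κ)}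
    (h : m59lp_wv (T8 := T8) (Tn := Tn) κ kv i ≠ 0) : i = Sum.inr (Sum.inr kv) := by
  apply (m59lp_wv_eq_one_iff kv i).mp
  have := m59lp_wv_le_one (T8 := T8) (Tn := Tn) kv i
  omega

end Defs

/-! ### stability of `Jp` -/

section Stable

variable (O : Type) [CommRing O] {T8 Tn : Type} (κ : Type)
  (w : twb_r8_Idx T8 (m59b_Aux Tn κ) → ℕ)

/-- **stability of `Jp`** under the weighted homogeneous components, for every weight for which
`m59b_J_stable` applies (no condition on the free variables). -/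
theorem m59lp_Jp_stable (a : T8 → O) (l8 : T8 → ℕ) (t0 : Tn → O) (ln : Tn → ℕ) (ka kv : κ)
    (δ8 : T8 → ℕ) (δn : Tn → ℕ)
    (h80 : ∀ t i j, w (Sum.inl (t, 0, i, j)) = δ8 t) (h81 : ∀ t i j, w (Sum.inl (t, 1, i, j)) = 0)
    (hn0 : ∀ l, w (Sum.inr (Sum.inl (l, 0))) = 0) (hn1 : ∀ l, w (Sum.inr (Sum.inl (l, 1))) = δn l)
    (hn2 : ∀ l, w (Sum.inr (Sum.inl (l, 2))) = δn l)
    (f : m59b_P O T8 Tn κ) (hf : f ∈ m59lp_Jp O κ a l8 t0 ln ka kv) (k : ℕ) :
    weightedHomogeneousComponent w k f ∈ m59lp_Jp O κ a l8 t0 ln ka kv := by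
  refine m59lp_sup_stable w _ _ ?_ ?_ f hf k
  · intro g hg n
    exact m59b_J_stable O κ w a l8 t0 ln δ8 δn h80 h81 hn0 hn1 hn2 g hg n
  · intro g hg n
    refine m59bh_span_stable w _ ?_ g hg n
    intro g' hg'
    rw [Set.mem_singleton_iff] at hg'
    rw [hg']
    exact ⟨_, m59lp_homog_XX w _ _⟩

/-- `Jp` is stable under the components of the weight `m59b_w8 t`. -/
theorem m59lp_Jp_stable8 (a : T8 → O) (l8 : T8 → ℕ) (t0 : Tn → O) (ln : Tn → ℕ) (ka kv : κ)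
    (t : T8) (f : m59b_P O T8 Tn κ) (hf : f ∈ m59lp_Jp O κ a l8 t0 ln ka kv) (k : ℕ) :
    weightedHomogeneousComponent (m59b_w8 κ t) k f ∈ m59lp_Jp O κ a l8 t0 ln ka kv := by
  classical
  refine m59lp_Jp_stable O κ (m59b_w8 κ t) a l8 t0 ln ka kv (fun t' => if t' = t then 1 else 0)
    (fun _ => 0) ?_ ?_ ?_ ?_ ?_ f hf k
  · intro t' i j
    show (if t' = t ∧ (0 : Fin 2) = 0 then 1 else 0) = _
    by_cases h : t' = t <;> simp [h]
  · intro t' i j
    show (if t' = t ∧ (1 : Fin 2) = 0 then 1 else 0) = 0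
    simp
  · intro l; rfl
  · intro l; rfl
  · intro l; rfl

/-- `Jp` is stable under the components of the weight `m59b_wn l`. -/
theorem m59lp_Jp_stablen (a : T8 → O) (l8 : T8 → ℕ) (t0 : Tn → O) (ln : Tn → ℕ) (ka kv : κ)
    (l : Tn) (f : m59b_P O T8 Tn κ) (hf : f ∈ m59lp_Jp O κ a l8 t0 ln ka kv) (k : ℕ) :
    weightedHomogeneousComponent (m59b_wn κ l) k f ∈ m59lp_Jp O κ a l8 t0 ln ka kv := by
  classical
  refine m59lp_Jp_stable O κ (m59b_wn κ l) a l8 t0 ln ka kv (fun _ => 0)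
    (fun l' => if l' = l then 1 else 0) ?_ ?_ ?_ ?_ ?_ f hf k
  · intro t' i j; rfl
  · intro t' i j; rfl
  · intro l'
    show (if l' = l ∧ (0 : Fin 3) ≠ 0 then 1 else 0) = 0
    simp
  · intro l'
    show (if l' = l ∧ (1 : Fin 3) ≠ 0 then 1 else 0) = _
    by_cases h : l' = l <;> simp [h]
  · intro l'
    show (if l' = l ∧ (2 : Fin 3) ≠ 0 then 1 else 0) = _
    by_cases h : l' = l <;> simp [h]

/-- `Jp` is stable under the components of the `v`-weight. -/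
theorem m59lp_Jp_stablev (a : T8 → O) (l8 : T8 → ℕ) (t0 : Tn → O) (ln : Tn → ℕ) (ka kv : κ)
    (f : m59b_P O T8 Tn κ) (hf : f ∈ m59lp_Jp O κ a l8 t0 ln ka kv) (k : ℕ) :
    weightedHomogeneousComponent (m59lp_wv κ kv) k f ∈ m59lp_Jp O κ a l8 t0 ln ka kv := by
  refine m59lp_Jp_stable O κ (m59lp_wv κ kv) a l8 t0 ln ka kv (fun _ => 0) (fun _ => 0)
    ?_ ?_ ?_ ?_ ?_ f hf k
  · intro t' i j; rfl
  · intro t' i j; rfl
  · intro l'; rfl
  · intro l'; rfl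
  · intro l'; rfl

/-- `m59b_J` itself is stable under the components of the `v`-weight. -/
theorem m59lp_J_stablev (a : T8 → O) (l8 : T8 → ℕ) (t0 : Tn → O) (ln : Tn → ℕ) (kv : κ)
    (f : m59b_P O T8 Tn κ) (hf : f ∈ m59b_J O κ a l8 t0 ln) (k : ℕ) :
    weightedHomogeneousComponent (m59lp_wv κ kv) k f ∈ m59b_J O κ a l8 t0 ln := by
  refine m59b_J_stable O κ (m59lp_wv κ kv) a l8 t0 ln (fun _ => 0) (fun _ => 0)
    ?_ ?_ ?_ ?_ ?_ f hf k
  · intro t' i j; rfl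
  · intro t' i j; rfl
  · intro l'; rfl
  · intro l'; rfl
  · intro l'; rfl

end Stable

/-! ### `Jp ≤ 𝔪_P` and the instances of `Rp` -/

section Inst

variable (O : Type) [CommRing O] [IsLocalRing O] {T8 Tn : Type} (κ : Type)

theorem m59lp_Jp_le_maximalIdeal (a : T8 → O) (l8 : T8 → ℕ) (t0 : Tn → O) (ln : Tn → ℕ)
    (ka kv : κ) (ha : ∀ t, a t ^ 2 - (l8 t : O) ∈ maximalIdeal O) :
    m59lp_Jp O κ a l8 t0 ln ka kv ≤ maximalIdeal (m59b_P O T8 Tn κ) := by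
  rw [m59lp_Jp_le_iff]
  refine ⟨m59b_J_le_maximalIdeal O κ a l8 t0 ln ha, ?_⟩
  rw [twb_qi_mem_maximalIdeal_iff]
  simp [m59lp_av]

theorem m59lp_Jp_ne_top (a : T8 → O) (l8 : T8 → ℕ) (t0 : Tn → O) (ln : Tn → ℕ)
    (ka kv : κ) (ha : ∀ t, a t ^ 2 - (l8 t : O) ∈ maximalIdeal O) :
    m59lp_Jp O κ a l8 t0 ln ka kv ≠ ⊤ := fun h =>
  (maximalIdeal.isMaximal (m59b_P O T8 Tn κ)).ne_top
    (top_le_iff.1 (h ▸ m59lp_Jp_le_maximalIdeal O κ a l8 t0 ln ka kv ha))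

/-- `Rp` is local. -/
theorem m59lp_Rp_isLocalRing (a : T8 → O) (l8 : T8 → ℕ) (t0 : Tn → O) (ln : Tn → ℕ)
    (ka kv : κ) (ha : ∀ t, a t ^ 2 - (l8 t : O) ∈ maximalIdeal O) :
    IsLocalRing (m59lp_Rp O κ a l8 t0 ln ka kv) :=
  twb_qi_isLocalRing (m59lp_Jp_ne_top O κ a l8 t0 ln ka kv ha)

section packaged

variable [IsNoetherianRing O] [Finite T8] [Finite Tn] [Finite κ]
  (a : T8 → O) (l8 : T8 → ℕ) (t0 : Tn → O) (ln : Tn → ℕ) (ka kv : κ)

/-- `Rp` is noetherian. -/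
theorem m59lp_Rp_isNoetherianRing : IsNoetherianRing (m59lp_Rp O κ a l8 t0 ln ka kv) :=
  inferInstance

/-- `Rp` is complete. -/
theorem m59lp_Rp_isAdicComplete [IsAdicComplete (maximalIdeal O) O]
    [IsLocalRing (m59lp_Rp O κ a l8 t0 ln ka kv)] :
    IsAdicComplete (maximalIdeal (m59lp_Rp O κ a l8 t0 ln ka kv))
      (m59lp_Rp O κ a l8 t0 ln ka kv) :=
  twb_qi_isAdicComplete_mvps _

/-- `hR` of `m59d_chain_patch`. -/
theorem m59lp_Rp_finite [Finite (ResidueField O)] [IsLocalRing (m59lp_Rp O κ a l8 t0 ln ka kv)]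
    (k : ℕ) :
    Finite (m59lp_Rp O κ a l8 t0 ln ka kv ⧸ maximalIdeal (m59lp_Rp O κ a l8 t0 ln ka kv) ^ k) :=
  twb_qi_finite_quot_pow_mvps _ k

end packaged

end Inst

end

end Fermat.Agent.M59
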