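import Mathlib
import Fermat.Agent.M59.Loc.Dim
import Fermat.Agent.M59.Loc.RingP

/-!
# M59 / [B], case (III) : (B1) for `Rp = m59b_P / (J + (a · v))` and [NZ]-by-dimension variants
(helper26; prefix `m59lp_`)

* `m59lp_dim_le_gen` : helper4's `m59bd_dim_le` with the parameters `X k` (`k : κ`) replaced by an
  ARBITRARY finite set `sκ` of elements of the maximal ideal which, together with `J'`, forces
  all free variables into a prime:  `dim (P ⧸ J') ≤ 1 + |sκ| + 2|T8| + (|T8| - |A8|) + (|Tn| - |An|)`;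
* `m59lp_dim_le` : `J' ⊇ Jp` : `≤ |κ| + 2|T8| + (|T8| - |A8|) + (|Tn| - |An|)` (parameters
  `X k`, `k ≠ ka, kv`, and `X ka - X kv`): ONE LESS than for the free ring;
* `m59lp_dim_le_av` : `J' ⊇ J`, `X ka, X kv ∈ J'` : one less again ([NZ]-`p` by dimension);
* `m59lp_dim_Rp_le` : **(B1)** `dim Rp ≤ |κ| + 3|T8| + |Tn|`; `m59lp_dim_quot_le` : any `J' ⊇ Jp`;
* `m59lp_dim_nz8`, `m59lp_dim_nzn`, `m59lp_dim_nzp` : the three [NZ]-by-dimension bounds
  (`≤ |κ| - 1 + 3|T8| + |Tn|`).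
-/

set_option autoImplicit false
set_option linter.unusedSectionVars false
set_option linter.style.haveILetI false

namespace Fermat.Agent.M59

open MvPowerSeries Matrix IsLocalRing Fermat.Agent.TW

noncomputable section

section Global

variable {O : Type} [CommRing O] [IsLocalRing O] [IsNoetherianRing O] {T8 Tn κ : Type}
  [Fintype T8] [Fintype Tn] [Fintype κ]

open Classical in
/-- **(B1), general form with arbitrary parameters for the free variables.** -/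
theorem m59lp_dim_le_gen {lam : O} (hmax : maximalIdeal O = Ideal.span {lam}) {p : ℕ}
    (hp : p.Prime) (hp2 : p ≠ 2) (hpl : (p : O) ∈ Ideal.span {lam}) (h2 : IsUnit (2 : O))
    (a : T8 → O) (l8 : T8 → ℕ) (t0 : Tn → O) (ln : Tn → ℕ) (hl8 : ∀ t, l8 t % p = 1)
    (han : ∀ t, a t ^ 2 - (l8 t : O) ∈ maximalIdeal O)
    (A8 : Finset T8) (An : Finset Tn) (J' : Ideal (m59b_P O T8 Tn κ))
    (hJ : m59b_J O κ a l8 t0 ln ≤ J')
    (hA8 : ∀ t ∈ A8, (∀ i j : Fin 2, (X (Sum.inl (t, 0, i, j)) : m59b_P O T8 Tn κ) ∈ J') ∧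
      m59b_r8 O κ a l8 t ∈ J')
    (hAn : ∀ l ∈ An, m59b_n1 O T8 κ l ∈ J' ∧ m59b_n2 O T8 κ l ∈ J' ∧ m59b_rn O κ t0 ln l ∈ J')
    (sκ : Finset (m59b_P O T8 Tn κ))
    (hsκ : ∀ x ∈ sκ, constantCoeff x ∈ maximalIdeal O)
    (hκ : ∀ 𝔭 : Ideal (m59b_P O T8 Tn κ), 𝔭.IsPrime → J' ≤ 𝔭 → (∀ x ∈ sκ, x ∈ 𝔭) →
      ∀ k : κ, (X (Sum.inr (Sum.inr k)) : m59b_P O T8 Tn κ) ∈ 𝔭) :
    ringKrullDim (m59b_P O T8 Tn κ ⧸ J') ≤
      ((1 + sκ.card + 2 * Fintype.card T8 + (Fintype.card T8 - A8.card) +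
        (Fintype.card Tn - An.card) : ℕ) : WithBot ℕ∞) := by
  let q1 : T8 → m59b_P O T8 Tn κ := fun t => X (Sum.inl (t, 1, 0, 1)) - X (Sum.inl (t, 0, 1, 0))
  let q2 : T8 → m59b_P O T8 Tn κ := fun t => X (Sum.inl (t, 1, 1, 0)) - X (Sum.inl (t, 0, 0, 0))
  let q3 : T8 → m59b_P O T8 Tn κ := fun t =>
    X (Sum.inl (t, 1, 0, 0)) - X (Sum.inl (t, 1, 1, 1)) - C 2 * X (Sum.inl (t, 0, 0, 1))
  let qn : Tn → m59b_P O T8 Tn κ := fun l =>
    X (Sum.inr (Sum.inl (l, 0))) + X (Sum.inr (Sum.inl (l, 2)))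
  let s : Finset (m59b_P O T8 Tn κ) :=
    insert (C lam) (sκ ∪ (Finset.univ.image q1 ∪ (Finset.univ.image q2 ∪
      ((Finset.univ \ A8).image q3 ∪ (Finset.univ \ An).image qn))))
  have hsmem : ∀ x, x ∈ (s : Set (m59b_P O T8 Tn κ)) ↔
      x = C lam ∨ x ∈ sκ ∨ (∃ t, q1 t = x) ∨ (∃ t, q2 t = x) ∨
        (∃ t, t ∉ A8 ∧ q3 t = x) ∨ (∃ l, l ∉ An ∧ qn l = x) := by
    intro x
    simp only [s, Finset.coe_insert, Finset.coe_union, Finset.coe_image, Finset.coe_univ,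
      Set.image_univ, Set.mem_insert_iff, Set.mem_union, Set.mem_range, Set.mem_image,
      Finset.coe_sdiff, Set.mem_sdiff, Set.mem_univ, true_and, Finset.mem_coe]
  have hlamM : lam ∈ maximalIdeal O := by
    rw [hmax]; exact Ideal.mem_span_singleton_self lam
  have hs : (s : Set (m59b_P O T8 Tn κ)) ⊆ maximalIdeal (m59b_P O T8 Tn κ) := by
    intro x hx
    apply twb_d8_mem_maximalIdeal
    rcases (hsmem x).mp hx with rfl | hxκ | ⟨t, rfl⟩ | ⟨t, rfl⟩ | ⟨t, -, rfl⟩ | ⟨l, -, rfl⟩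
    · simpa using hlamM
    · exact hsκ x hxκ
    · simp [q1]
    · simp [q2]
    · simp [q3]
    · simp [qn]
  have key := twb_dim_quot_le_card_of_primes J' s hs (by
    intro 𝔭 h𝔭 hJ𝔭 hs𝔭
    have hlam : (C lam : m59b_P O T8 Tn κ) ∈ 𝔭 := hs𝔭 ((hsmem _).mpr (Or.inl rfl))
    have hrel8 : ∀ t, ∀ g ∈ m59b_rel8 (Tn := Tn) O κ a l8 t, g ∈ 𝔭 := fun t g hg =>
      hJ𝔭 (hJ (Ideal.subset_span (Or.inl (Set.mem_iUnion.mpr ⟨t, hg⟩))))
    have hreln : ∀ l, ∀ g ∈ m59b_reln O T8 κ t0 ln l, g ∈ 𝔭 := fun l g hg =>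
      hJ𝔭 (hJ (Ideal.subset_span (Or.inr (Set.mem_iUnion.mpr ⟨l, hg⟩))))
    apply twb_dim_maximalIdeal_le 𝔭 _ (fun b hb => m59bd_C_mem hmax 𝔭 hlam b hb)
    have hq1 : ∀ t, q1 t ∈ 𝔭 := fun t =>
      hs𝔭 ((hsmem _).mpr (Or.inr (Or.inr (Or.inl ⟨t, rfl⟩))))
    have hq2 : ∀ t, q2 t ∈ 𝔭 := fun t =>
      hs𝔭 ((hsmem _).mpr (Or.inr (Or.inr (Or.inr (Or.inl ⟨t, rfl⟩)))))
    have hfree := hκ 𝔭 h𝔭 hJ𝔭 (fun x hx => hs𝔭 ((hsmem _).mpr (Or.inr (Or.inl hx))))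
    rintro (⟨t, e, i, j⟩ | ⟨l, i⟩ | k)
    · by_cases ht : t ∈ A8
      · obtain ⟨hN, hr⟩ := hA8 t ht
        exact m59bd_local8_nz hmax a l8 t (han t) 𝔭 h𝔭 hlam (fun i j => hJ𝔭 (hN i j)) (hJ𝔭 hr)
          (hrel8 t _ (Or.inr rfl)) (hq1 t) (hq2 t) e i j
      · exact m59bd_local8 hmax hp hp2 hpl h2 a l8 t (hl8 t) 𝔭 h𝔭 hlam (hrel8 t) (hq1 t) (hq2 t)
          (hs𝔭 ((hsmem _).mpr (Or.inr (Or.inr (Or.inr (Or.inr (Or.inl ⟨t, ht, rfl⟩))))))) e i j
    · by_cases hl : l ∈ An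
      · obtain ⟨h1, h2', hr⟩ := hAn l hl
        fin_cases i
        · exact m59bd_localn_nz hmax t0 ln l 𝔭 h𝔭 hlam (hJ𝔭 hr)
        · exact hJ𝔭 h1
        · exact hJ𝔭 h2'
      · exact m59bd_localn hmax t0 ln l 𝔭 h𝔭 hlam (hreln l)
          (hs𝔭 ((hsmem _).mpr (Or.inr (Or.inr (Or.inr (Or.inr (Or.inr ⟨l, hl, rfl⟩))))))) i
    · exact hfree k)
  refine key.trans ?_
  have hcard : s.card ≤ 1 + sκ.card + 2 * Fintype.card T8 + (Fintype.card T8 - A8.card) +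
      (Fintype.card Tn - An.card) := by
    have h1 := Finset.card_insert_le (C lam : m59b_P O T8 Tn κ)
      (sκ ∪ (Finset.univ.image q1 ∪ (Finset.univ.image q2 ∪
      ((Finset.univ \ A8).image q3 ∪ (Finset.univ \ An).image qn))))
    have h2 := Finset.card_union_le sκ
      (Finset.univ.image q1 ∪ (Finset.univ.image q2 ∪
      ((Finset.univ \ A8).image q3 ∪ (Finset.univ \ An).image qn)))
    have h3 := Finset.card_union_le (Finset.univ.image q1)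
      (Finset.univ.image q2 ∪ ((Finset.univ \ A8).image q3 ∪ (Finset.univ \ An).image qn))
    have h4 := Finset.card_union_le (Finset.univ.image q2)
      ((Finset.univ \ A8).image q3 ∪ (Finset.univ \ An).image qn)
    have h5 := Finset.card_union_le ((Finset.univ \ A8).image q3) ((Finset.univ \ An).image qn)
    have h7 := Finset.card_image_le (s := (Finset.univ : Finset T8)) (f := q1)
    have h8 := Finset.card_image_le (s := (Finset.univ : Finset T8)) (f := q2)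
    have h9 := Finset.card_image_le (s := (Finset.univ \ A8 : Finset T8)) (f := q3)
    have h10 := Finset.card_image_le (s := (Finset.univ \ An : Finset Tn)) (f := qn)
    rw [Finset.card_univ] at h7 h8
    rw [Finset.card_univ_sdiff] at h9 h10
    have hs_def : s.card = (insert (C lam : m59b_P O T8 Tn κ)
      (sκ ∪ (Finset.univ.image q1 ∪ (Finset.univ.image q2 ∪
      ((Finset.univ \ A8).image q3 ∪ (Finset.univ \ An).image qn))))).card := rfl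
    omega
  exact_mod_cast hcard

open Classical in
/-- the parameters for the free variables other than `ka`, `kv`. -/
def m59lp_sκ (O : Type) [CommRing O] (T8 Tn : Type) {κ : Type} [Fintype κ] (ka kv : κ) :
    Finset (m59b_P O T8 Tn κ) :=
  ((Finset.univ.erase ka).erase kv).image fun k => (X (Sum.inr (Sum.inr k)) : m59b_P O T8 Tn κ)

open Classical in
theorem m59lp_sκ_card_le (ka kv : κ) (hne : ka ≠ kv) :
    (m59lp_sκ O T8 Tn ka kv).card ≤ Fintype.card κ - 2 := by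
  refine Finset.card_image_le.trans ?_
  rw [Finset.card_erase_of_mem (Finset.mem_erase.mpr ⟨hne.symm, Finset.mem_univ kv⟩),
    Finset.card_erase_of_mem (Finset.mem_univ ka), Finset.card_univ]
  omega

open Classical in
theorem m59lp_mem_sκ (ka kv k : κ) (h1 : k ≠ ka) (h2 : k ≠ kv) :
    (X (Sum.inr (Sum.inr k)) : m59b_P O T8 Tn κ) ∈ m59lp_sκ O T8 Tn ka kv :=
  Finset.mem_image.mpr ⟨k, Finset.mem_erase.mpr ⟨h2, Finset.mem_erase.mpr ⟨h1, Finset.mem_univ k⟩⟩,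
    rfl⟩

open Classical in
theorem m59lp_sκ_cc (ka kv : κ) (x : m59b_P O T8 Tn κ) (hx : x ∈ m59lp_sκ O T8 Tn ka kv) :
    constantCoeff x ∈ maximalIdeal O := by
  obtain ⟨k, -, rfl⟩ := Finset.mem_image.mp hx
  rw [constantCoeff_X]
  exact Ideal.zero_mem _

theorem m59lp_two_le_card (ka kv : κ) (hne : ka ≠ kv) : 2 ≤ Fintype.card κ := by
  classical
  have h : ({ka, kv} : Finset κ).card ≤ Fintype.card κ := Finset.card_le_univ _
  rwa [Finset.card_pair hne] at h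

open Classical in
/-- **(B1), general form, for `J' ⊇ Jp`** (`X ka · X kv ∈ J'`): one less than the free ring. -/
theorem m59lp_dim_le {lam : O} (hmax : maximalIdeal O = Ideal.span {lam}) {p : ℕ}
    (hp : p.Prime) (hp2 : p ≠ 2) (hpl : (p : O) ∈ Ideal.span {lam}) (h2 : IsUnit (2 : O))
    (a : T8 → O) (l8 : T8 → ℕ) (t0 : Tn → O) (ln : Tn → ℕ) (hl8 : ∀ t, l8 t % p = 1)
    (han : ∀ t, a t ^ 2 - (l8 t : O) ∈ maximalIdeal O) (ka kv : κ) (hne : ka ≠ kv)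
    (A8 : Finset T8) (An : Finset Tn) (J' : Ideal (m59b_P O T8 Tn κ))
    (hJ : m59lp_Jp O κ a l8 t0 ln ka kv ≤ J')
    (hA8 : ∀ t ∈ A8, (∀ i j : Fin 2, (X (Sum.inl (t, 0, i, j)) : m59b_P O T8 Tn κ) ∈ J') ∧
      m59b_r8 O κ a l8 t ∈ J')
    (hAn : ∀ l ∈ An, m59b_n1 O T8 κ l ∈ J' ∧ m59b_n2 O T8 κ l ∈ J' ∧ m59b_rn O κ t0 ln l ∈ J') :
    ringKrullDim (m59b_P O T8 Tn κ ⧸ J') ≤
      ((Fintype.card κ + 2 * Fintype.card T8 + (Fintype.card T8 - A8.card) +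
        (Fintype.card Tn - An.card) : ℕ) : WithBot ℕ∞) := by
  obtain ⟨hJ0, hav⟩ := (m59lp_Jp_le_iff O a l8 t0 ln ka kv J').mp hJ
  set d : m59b_P O T8 Tn κ := X (Sum.inr (Sum.inr ka)) - X (Sum.inr (Sum.inr kv)) with hd
  have h := m59lp_dim_le_gen hmax hp hp2 hpl h2 a l8 t0 ln hl8 han A8 An J' hJ0 hA8 hAn
    (insert d (m59lp_sκ O T8 Tn ka kv))
    (by
      intro x hx
      rcases Finset.mem_insert.mp hx with rfl | hx
      · rw [hd, map_sub, constantCoeff_X, constantCoeff_X, sub_zero]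
        exact Ideal.zero_mem _
      · exact m59lp_sκ_cc ka kv x hx)
    (by
      intro 𝔭 h𝔭 hJ𝔭 hs k
      have hd𝔭 : d ∈ 𝔭 := hs d (Finset.mem_insert_self _ _)
      have hav𝔭 : (X (Sum.inr (Sum.inr ka)) * X (Sum.inr (Sum.inr kv)) : m59b_P O T8 Tn κ) ∈ 𝔭 :=
        hJ𝔭 hav
      -- `X ka ^ 2 = X ka * d + X ka * X kv`
      have hka : (X (Sum.inr (Sum.inr ka)) : m59b_P O T8 Tn κ) ∈ 𝔭 := by
        have h1 : (X (Sum.inr (Sum.inr ka)) : m59b_P O T8 Tn κ) ^ 2 ∈ 𝔭 := by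
          have e : (X (Sum.inr (Sum.inr ka)) : m59b_P O T8 Tn κ) ^ 2 =
              X (Sum.inr (Sum.inr ka)) * d +
                X (Sum.inr (Sum.inr ka)) * X (Sum.inr (Sum.inr kv)) := by
            rw [hd]; ring
          rw [e]
          exact add_mem (Ideal.mul_mem_left _ _ hd𝔭) hav𝔭
        exact h𝔭.mem_of_pow_mem 2 h1
      have hkv : (X (Sum.inr (Sum.inr kv)) : m59b_P O T8 Tn κ) ∈ 𝔭 := by
        have := sub_mem hka hd𝔭
        rwa [hd, sub_sub_cancel] at this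
      by_cases h1 : k = ka
      · rw [h1]; exact hka
      · by_cases h2' : k = kv
        · rw [h2']; exact hkv
        · exact hs _ (Finset.mem_insert_of_mem (m59lp_mem_sκ ka kv k h1 h2')))
  refine h.trans ?_
  have hc1 : (insert d (m59lp_sκ O T8 Tn ka kv)).card ≤ Fintype.card κ - 2 + 1 :=
    (Finset.card_insert_le _ _).trans (Nat.add_le_add_right (m59lp_sκ_card_le ka kv hne) 1)
  have hc2 := m59lp_two_le_card ka kv hne
  have : 1 + (insert d (m59lp_sκ O T8 Tn ka kv)).card + 2 * Fintype.card T8 +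
      (Fintype.card T8 - A8.card) + (Fintype.card Tn - An.card) ≤
      Fintype.card κ + 2 * Fintype.card T8 + (Fintype.card T8 - A8.card) +
        (Fintype.card Tn - An.card) := by omega
  exact_mod_cast this

open Classical in
/-- **general form, for `J' ⊇ J` containing `X ka` and `X kv`**: two less than the free ring. -/
theorem m59lp_dim_le_av {lam : O} (hmax : maximalIdeal O = Ideal.span {lam}) {p : ℕ}
    (hp : p.Prime) (hp2 : p ≠ 2) (hpl : (p : O) ∈ Ideal.span {lam}) (h2 : IsUnit (2 : O))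
    (a : T8 → O) (l8 : T8 → ℕ) (t0 : Tn → O) (ln : Tn → ℕ) (hl8 : ∀ t, l8 t % p = 1)
    (han : ∀ t, a t ^ 2 - (l8 t : O) ∈ maximalIdeal O) (ka kv : κ) (hne : ka ≠ kv)
    (A8 : Finset T8) (An : Finset Tn) (J' : Ideal (m59b_P O T8 Tn κ))
    (hJ : m59b_J O κ a l8 t0 ln ≤ J')
    (hka : (X (Sum.inr (Sum.inr ka)) : m59b_P O T8 Tn κ) ∈ J')
    (hkv : (X (Sum.inr (Sum.inr kv)) : m59b_P O T8 Tn κ) ∈ J')
    (hA8 : ∀ t ∈ A8, (∀ i j : Fin 2, (X (Sum.inl (t, 0, i, j)) : m59b_P O T8 Tn κ) ∈ J') ∧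
      m59b_r8 O κ a l8 t ∈ J')
    (hAn : ∀ l ∈ An, m59b_n1 O T8 κ l ∈ J' ∧ m59b_n2 O T8 κ l ∈ J' ∧ m59b_rn O κ t0 ln l ∈ J') :
    ringKrullDim (m59b_P O T8 Tn κ ⧸ J') ≤
      ((Fintype.card κ - 1 + 2 * Fintype.card T8 + (Fintype.card T8 - A8.card) +
        (Fintype.card Tn - An.card) : ℕ) : WithBot ℕ∞) := by
  have h := m59lp_dim_le_gen hmax hp hp2 hpl h2 a l8 t0 ln hl8 han A8 An J' hJ hA8 hAn
    (m59lp_sκ O T8 Tn ka kv) (m59lp_sκ_cc ka kv)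
    (by
      intro 𝔭 h𝔭 hJ𝔭 hs k
      by_cases h1 : k = ka
      · rw [h1]; exact hJ𝔭 hka
      · by_cases h2' : k = kv
        · rw [h2']; exact hJ𝔭 hkv
        · exact hs _ (m59lp_mem_sκ ka kv k h1 h2'))
  refine h.trans ?_
  have hc1 := m59lp_sκ_card_le (O := O) (T8 := T8) (Tn := Tn) ka kv hne
  have hc2 := m59lp_two_le_card ka kv hne
  have : 1 + (m59lp_sκ O T8 Tn ka kv).card + 2 * Fintype.card T8 +
      (Fintype.card T8 - A8.card) + (Fintype.card Tn - An.card) ≤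
      Fintype.card κ - 1 + 2 * Fintype.card T8 + (Fintype.card T8 - A8.card) +
        (Fintype.card Tn - An.card) := by omega
  exact_mod_cast this

/-- **(B1)** for any `J' ⊇ Jp`: `dim (P ⧸ J') ≤ |κ| + 3 |T8| + |Tn|`. -/
theorem m59lp_dim_quot_le {lam : O} (hmax : maximalIdeal O = Ideal.span {lam}) {p : ℕ}
    (hp : p.Prime) (hp2 : p ≠ 2) (hpl : (p : O) ∈ Ideal.span {lam}) (h2 : IsUnit (2 : O))
    (a : T8 → O) (l8 : T8 → ℕ) (t0 : Tn → O) (ln : Tn → ℕ) (hl8 : ∀ t, l8 t % p = 1)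
    (han : ∀ t, a t ^ 2 - (l8 t : O) ∈ maximalIdeal O) (ka kv : κ) (hne : ka ≠ kv)
    (J' : Ideal (m59b_P O T8 Tn κ)) (hJ : m59lp_Jp O κ a l8 t0 ln ka kv ≤ J') :
    ringKrullDim (m59b_P O T8 Tn κ ⧸ J') ≤
      ((Fintype.card κ + 3 * Fintype.card T8 + Fintype.card Tn : ℕ) : WithBot ℕ∞) := by
  have h := m59lp_dim_le hmax hp hp2 hpl h2 a l8 t0 ln hl8 han ka kv hne ∅ ∅ J' hJ
    (fun t ht => absurd ht (Finset.notMem_empty t)) (fun l hl => absurd hl (Finset.notMem_empty l))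
  refine h.trans ?_
  have : Fintype.card κ + 2 * Fintype.card T8 + (Fintype.card T8 - (∅ : Finset T8).card) +
      (Fintype.card Tn - (∅ : Finset Tn).card) =
      Fintype.card κ + 3 * Fintype.card T8 + Fintype.card Tn := by
    simp only [Finset.card_empty]
    omega
  rw [this]

/-- **(B1)** for `Rp` itself: `dim Rp ≤ |κ| + 3 |T8| + |Tn|` (`= 1 + (|κ| - 1) + 3 |T8| + |Tn|`). -/
theorem m59lp_dim_Rp_le {lam : O} (hmax : maximalIdeal O = Ideal.span {lam}) {p : ℕ}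
    (hp : p.Prime) (hp2 : p ≠ 2) (hpl : (p : O) ∈ Ideal.span {lam}) (h2 : IsUnit (2 : O))
    (a : T8 → O) (l8 : T8 → ℕ) (t0 : Tn → O) (ln : Tn → ℕ) (hl8 : ∀ t, l8 t % p = 1)
    (han : ∀ t, a t ^ 2 - (l8 t : O) ∈ maximalIdeal O) (ka kv : κ) (hne : ka ≠ kv) :
    ringKrullDim (m59lp_Rp O κ a l8 t0 ln ka kv) ≤
      ((Fintype.card κ + 3 * Fintype.card T8 + Fintype.card Tn : ℕ) : WithBot ℕ∞) :=
  m59lp_dim_quot_le hmax hp hp2 hpl h2 a l8 t0 ln hl8 han ka kv hne _ le_rfl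

/-- **[NZ] by dimension at a scalar-hard prime, case (III)**: `J' ⊇ Jp` containing the
`N`-coordinates of `t` and `r_t`: `dim (P ⧸ J') ≤ |κ| - 1 + 3 |T8| + |Tn|`. -/
theorem m59lp_dim_nz8 {lam : O} (hmax : maximalIdeal O = Ideal.span {lam}) {p : ℕ}
    (hp : p.Prime) (hp2 : p ≠ 2) (hpl : (p : O) ∈ Ideal.span {lam}) (h2 : IsUnit (2 : O))
    (a : T8 → O) (l8 : T8 → ℕ) (t0 : Tn → O) (ln : Tn → ℕ) (hl8 : ∀ t, l8 t % p = 1)
    (han : ∀ t, a t ^ 2 - (l8 t : O) ∈ maximalIdeal O) (ka kv : κ) (hne : ka ≠ kv)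
    (J' : Ideal (m59b_P O T8 Tn κ)) (hJ : m59lp_Jp O κ a l8 t0 ln ka kv ≤ J') (t : T8)
    (hN : ∀ i j : Fin 2, (X (Sum.inl (t, 0, i, j)) : m59b_P O T8 Tn κ) ∈ J')
    (hr : m59b_r8 O κ a l8 t ∈ J') :
    ringKrullDim (m59b_P O T8 Tn κ ⧸ J') ≤
      ((Fintype.card κ - 1 + 3 * Fintype.card T8 + Fintype.card Tn : ℕ) : WithBot ℕ∞) := by
  classical
  have h := m59lp_dim_le hmax hp hp2 hpl h2 a l8 t0 ln hl8 han ka kv hne {t} ∅ J' hJ
    (fun t' ht' => by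
      rw [Finset.mem_singleton] at ht'
      subst ht'
      exact ⟨hN, hr⟩)
    (fun l hl => absurd hl (Finset.notMem_empty l))
  refine h.trans ?_
  have hpos : 1 ≤ Fintype.card T8 := Fintype.card_pos_iff.mpr ⟨t⟩
  have hc2 := m59lp_two_le_card ka kv hne
  have : Fintype.card κ + 2 * Fintype.card T8 + (Fintype.card T8 - ({t} : Finset T8).card) +
      (Fintype.card Tn - (∅ : Finset Tn).card) =
      Fintype.card κ - 1 + 3 * Fintype.card T8 + Fintype.card Tn := by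
    simp only [Finset.card_empty, Finset.card_singleton]
    omega
  rw [this]

/-- **[NZ] by dimension at a non-scalar prime, case (III)**. -/
theorem m59lp_dim_nzn {lam : O} (hmax : maximalIdeal O = Ideal.span {lam}) {p : ℕ}
    (hp : p.Prime) (hp2 : p ≠ 2) (hpl : (p : O) ∈ Ideal.span {lam}) (h2 : IsUnit (2 : O))
    (a : T8 → O) (l8 : T8 → ℕ) (t0 : Tn → O) (ln : Tn → ℕ) (hl8 : ∀ t, l8 t % p = 1)
    (han : ∀ t, a t ^ 2 - (l8 t : O) ∈ maximalIdeal O) (ka kv : κ) (hne : ka ≠ kv)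
    (J' : Ideal (m59b_P O T8 Tn κ)) (hJ : m59lp_Jp O κ a l8 t0 ln ka kv ≤ J') (l : Tn)
    (h1 : m59b_n1 O T8 κ l ∈ J') (h2' : m59b_n2 O T8 κ l ∈ J')
    (hr : m59b_rn O κ t0 ln l ∈ J') :
    ringKrullDim (m59b_P O T8 Tn κ ⧸ J') ≤
      ((Fintype.card κ - 1 + 3 * Fintype.card T8 + Fintype.card Tn : ℕ) : WithBot ℕ∞) := by
  classical
  have h := m59lp_dim_le hmax hp hp2 hpl h2 a l8 t0 ln hl8 han ka kv hne ∅ {l} J' hJ
    (fun t ht => absurd ht (Finset.notMem_empty t))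
    (fun l' hl' => by
      rw [Finset.mem_singleton] at hl'
      subst hl'
      exact ⟨h1, h2', hr⟩)
  refine h.trans ?_
  have hpos : 1 ≤ Fintype.card Tn := Fintype.card_pos_iff.mpr ⟨l⟩
  have hc2 := m59lp_two_le_card ka kv hne
  have : Fintype.card κ + 2 * Fintype.card T8 + (Fintype.card T8 - (∅ : Finset T8).card) +
      (Fintype.card Tn - ({l} : Finset Tn).card) =
      Fintype.card κ - 1 + 3 * Fintype.card T8 + Fintype.card Tn := by
    simp only [Finset.card_empty, Finset.card_singleton]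
    omega
  rw [this]

/-- **[NZ]-`p` by dimension**: `J' ⊇ J` containing `X ka` and `X kv`:
`dim (P ⧸ J') ≤ |κ| - 1 + 3 |T8| + |Tn|`. -/
theorem m59lp_dim_nzp {lam : O} (hmax : maximalIdeal O = Ideal.span {lam}) {p : ℕ}
    (hp : p.Prime) (hp2 : p ≠ 2) (hpl : (p : O) ∈ Ideal.span {lam}) (h2 : IsUnit (2 : O))
    (a : T8 → O) (l8 : T8 → ℕ) (t0 : Tn → O) (ln : Tn → ℕ) (hl8 : ∀ t, l8 t % p = 1)
    (han : ∀ t, a t ^ 2 - (l8 t : O) ∈ maximalIdeal O) (ka kv : κ) (hne : ka ≠ kv)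
    (J' : Ideal (m59b_P O T8 Tn κ)) (hJ : m59b_J O κ a l8 t0 ln ≤ J')
    (hka : (X (Sum.inr (Sum.inr ka)) : m59b_P O T8 Tn κ) ∈ J')
    (hkv : (X (Sum.inr (Sum.inr kv)) : m59b_P O T8 Tn κ) ∈ J') :
    ringKrullDim (m59b_P O T8 Tn κ ⧸ J') ≤
      ((Fintype.card κ - 1 + 3 * Fintype.card T8 + Fintype.card Tn : ℕ) : WithBot ℕ∞) := by
  have h := m59lp_dim_le_av hmax hp hp2 hpl h2 a l8 t0 ln hl8 han ka kv hne ∅ ∅ J' hJ hka hkv
    (fun t ht => absurd ht (Finset.notMem_empty t)) (fun l hl => absurd hl (Finset.notMem_empty l))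
  refine h.trans ?_
  have : Fintype.card κ - 1 + 2 * Fintype.card T8 + (Fintype.card T8 - (∅ : Finset T8).card) +
      (Fintype.card Tn - (∅ : Finset Tn).card) =
      Fintype.card κ - 1 + 3 * Fintype.card T8 + Fintype.card Tn := by
    simp only [Finset.card_empty]
    omega
  rw [this]

end Global

end

end Fermat.Agent.M59
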