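import Mathlib
import Fermat.Agent.M59.Loc.Hom

/-!
# M59 / Loc : killing the variables of positive weight; the points `y_k` of the walk (#5194/#5234)

`𝒫 = MvPowerSeries σ A`, `w : σ → ℕ` a weight.

* `m59lk_kill w : 𝒫 →ₐ[A] 𝒫` : the endomorphism `X i ↦ 0` (`w i ≠ 0`), `X i ↦ X i` (`w i = 0`); as a
  function it is `weightedHomogeneousComponent w 0`;
* `m59lk_kill_of_hom` : it fixes the series of weight `0`; `m59lk_kill_X`;
* `m59lk_kill_mem` : it preserves every ideal stable under the components;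
* `m59lk_tail W k` : the weight `∑_{j ≥ k} W j` of a chain of weights `W : Fin m → σ → ℕ`;
* `m59lk_points` : the points `y_k := x ∘ kill (tail k)` of the walk: `y_m = x`, each `y_k` kills `J`,
  `y_k = x` on series of weight `0` for all `W j`, `y_k` kills the variables marked by `W k`, and
  `y_k`, `y_{k+1}` agree on constants and on the variables not marked by `W k`, where `y_{k+1} = x`.
-/

set_option autoImplicit false

namespace Fermat.Agent.M59

open MvPowerSeries Finsupp

section kill

variable {σ A : Type*} [CommRing A] (w : σ → ℕ)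

theorem m59lk_wHC_one : weightedHomogeneousComponent w 0 (1 : MvPowerSeries σ A) = 1 := by
  classical
  ext d
  rw [coeff_weightedHomogeneousComponent, coeff_one]
  by_cases hd : d = 0
  · subst hd
    simp
  · rw [if_neg hd]
    split_ifs <;> rfl

theorem m59lk_wHC_C (r : A) :
    weightedHomogeneousComponent w 0 (C r : MvPowerSeries σ A) = C r := by
  classical
  ext d
  rw [coeff_weightedHomogeneousComponent, coeff_C]
  by_cases hd : d = 0
  · subst hd
    simp
  · rw [if_neg hd]
    split_ifs <;> rfl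

/-- the endomorphism killing the variables of positive weight. -/
noncomputable def m59lk_kill : MvPowerSeries σ A →ₐ[A] MvPowerSeries σ A where
  toFun := weightedHomogeneousComponent w 0
  map_one' := m59lk_wHC_one w
  map_mul' f g := by
    rw [m59bh_wHC_mul]
    have : Finset.HasAntidiagonal.antidiagonal (0 : ℕ) = {(0, 0)} := by
      ext ⟨i, j⟩
      simp
    rw [this, Finset.sum_singleton]
  map_zero' := map_zero _
  map_add' f g := map_add _ f g
  commutes' r := by
    rw [MvPowerSeries.algebraMap_apply, Algebra.algebraMap_self, RingHom.id_apply]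
    exact m59lk_wHC_C w r

theorem m59lk_kill_apply (f : MvPowerSeries σ A) :
    m59lk_kill w f = weightedHomogeneousComponent w 0 f := rfl

theorem m59lk_kill_of_hom {f : MvPowerSeries σ A} (hf : IsWeightedHomogeneous w f 0) :
    m59lk_kill w f = f := by
  rw [m59lk_kill_apply]
  exact (isWeightedHomogeneous_iff_eq_weightedHomogeneousComponent.mp hf).symm

theorem m59lk_kill_C (r : A) : m59lk_kill w (C r : MvPowerSeries σ A) = C r :=
  m59lk_wHC_C w r

theorem m59lk_hom_X (i : σ) : IsWeightedHomogeneous w (X i : MvPowerSeries σ A) (w i) := by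
  classical
  intro d hd
  rw [coeff_X] at hd
  split_ifs at hd with h
  · rw [h, Finsupp.weight_single, one_smul]
  · exact absurd rfl hd

theorem m59lk_kill_X (i : σ) :
    m59lk_kill w (X i : MvPowerSeries σ A) = if w i = 0 then X i else 0 := by
  classical
  split_ifs with h
  · apply m59lk_kill_of_hom
    have h1 : IsWeightedHomogeneous w (X i : MvPowerSeries σ A) (w i) := m59lk_hom_X w i
    rwa [h] at h1
  · rw [m59lk_kill_apply]
    ext d
    rw [coeff_weightedHomogeneousComponent, map_zero]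
    split_ifs with hd
    · have h1 : IsWeightedHomogeneous w (X i : MvPowerSeries σ A) (w i) := m59lk_hom_X w i
      apply h1.coeff_eq_zero
      rw [hd]
      exact fun e => h e.symm
    · rfl

theorem m59lk_kill_mem (J : Ideal (MvPowerSeries σ A))
    (hJ : ∀ f ∈ J, ∀ k, weightedHomogeneousComponent w k f ∈ J) {f : MvPowerSeries σ A}
    (hf : f ∈ J) : m59lk_kill w f ∈ J := hJ f hf 0

/-- a series of weight `0` for `w` and for `w'` has weight `0` for `w + w'`. -/
theorem m59lk_hom_add (w' : σ → ℕ) {f : MvPowerSeries σ A} (hf : IsWeightedHomogeneous w f 0)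
    (hf' : IsWeightedHomogeneous w' f 0) : IsWeightedHomogeneous (w + w') f 0 := by
  intro d hd
  have h1 := hf hd
  have h2 := hf' hd
  rw [Finsupp.weight_apply] at h1 h2 ⊢
  simp only [Pi.add_apply, smul_add, Finsupp.sum_add, h1, h2, add_zero]

theorem m59lk_hom_zero_weight (f : MvPowerSeries σ A) :
    IsWeightedHomogeneous (0 : σ → ℕ) f 0 := by
  intro d _
  rw [Finsupp.weight_apply]
  simp [Finsupp.sum]

end kill

section points

variable {σ A : Type*} [CommRing A] {m : ℕ} (W : Fin m → σ → ℕ)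

/-- the weight `∑_{j ≥ k} W j`. -/
def m59lk_tail (k : ℕ) : σ → ℕ := fun i => ∑ j : Fin m, if k ≤ (j : ℕ) then W j i else 0

theorem m59lk_tail_top : m59lk_tail W m = 0 := by
  funext i
  unfold m59lk_tail
  apply Finset.sum_eq_zero
  intro j _
  rw [if_neg (not_le.mpr j.isLt)]

theorem m59lk_tail_succ (k : Fin m) :
    m59lk_tail W (k : ℕ) = W k + m59lk_tail W ((k : ℕ) + 1) := by
  classical
  funext i
  unfold m59lk_tail
  rw [Pi.add_apply]
  rw [← Finset.add_sum_erase Finset.univ _ (Finset.mem_univ k)]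
  rw [if_pos le_rfl]
  congr 1
  rw [← Finset.sum_erase Finset.univ (a := k)]
  · refine Finset.sum_congr rfl fun j hj => ?_
    have hjk : j ≠ k := Finset.ne_of_mem_erase hj
    have hjk' : (j : ℕ) ≠ (k : ℕ) := fun e => hjk (Fin.ext e)
    by_cases h : (k : ℕ) ≤ (j : ℕ)
    · rw [if_pos h, if_pos (by omega)]
    · rw [if_neg h, if_neg (by omega)]
  · rw [if_neg (by omega)]

theorem m59lk_hom_tail {f : MvPowerSeries σ A} (hf : ∀ j, IsWeightedHomogeneous (W j) f 0)
    (k : ℕ) : IsWeightedHomogeneous (m59lk_tail W k) f 0 := by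
  intro d hd
  rw [Finsupp.weight_apply]
  unfold m59lk_tail
  simp only [Finset.smul_sum, Finsupp.sum]
  rw [Finset.sum_comm]
  apply Finset.sum_eq_zero
  intro j _
  by_cases h : k ≤ (j : ℕ)
  · simp only [if_pos h]
    have := hf j hd
    rwa [Finsupp.weight_apply, Finsupp.sum] at this
  · simp only [if_neg h, smul_zero, Finset.sum_const_zero]

/-- a series homogeneous of degree `dg j` for every `W j` is homogeneous for the tails. -/
theorem m59lk_hom_tail' {f : MvPowerSeries σ A} (dg : Fin m → ℕ)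
    (hf : ∀ j, IsWeightedHomogeneous (W j) f (dg j)) (k : ℕ) :
    IsWeightedHomogeneous (m59lk_tail W k) f (∑ j : Fin m, if k ≤ (j : ℕ) then dg j else 0) := by
  intro d hd
  rw [Finsupp.weight_apply]
  unfold m59lk_tail
  simp only [Finset.smul_sum, Finsupp.sum]
  rw [Finset.sum_comm]
  refine Finset.sum_congr rfl fun j _ => ?_
  by_cases h : k ≤ (j : ℕ)
  · simp only [if_pos h]
    have := hf j hd
    rwa [Finsupp.weight_apply, Finsupp.sum] at this
  · simp only [if_neg h, smul_zero, Finset.sum_const_zero]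

theorem m59lk_kill_zero (f : MvPowerSeries σ A) : m59lk_kill (0 : σ → ℕ) f = f :=
  m59lk_kill_of_hom 0 (m59lk_hom_zero_weight f)

/-- **the points of the walk**: `y_k := x ∘ kill (∑_{j ≥ k} W j)`. -/
theorem m59lk_points {E : Type*} [CommRing E] (J : Ideal (MvPowerSeries σ A))
    (hJ : ∀ (k : ℕ), ∀ f ∈ J, ∀ n, weightedHomogeneousComponent (m59lk_tail W k) n f ∈ J)
    (x : MvPowerSeries σ A →+* E) (hx : J ≤ RingHom.ker x)
    (hdisj : ∀ (j j' : Fin m) (i : σ), j ≠ j' → W j i ≠ 0 → W j' i = 0) :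
    ∃ y : Fin (m + 1) → (MvPowerSeries σ A →+* E),
      y (Fin.last m) = x ∧
      (∀ k, J ≤ RingHom.ker (y k)) ∧
      (∀ k f, (∀ j, IsWeightedHomogeneous (W j) f 0) → y k f = x f) ∧
      (∀ k a, y k (C a) = x (C a)) ∧
      (∀ k i, y k (X i) = 0 ∨ y k (X i) = x (X i)) ∧
      (∀ (k : Fin m) i, W k i ≠ 0 → y k.castSucc (X i) = 0) ∧
      (∀ (k : Fin m) i, W k i ≠ 0 → y k.succ (X i) = x (X i)) ∧
      (∀ (k : Fin m) i, W k i = 0 → y k.castSucc (X i) = y k.succ (X i)) := by
  classical
  refine ⟨fun k => x.comp (m59lk_kill (m59lk_tail W (k : ℕ))).toRingHom, ?_, ?_, ?_, ?_, ?_, ?_,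
    ?_, ?_⟩
  · ext f
    simp only [RingHom.comp_apply, Fin.val_last, m59lk_tail_top]
    exact congrArg x (m59lk_kill_zero f)
  · intro k f hf
    rw [RingHom.mem_ker, RingHom.comp_apply]
    exact hx (m59lk_kill_mem _ J (hJ k) hf)
  · intro k f hf
    rw [RingHom.comp_apply]
    exact congrArg x (m59lk_kill_of_hom _ (m59lk_hom_tail W hf k))
  · intro k a
    rw [RingHom.comp_apply]
    exact congrArg x (m59lk_kill_C _ a)
  · intro k i
    rw [RingHom.comp_apply]
    have := m59lk_kill_X (A := A) (m59lk_tail W (k : ℕ)) i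
    by_cases h : m59lk_tail W (k : ℕ) i = 0
    · right
      rw [if_pos h] at this
      exact congrArg x this
    · left
      rw [if_neg h] at this
      show x (m59lk_kill (m59lk_tail W (k : ℕ)) (X i)) = 0
      rw [this, map_zero]
  · intro k i hi
    rw [RingHom.comp_apply]
    have h : m59lk_tail W ((k.castSucc : Fin (m + 1)) : ℕ) i ≠ 0 := by
      rw [Fin.val_castSucc, m59lk_tail_succ W k, Pi.add_apply]
      omega
    show x (m59lk_kill (m59lk_tail W ((k.castSucc : Fin (m + 1)) : ℕ)) (X i)) = 0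
    rw [m59lk_kill_X, if_neg h, map_zero]
  · intro k i hi
    rw [RingHom.comp_apply]
    have h : m59lk_tail W ((k.succ : Fin (m + 1)) : ℕ) i = 0 := by
      rw [Fin.val_succ]
      unfold m59lk_tail
      apply Finset.sum_eq_zero
      intro j _
      by_cases hj : (k : ℕ) + 1 ≤ (j : ℕ)
      · rw [if_pos hj]
        apply hdisj k j i _ hi
        intro e
        rw [e] at hj
        omega
      · rw [if_neg hj]
    show x (m59lk_kill (m59lk_tail W ((k.succ : Fin (m + 1)) : ℕ)) (X i)) = x (X i)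
    rw [m59lk_kill_X, if_pos h]
  · intro k i hi
    rw [RingHom.comp_apply, RingHom.comp_apply]
    show x (m59lk_kill (m59lk_tail W ((k.castSucc : Fin (m + 1)) : ℕ)) (X i)) =
      x (m59lk_kill (m59lk_tail W ((k.succ : Fin (m + 1)) : ℕ)) (X i))
    rw [m59lk_kill_X, m59lk_kill_X, Fin.val_castSucc, Fin.val_succ, m59lk_tail_succ W k,
      Pi.add_apply, hi, zero_add]

/-- `m59lk_points` with the explicit values of the `y_k` on the variables. -/
theorem m59lk_points' {E : Type*} [CommRing E] (J : Ideal (MvPowerSeries σ A))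
    (hJ : ∀ (k : ℕ), ∀ f ∈ J, ∀ n, weightedHomogeneousComponent (m59lk_tail W k) n f ∈ J)
    (x : MvPowerSeries σ A →+* E) (hx : J ≤ RingHom.ker x) :
    ∃ y : Fin (m + 1) → (MvPowerSeries σ A →+* E),
      y (Fin.last m) = x ∧
      (∀ k, J ≤ RingHom.ker (y k)) ∧
      (∀ k f, (∀ j, IsWeightedHomogeneous (W j) f 0) → y k f = x f) ∧
      (∀ k a, y k (C a) = x (C a)) ∧
      (∀ (k : Fin (m + 1)) i, m59lk_tail W (k : ℕ) i ≠ 0 → y k (X i) = 0) ∧
      (∀ (k : Fin (m + 1)) i, m59lk_tail W (k : ℕ) i = 0 → y k (X i) = x (X i)) := by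
  classical
  refine ⟨fun k => x.comp (m59lk_kill (m59lk_tail W (k : ℕ))).toRingHom, ?_, ?_, ?_, ?_, ?_, ?_⟩
  · ext f
    simp only [RingHom.comp_apply, Fin.val_last, m59lk_tail_top]
    exact congrArg x (m59lk_kill_zero f)
  · intro k f hf
    rw [RingHom.mem_ker, RingHom.comp_apply]
    exact hx (m59lk_kill_mem _ J (hJ k) hf)
  · intro k f hf
    rw [RingHom.comp_apply]
    exact congrArg x (m59lk_kill_of_hom _ (m59lk_hom_tail W hf k))
  · intro k a
    rw [RingHom.comp_apply]
    exact congrArg x (m59lk_kill_C _ a)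
  · intro k i h
    show x (m59lk_kill (m59lk_tail W (k : ℕ)) (X i)) = 0
    rw [m59lk_kill_X, if_neg h, map_zero]
  · intro k i h
    show x (m59lk_kill (m59lk_tail W (k : ℕ)) (X i)) = x (X i)
    rw [m59lk_kill_X, if_pos h]

theorem m59lk_tail_pos (k : ℕ) (j : Fin m) (hkj : k ≤ (j : ℕ)) (i : σ) (hi : W j i ≠ 0) :
    m59lk_tail W k i ≠ 0 := by
  classical
  unfold m59lk_tail
  intro h
  have h1 := (Finset.sum_eq_zero_iff.mp h) j (Finset.mem_univ j)
  rw [if_pos hkj] at h1
  exact hi h1

theorem m59lk_tail_zero (k : ℕ) (i : σ) (hi : ∀ j : Fin m, k ≤ (j : ℕ) → W j i = 0) :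
    m59lk_tail W k i = 0 := by
  classical
  unfold m59lk_tail
  apply Finset.sum_eq_zero
  intro j _
  by_cases h : k ≤ (j : ℕ)
  · rw [if_pos h, hi j h]
  · rw [if_neg h]

end points

end Fermat.Agent.M59
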