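import Mathlib

/-!
# M59 / Loc : step (c) of (LOC) as polynomial identities in a domain

`Φ = (a, b; c, d)`, `N = (n11, n12; n21, n22)` over a domain `D`, with
`tr N = det N = 0`, `Φ N = l N Φ`, `det Φ = l`, `(tr Φ)² = (l+1)²`, and a point `y : D →+* E`
with `y N = 0`, `y Φ = (ε l, r; 0, ε)` where `l² ≠ 1`, `2 (l+1) ≠ 0`, `l ≠ 0` at `y`.

* `m59lm_mat_trace` : `tr Φ = ε (l+1)`;
* `m59lm_mat_eigen` : `Φ N = ε l N` and `N Φ = ε N`;
* `m59lm_mat_prop` : `N_ij G_12 = N_12 G_ij` for `G = (Φ - ε) E_12 (Φ - ε l)`, i.e.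
  `G_ij = (Φ - ε)_{i1} (Φ - ε l)_{2j}` (no denominators);
* `m59lm_main` : the same for a prime ideal `P ≤ ker y` of an arbitrary ring (memberships in `P`),
  with `N_12 ∉ P` and `y G_12 ≠ 0`: the package consumed by step (d) of (LOC).
-/

set_option autoImplicit false

namespace Fermat.Agent.M59

section

variable {D : Type*} [CommRing D] [IsDomain D]

/-- `tr Φ = ε (l + 1)` from `(tr Φ)² = (l+1)²` and the sign at a point. -/
theorem m59lm_mat_trace {E : Type*} [CommRing E] [IsDomain E] (y : D →+* E)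
    (t l s : D) (hs : s * s = 1) (hr : t * t = (l + 1) * (l + 1))
    (hy : y t = y s * (y l + 1)) (h2 : (2 : E) ≠ 0) (hl1 : y l + 1 ≠ 0) :
    t = s * (l + 1) := by
  have hsE : y s * y s = 1 := by rw [← map_mul, hs, map_one]
  have hsne : y s ≠ 0 := by
    intro h
    rw [h, zero_mul] at hsE
    exact zero_ne_one hsE
  have h1 : (t - s * (l + 1)) * (t + s * (l + 1)) = 0 := by
    linear_combination hr - (l + 1) * (l + 1) * hs
  rcases mul_eq_zero.mp h1 with h | h
  · exact sub_eq_zero.mp h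
  · exfalso
    have h3 : y (t + s * (l + 1)) = 0 := by rw [h, map_zero]
    rw [map_add, map_mul, map_add, map_one, hy] at h3
    have h4 : (2 : E) * (y s * (y l + 1)) = 0 := by linear_combination h3
    rcases mul_eq_zero.mp h4 with h5 | h5
    · exact h2 h5
    · rcases mul_eq_zero.mp h5 with h6 | h6
      · exact hsne h6
      · exact hl1 h6

/-- `Φ N = ε l N` and `N Φ = ε N`, entrywise. -/
theorem m59lm_mat_eigen (a b c d n11 n12 n21 n22 l s : D)
    (hs : s * s = 1) (hl : l ≠ 0) (hl2 : l * l - 1 ≠ 0)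
    (h1 : n11 + n22 = 0) (h2 : n11 * n22 - n12 * n21 = 0)
    (r11 : a * n11 + b * n21 = l * (n11 * a + n12 * c))
    (r12 : a * n12 + b * n22 = l * (n11 * b + n12 * d))
    (r21 : c * n11 + d * n21 = l * (n21 * a + n22 * c))
    (r22 : c * n12 + d * n22 = l * (n21 * b + n22 * d))
    (hdet : a * d - b * c = l) (htr : a + d = s * (l + 1)) :
    (a * n11 + b * n21 = s * l * n11 ∧ a * n12 + b * n22 = s * l * n12 ∧
      c * n11 + d * n21 = s * l * n21 ∧ c * n12 + d * n22 = s * l * n22) ∧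
    (n11 * a + n12 * c = s * n11 ∧ n11 * b + n12 * d = s * n12 ∧
      n21 * a + n22 * c = s * n21 ∧ n21 * b + n22 * d = s * n22) := by
  have e11 : (l * l - 1) * (a * n11 + b * n21 - s * l * n11) = 0 := by grind
  have e12 : (l * l - 1) * (a * n12 + b * n22 - s * l * n12) = 0 := by grind
  have e21 : (l * l - 1) * (c * n11 + d * n21 - s * l * n21) = 0 := by grind
  have e22 : (l * l - 1) * (c * n12 + d * n22 - s * l * n22) = 0 := by grind
  have f11 := sub_eq_zero.mp ((mul_eq_zero.mp e11).resolve_left hl2)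
  have f12 := sub_eq_zero.mp ((mul_eq_zero.mp e12).resolve_left hl2)
  have f21 := sub_eq_zero.mp ((mul_eq_zero.mp e21).resolve_left hl2)
  have f22 := sub_eq_zero.mp ((mul_eq_zero.mp e22).resolve_left hl2)
  refine ⟨⟨f11, f12, f21, f22⟩, ?_, ?_, ?_, ?_⟩
  · have : l * (n11 * a + n12 * c - s * n11) = 0 := by linear_combination f11 - r11
    exact sub_eq_zero.mp ((mul_eq_zero.mp this).resolve_left hl)
  · have : l * (n11 * b + n12 * d - s * n12) = 0 := by linear_combination f12 - r12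
    exact sub_eq_zero.mp ((mul_eq_zero.mp this).resolve_left hl)
  · have : l * (n21 * a + n22 * c - s * n21) = 0 := by linear_combination f21 - r21
    exact sub_eq_zero.mp ((mul_eq_zero.mp this).resolve_left hl)
  · have : l * (n21 * b + n22 * d - s * n22) = 0 := by linear_combination f22 - r22
    exact sub_eq_zero.mp ((mul_eq_zero.mp this).resolve_left hl)

/-- proportionality: `N_ij G_12 = N_12 G_ij`, `G_ij = (Φ - ε)_{i1} (Φ - ε l)_{2j}`. -/
theorem m59lm_mat_prop (a b c d n11 n12 n21 n22 l s : D)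
    (hs : s * s = 1) (hl : l ≠ 0) (hl2 : l * l - 1 ≠ 0)
    (h1 : n11 + n22 = 0) (h2 : n11 * n22 - n12 * n21 = 0)
    (r11 : a * n11 + b * n21 = l * (n11 * a + n12 * c))
    (r12 : a * n12 + b * n22 = l * (n11 * b + n12 * d))
    (r21 : c * n11 + d * n21 = l * (n21 * a + n22 * c))
    (r22 : c * n12 + d * n22 = l * (n21 * b + n22 * d))
    (hdet : a * d - b * c = l) (htr : a + d = s * (l + 1)) :
    n11 * ((a - s) * (d - s * l)) = n12 * ((a - s) * c) ∧
    n21 * ((a - s) * (d - s * l)) = n12 * (c * c) ∧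
    n22 * ((a - s) * (d - s * l)) = n12 * (c * (d - s * l)) := by
  obtain ⟨⟨f11, f12, f21, f22⟩, g11, g12, g21, g22⟩ :=
    m59lm_mat_eigen a b c d n11 n12 n21 n22 l s hs hl hl2 h1 h2 r11 r12 r21 r22 hdet htr
  have hl1 : l - 1 ≠ 0 := by
    intro h
    apply hl2
    have : l = 1 := sub_eq_zero.mp h
    rw [this]; ring
  have hll : (l - 1) * (l - 1) ≠ 0 := mul_ne_zero hl1 hl1
  have e1 : (l - 1) * (l - 1) *
      (n11 * ((a - s) * (d - s * l)) - n12 * ((a - s) * c)) = 0 := by grind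
  have e2 : (l - 1) * (l - 1) *
      (n21 * ((a - s) * (d - s * l)) - n12 * (c * c)) = 0 := by grind
  have e3 : (l - 1) * (l - 1) *
      (n22 * ((a - s) * (d - s * l)) - n12 * (c * (d - s * l))) = 0 := by grind
  exact ⟨sub_eq_zero.mp ((mul_eq_zero.mp e1).resolve_left hll),
    sub_eq_zero.mp ((mul_eq_zero.mp e2).resolve_left hll),
    sub_eq_zero.mp ((mul_eq_zero.mp e3).resolve_left hll)⟩

end

section prime

variable {R E : Type*} [CommRing R] [CommRing E] [IsDomain E]

/-- **Step (c) of (LOC)** for a prime `P ≤ ker y`: with `G_12 = (a - s)(d - s l)`,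
`N_12 ∉ P`, `y G_12 ≠ 0`, `N_ij G_12 - N_12 G_ij ∈ P`, and `y G_ij = 0` for `(i,j) ≠ (1,2)`. -/
theorem m59lm_main (P : Ideal R) [hP : P.IsPrime] (y : R →+* E) (hPy : P ≤ RingHom.ker y)
    (a b c d n11 n12 n21 n22 l s : R) (hs : s * s = 1)
    (h1 : n11 + n22 ∈ P) (h2 : n11 * n22 - n12 * n21 ∈ P)
    (r11 : a * n11 + b * n21 - l * (n11 * a + n12 * c) ∈ P)
    (r12 : a * n12 + b * n22 - l * (n11 * b + n12 * d) ∈ P)
    (r21 : c * n11 + d * n21 - l * (n21 * a + n22 * c) ∈ P)
    (r22 : c * n12 + d * n22 - l * (n21 * b + n22 * d) ∈ P)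
    (hdet : a * d - b * c - l ∈ P) (hr : (a + d) * (a + d) - (l + 1) * (l + 1) ∈ P)
    (ya : y a = y s * y l) (yc : y c = 0) (yd : y d = y s)
    (hl0 : y l ≠ 0) (hlm : y l - 1 ≠ 0) (hlp : y l + 1 ≠ 0) (h2E : (2 : E) ≠ 0)
    (hN : ¬ (n11 ∈ P ∧ n12 ∈ P ∧ n21 ∈ P ∧ n22 ∈ P)) :
    n12 ∉ P ∧ y ((a - s) * (d - s * l)) ≠ 0 ∧
      n11 * ((a - s) * (d - s * l)) - n12 * ((a - s) * c) ∈ P ∧
      n21 * ((a - s) * (d - s * l)) - n12 * (c * c) ∈ P ∧
      n22 * ((a - s) * (d - s * l)) - n12 * (c * (d - s * l)) ∈ P ∧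
      y ((a - s) * c) = 0 ∧ y (c * c) = 0 ∧ y (c * (d - s * l)) = 0 := by
  have hsE : y s * y s = 1 := by rw [← map_mul, hs, map_one]
  -- the value of `G_12` at `y`
  have hG12 : y ((a - s) * (d - s * l)) = -((y l - 1) * (y l - 1)) := by
    rw [map_mul, map_sub, map_sub, map_mul, ya, yd]
    linear_combination (-(y l - 1) * (y l - 1)) * hsE
  have hG12ne : y ((a - s) * (d - s * l)) ≠ 0 := by
    rw [hG12]
    exact neg_ne_zero.mpr (mul_ne_zero hlm hlm)
  have hG12P : (a - s) * (d - s * l) ∉ P := fun h => hG12ne (hPy h)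
  -- pass to the domain `R ⧸ P`
  let q := Ideal.Quotient.mk P
  let yb : R ⧸ P →+* E := Ideal.Quotient.lift P y (fun x hx => hPy hx)
  have hyb : ∀ x, yb (q x) = y x := fun x => Ideal.Quotient.lift_mk P y _
  have hq0 : ∀ {x : R}, x ∈ P → q x = 0 := fun hx => Ideal.Quotient.eq_zero_iff_mem.mpr hx
  have hq0' : ∀ {x : R}, q x = 0 → x ∈ P := fun hx => Ideal.Quotient.eq_zero_iff_mem.mp hx
  have hne : ∀ x : R, y x ≠ 0 → q x ≠ 0 := by
    intro x hx h
    apply hx
    rw [← hyb, h, map_zero]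
  have hlq : q l ≠ 0 := hne l hl0
  have hl2q : q l * q l - 1 ≠ 0 := by
    have : y (l * l - 1) ≠ 0 := by
      rw [map_sub, map_mul, map_one]
      have : y l * y l - 1 = (y l - 1) * (y l + 1) := by ring
      rw [this]
      exact mul_ne_zero hlm hlp
    have h := hne _ this
    simpa [q] using h
  have hsq : q s * q s = 1 := by rw [← map_mul, hs, map_one]
  have htr : q a + q d = q s * (q l + 1) := by
    have := m59lm_mat_trace yb (q a + q d) (q l) (q s) hsq
      (by
        have := hq0 hr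
        simp only [map_sub, map_mul, map_add, map_one, q] at this ⊢
        exact sub_eq_zero.mp this)
      (by
        rw [map_add, hyb, hyb, hyb, hyb, ya, yd]; ring)
      h2E (by rw [hyb]; exact hlp)
    exact this
  have e1 : q n11 + q n22 = 0 := by simpa [q] using hq0 h1
  have e2 : q n11 * q n22 - q n12 * q n21 = 0 := by simpa [q] using hq0 h2
  have f11 : q a * q n11 + q b * q n21 = q l * (q n11 * q a + q n12 * q c) := by
    have := hq0 r11
    simp only [map_sub, map_mul, map_add, q] at this ⊢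
    exact sub_eq_zero.mp this
  have f12 : q a * q n12 + q b * q n22 = q l * (q n11 * q b + q n12 * q d) := by
    have := hq0 r12
    simp only [map_sub, map_mul, map_add, q] at this ⊢
    exact sub_eq_zero.mp this
  have f21 : q c * q n11 + q d * q n21 = q l * (q n21 * q a + q n22 * q c) := by
    have := hq0 r21
    simp only [map_sub, map_mul, map_add, q] at this ⊢
    exact sub_eq_zero.mp this
  have f22 : q c * q n12 + q d * q n22 = q l * (q n21 * q b + q n22 * q d) := by
    have := hq0 r22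
    simp only [map_sub, map_mul, map_add, q] at this ⊢
    exact sub_eq_zero.mp this
  have fdet : q a * q d - q b * q c = q l := by
    have := hq0 hdet
    simp only [map_sub, map_mul, q] at this ⊢
    exact sub_eq_zero.mp this
  obtain ⟨p1, p2, p3⟩ := m59lm_mat_prop (q a) (q b) (q c) (q d) (q n11) (q n12) (q n21) (q n22)
    (q l) (q s) hsq hlq hl2q e1 e2 f11 f12 f21 f22 fdet htr
  have m1 : n11 * ((a - s) * (d - s * l)) - n12 * ((a - s) * c) ∈ P := by
    apply hq0'
    simp only [map_sub, map_mul, q] at p1 ⊢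
    exact sub_eq_zero.mpr p1
  have m2 : n21 * ((a - s) * (d - s * l)) - n12 * (c * c) ∈ P := by
    apply hq0'
    simp only [map_sub, map_mul, q] at p2 ⊢
    exact sub_eq_zero.mpr p2
  have m3 : n22 * ((a - s) * (d - s * l)) - n12 * (c * (d - s * l)) ∈ P := by
    apply hq0'
    simp only [map_sub, map_mul, q] at p3 ⊢
    exact sub_eq_zero.mpr p3
  refine ⟨?_, hG12ne, m1, m2, m3, ?_, ?_, ?_⟩
  · intro h12
    apply hN
    have key : ∀ x g : R, x * ((a - s) * (d - s * l)) - n12 * g ∈ P → x ∈ P := by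
      intro x g hx
      have : x * ((a - s) * (d - s * l)) ∈ P := by
        have h3 : n12 * g ∈ P := P.mul_mem_right g h12
        have := P.add_mem hx h3
        simpa using this
      exact (hP.mem_or_mem this).resolve_right hG12P
    exact ⟨key _ _ m1, h12, key _ _ m2, key _ _ m3⟩
  · rw [map_mul, yc, mul_zero]
  · rw [map_mul, yc, mul_zero]
  · rw [map_mul, yc, zero_mul]

end prime

end Fermat.Agent.M59
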