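import Mathlib
import Fermat.Agent.TW.Loc.OrderMem
import Fermat.Agent.M59.Loc.LocMat

/-!
# M59 / Loc : step (d) of (LOC-8) in a power series ring (finding #5194, scalar-hard primes)

`𝒫 = MvPowerSeries σ A`, `w : σ → ℕ` a `0/1`-weight (marked variables = entries of `N_l`).

* `m59l8_eq_sum` : a series without monomials of weight `0` is `∑ i, X i * part_i`, the parts of a
  weight-`(k+1)` series at marked `i` having weight `k`;
* `m59l8_map_eq_zero` : a local ring hom kills `f` as soon as it kills all weighted components;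
* `m59l8_eq_of_hom_zero` : two such homs that agree on constants and unmarked variables agree on
  series of weight `0`;
* `m59l8_step` : the induction `G₀^k g ≡ X_{i₀}^k h` mod `P` with `y' g · (y G₀)^k = n^k · y h`;
* `m59l8_main` : **step (d)**: `P` prime, stable under the components, `X_{i₀} ∉ P`,
  `X_i G_{i₀} - X_{i₀} G_i ∈ P`, `P ≤ ker y`, `y G_{i₀} ≠ 0`, `y G_i = 0 = y' X_i` at the other marked
  `i`, `y = y'` off the marked variables  ⟹  `P ≤ ker y'`.
-/

set_option autoImplicit false

namespace Fermat.Agent.M59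

open MvPowerSeries IsLocalRing Fermat.Agent.TW

section decomp

variable {σ A : Type*} [CommRing A] (w : σ → ℕ)

open scoped Classical in
/-- a chosen index of positive weight in the support of `m`. -/
noncomputable def m59l8_pick (m : σ →₀ ℕ) : Option σ :=
  if h : ∃ i, m i ≠ 0 ∧ w i ≠ 0 then some (Classical.choose h) else none

theorem m59l8_pick_some {m : σ →₀ ℕ} {i : σ} (h : m59l8_pick w m = some i) :
    m i ≠ 0 ∧ w i ≠ 0 := by
  unfold m59l8_pick at h
  split_ifs at h with h'
  have := Classical.choose_spec h'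
  rw [Option.some.injEq] at h
  rwa [h] at this

theorem m59l8_pick_none {m : σ →₀ ℕ} (h : m59l8_pick w m = none) :
    Finsupp.weight w m = 0 := by
  unfold m59l8_pick at h
  split_ifs at h with h'
  rw [Finsupp.weight_apply, Finsupp.sum]
  apply Finset.sum_eq_zero
  intro i hi
  have hmi : m i ≠ 0 := Finsupp.mem_support_iff.mp hi
  have : w i = 0 := by
    by_contra hw
    exact h' ⟨i, hmi, hw⟩
  rw [this, smul_zero]

open scoped Classical in
/-- the `i`-th part of `f`. -/
noncomputable def m59l8_part (f : MvPowerSeries σ A) (i : σ) : MvPowerSeries σ A :=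
  fun m' => if m59l8_pick w (m' + Finsupp.single i 1) = some i then
    coeff (m' + Finsupp.single i 1) f else 0

open scoped Classical in
theorem m59l8_coeff_part (f : MvPowerSeries σ A) (i : σ) (m' : σ →₀ ℕ) :
    coeff m' (m59l8_part w f i) = if m59l8_pick w (m' + Finsupp.single i 1) = some i then
      coeff (m' + Finsupp.single i 1) f else 0 := rfl

theorem m59l8_part_eq_zero (f : MvPowerSeries σ A) (i : σ) (hi : w i = 0) :
    m59l8_part w f i = 0 := by
  classical
  ext m'
  rw [m59l8_coeff_part, if_neg, map_zero]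
  intro h
  exact (m59l8_pick_some w h).2 hi

theorem m59l8_eq_sum [Fintype σ] (f : MvPowerSeries σ A)
    (hf : ∀ m, Finsupp.weight w m = 0 → coeff m f = 0) :
    f = ∑ i, X i * m59l8_part w f i := by
  classical
  ext m
  rw [map_sum]
  have hterm : ∀ i, coeff m (X i * m59l8_part w f i) =
      if m59l8_pick w m = some i then coeff m f else 0 := by
    intro i
    rw [X_def, coeff_monomial_mul, one_mul]
    by_cases hle : Finsupp.single i 1 ≤ m
    · rw [if_pos hle, m59l8_coeff_part, tsub_add_cancel_of_le hle]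
    · rw [if_neg hle, if_neg]
      intro hp
      apply hle
      have := (m59l8_pick_some w hp).1
      intro j
      by_cases hj : j = i
      · subst hj
        simp only [Finsupp.single_eq_same]
        omega
      · simp [Finsupp.single_eq_of_ne hj]
  simp_rw [hterm]
  cases hp : m59l8_pick w m with
  | none =>
    rw [hf m (m59l8_pick_none w hp)]
    simp
  | some i₀ =>
    rw [Finset.sum_eq_single i₀]
    · simp
    · intro b _ hb
      rw [if_neg]
      intro h
      exact hb (Option.some.inj h).symm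
    · intro h
      exact absurd (Finset.mem_univ _) h

theorem m59l8_part_hom (f : MvPowerSeries σ A) (k : ℕ)
    (hf : IsWeightedHomogeneous w f (k + 1)) (i : σ) (hi : w i = 1) :
    IsWeightedHomogeneous w (m59l8_part w f i) k := by
  classical
  intro d hd
  rw [m59l8_coeff_part] at hd
  split_ifs at hd with h
  · have h1 := hf hd
    rw [map_add, Finsupp.weight_single, hi] at h1
    simpa using h1
  · exact absurd rfl hd

theorem m59l8_weight_le_degree (hw : ∀ i, w i ≤ 1) (d : σ →₀ ℕ) :
    Finsupp.weight w d ≤ d.degree := by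
  rw [Finsupp.weight_apply, Finsupp.degree_apply, Finsupp.sum]
  apply Finset.sum_le_sum
  intro i _
  calc d i • w i = d i * w i := smul_eq_mul _ _
    _ ≤ d i * 1 := Nat.mul_le_mul_left _ (hw i)
    _ = d i := mul_one _

theorem m59l8_le_order_sub (hw : ∀ i, w i ≤ 1) (f : MvPowerSeries σ A) (n : ℕ) :
    (n : ℕ∞) ≤ (f - ∑ k ∈ Finset.range n, weightedHomogeneousComponent w k f).order := by
  classical
  apply nat_le_order
  intro d hd
  rw [map_sub, map_sum]
  simp_rw [coeff_weightedHomogeneousComponent]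
  rw [Finset.sum_ite_eq (Finset.range n) (Finsupp.weight w d),
    if_pos (Finset.mem_range.mpr (lt_of_le_of_lt (m59l8_weight_le_degree w hw d) hd)), sub_self]

end decomp

section homs

variable {σ A : Type*} [CommRing A] [Finite σ] (w : σ → ℕ)
variable {E : Type*} [CommRing E] [IsNoetherianRing E] [IsLocalRing E]

/-- a local hom kills `f` as soon as it kills all weighted homogeneous components. -/
theorem m59l8_map_eq_zero (hw : ∀ i, w i ≤ 1) (φ : MvPowerSeries σ A →+* E)
    (hm : ∀ i, φ (X i) ∈ maximalIdeal E) (f : MvPowerSeries σ A)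
    (h : ∀ k, φ (weightedHomogeneousComponent w k f) = 0) : φ f = 0 := by
  have hmem : ∀ n : ℕ, φ f ∈ maximalIdeal E ^ n := by
    intro n
    have h1 := twb_map_mem_pow φ hm _ n (m59l8_le_order_sub w hw f n)
    rwa [map_sub, map_sum, Finset.sum_eq_zero (fun k _ => h k), sub_zero] at h1
  have hbot : φ f ∈ (⨅ i : ℕ, maximalIdeal E ^ i : Ideal E) := by
    rw [Ideal.mem_iInf]; exact hmem
  rw [Ideal.iInf_pow_eq_bot_of_isLocalRing _ (Ideal.IsPrime.ne_top inferInstance)] at hbot
  exact hbot

/-- two local homs agreeing on constants and on the unmarked variables agree on weight `0`. -/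
theorem m59l8_eq_of_hom_zero (y y' : MvPowerSeries σ A →+* E)
    (hC : ∀ a, y (C a) = y' (C a)) (hX : ∀ i, w i = 0 → y (X i) = y' (X i))
    (hm : ∀ i, y (X i) ∈ maximalIdeal E) (hm' : ∀ i, y' (X i) ∈ maximalIdeal E)
    (h : MvPowerSeries σ A) (hh : IsWeightedHomogeneous w h 0) : y h = y' h := by
  classical
  have hpoly : ∀ n : ℕ, y ((truncTotal n h : MvPolynomial σ A) : MvPowerSeries σ A) =
      y' ((truncTotal n h : MvPolynomial σ A) : MvPowerSeries σ A) := by
    intro n
    set p : MvPolynomial σ A := truncTotal n h with hp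
    have hsum : (p : MvPowerSeries σ A) = ∑ v ∈ p.support,
        C (MvPolynomial.coeff v p) * v.prod fun i e => (X i : MvPowerSeries σ A) ^ e := by
      conv_lhs => rw [← MvPolynomial.support_sum_monomial_coeff p]
      rw [← MvPolynomial.coeToMvPowerSeries.ringHom_apply, map_sum]
      refine Finset.sum_congr rfl fun v _ => ?_
      rw [MvPolynomial.coeToMvPowerSeries.ringHom_apply, MvPolynomial.monomial_eq,
        MvPolynomial.coe_mul, MvPolynomial.coe_C]
      congr 1
      rw [Finsupp.prod, Finsupp.prod, ← MvPolynomial.coeToMvPowerSeries.ringHom_apply, map_prod]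
      refine Finset.prod_congr rfl fun i _ => ?_
      rw [map_pow, MvPolynomial.coeToMvPowerSeries.ringHom_apply, MvPolynomial.coe_X]
    rw [hsum, map_sum, map_sum]
    refine Finset.sum_congr rfl fun v hv => ?_
    have hv0 : MvPolynomial.coeff v p ≠ 0 := MvPolynomial.mem_support_iff.mp hv
    have hv1 : coeff v h ≠ 0 := by
      intro h0
      apply hv0
      rw [coeff_truncTotal_eq_ite, h0]
      simp
    have hwv : Finsupp.weight w v = 0 := hh hv1
    rw [map_mul, map_mul, hC, Finsupp.prod, map_prod, map_prod]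
    congr 1
    refine Finset.prod_congr rfl fun i hi => ?_
    have hvi : v i ≠ 0 := Finsupp.mem_support_iff.mp hi
    have hwi : w i = 0 := by
      have := Finsupp.le_weight_of_ne_zero' (w := w) hvi
      omega
    rw [map_pow, map_pow, hX i hwi]
  have hmem : ∀ n : ℕ, y h - y' h ∈ maximalIdeal E ^ n := by
    intro n
    have h1 := twb_map_mem_pow y hm _ n (twb_le_order_sub_truncTotal h n)
    have h2 := twb_map_mem_pow y' hm' _ n (twb_le_order_sub_truncTotal h n)
    have : y h - y' h = y (h - ((truncTotal n h : MvPolynomial σ A) : MvPowerSeries σ A)) -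
        y' (h - ((truncTotal n h : MvPolynomial σ A) : MvPowerSeries σ A)) := by
      rw [map_sub, map_sub, hpoly]; ring
    rw [this]
    exact Ideal.sub_mem _ h1 h2
  have hbot : y h - y' h ∈ (⨅ i : ℕ, maximalIdeal E ^ i : Ideal E) := by
    rw [Ideal.mem_iInf]; exact hmem
  rw [Ideal.iInf_pow_eq_bot_of_isLocalRing _ (Ideal.IsPrime.ne_top inferInstance)] at hbot
  exact sub_eq_zero.mp hbot

end homs

section step

variable {σ A : Type*} [CommRing A] (w : σ → ℕ)
variable {E : Type*} [CommRing E]

theorem m59l8_hom_zero (p : ℕ) : IsWeightedHomogeneous w (0 : MvPowerSeries σ A) p := by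
  intro d hd
  exact absurd (map_zero _) hd

theorem m59l8_hom_sum {ι : Type*} (s : Finset ι) (f : ι → MvPowerSeries σ A) (p : ℕ)
    (h : ∀ i ∈ s, IsWeightedHomogeneous w (f i) p) :
    IsWeightedHomogeneous w (∑ i ∈ s, f i) p := by
  classical
  induction s using Finset.induction_on with
  | empty =>
    rw [Finset.sum_empty]
    exact m59l8_hom_zero w p
  | insert a s ha ih =>
    rw [Finset.sum_insert ha]
    have h1 : IsWeightedHomogeneous w (f a) p := h a (Finset.mem_insert_self a s)
    have h2 : IsWeightedHomogeneous w (∑ i ∈ s, f i) p :=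
      ih fun i hi => h i (Finset.mem_insert_of_mem hi)
    intro d
    exact h1.add h2

/-- the induction behind step (d): `G₀^k g ≡ X_{i₀}^k h` modulo `P` with `h` of weight `0`. -/
theorem m59l8_step [Fintype σ] (P : Ideal (MvPowerSeries σ A))
    (y y' : MvPowerSeries σ A →+* E) (i0 : σ) (G : σ → MvPowerSeries σ A) (nn : E)
    (hGhom : ∀ i, IsWeightedHomogeneous w (G i) 0)
    (hG : ∀ i, w i = 1 → X i * G i0 - X i0 * G i ∈ P)
    (hyG : ∀ i, w i = 1 → i ≠ i0 → y (G i) = 0)
    (hy'X : ∀ i, w i = 1 → i ≠ i0 → y' (X i) = 0) (hy'0 : y' (X i0) = nn)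
    (hyy' : ∀ h, IsWeightedHomogeneous w h 0 → y' h = y h) (hw : ∀ i, w i ≤ 1) :
    ∀ (k : ℕ) (g : MvPowerSeries σ A), IsWeightedHomogeneous w g k →
      ∃ h, IsWeightedHomogeneous w h 0 ∧ G i0 ^ k * g - X i0 ^ k * h ∈ P ∧
        y' g * y (G i0) ^ k = nn ^ k * y h := by
  classical
  intro k
  induction k with
  | zero =>
    intro g hg
    refine ⟨g, hg, ?_, ?_⟩
    · simp
    · simp [hyy' g hg]
  | succ k ih =>
    intro g hg
    have hg0 : ∀ m, Finsupp.weight w m = 0 → coeff m g = 0 := by
      intro m hm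
      apply hg.coeff_eq_zero
      rw [hm]
      exact (Nat.succ_ne_zero k).symm
    have hsum := m59l8_eq_sum w g hg0
    -- the data for each index
    have hex : ∀ i, ∃ h, IsWeightedHomogeneous w h 0 ∧
        G i0 ^ k * m59l8_part w g i - X i0 ^ k * h ∈ P ∧
        y' (m59l8_part w g i) * y (G i0) ^ k = nn ^ k * y h ∧ (w i = 0 → h = 0) := by
      intro i
      by_cases hi : w i = 1
      · obtain ⟨h, h1, h2, h3⟩ := ih _ (m59l8_part_hom w g k hg i hi)
        exact ⟨h, h1, h2, h3, fun h0 => by omega⟩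
      · have hi0 : w i = 0 := by have := hw i; omega
        refine ⟨0, m59l8_hom_zero w 0, ?_, ?_, fun _ => rfl⟩
        · rw [m59l8_part_eq_zero w g i hi0]; simp
        · rw [m59l8_part_eq_zero w g i hi0]; simp
    choose hh hh1 hh2 hh3 hh4 using hex
    refine ⟨∑ i, G i * hh i, ?_, ?_, ?_⟩
    · apply m59l8_hom_sum
      intro i _
      have h1 : IsWeightedHomogeneous w (G i) 0 := hGhom i
      have h2 : IsWeightedHomogeneous w (hh i) 0 := hh1 i
      intro d
      exact h1.mul h2
    · have hrw : G i0 ^ (k + 1) * g - X i0 ^ (k + 1) * ∑ i, G i * hh i =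
          ∑ i, (G i0 ^ k * m59l8_part w g i * (X i * G i0 - X i0 * G i) +
            X i0 * G i * (G i0 ^ k * m59l8_part w g i - X i0 ^ k * hh i)) := by
        conv_lhs => rw [hsum]
        rw [Finset.mul_sum, Finset.mul_sum, ← Finset.sum_sub_distrib]
        refine Finset.sum_congr rfl fun i _ => ?_
        ring
      rw [hrw]
      refine Ideal.sum_mem _ fun i _ => ?_
      by_cases hi : w i = 1
      · exact P.add_mem (P.mul_mem_left _ (hG i hi)) (P.mul_mem_left _ (hh2 i))
      · have hi0 : w i = 0 := by have := hw i; omega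
        rw [m59l8_part_eq_zero w g i hi0, hh4 i hi0]
        simp
    · conv_lhs => rw [hsum]
      rw [map_sum, map_sum, Finset.sum_mul, Finset.mul_sum]
      rw [Finset.sum_eq_single i0, Finset.sum_eq_single i0]
      · rw [map_mul, map_mul, hy'0]
        have := hh3 i0
        linear_combination (nn * y (G i0)) * this
      · intro i _ hi
        by_cases hi1 : w i = 1
        · rw [map_mul, hyG i hi1 hi]; ring
        · have hi0 : w i = 0 := by have := hw i; omega
          rw [hh4 i hi0]; simp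
      · intro h; exact absurd (Finset.mem_univ _) h
      · intro i _ hi
        by_cases hi1 : w i = 1
        · rw [map_mul, hy'X i hi1 hi]; ring
        · have hi0 : w i = 0 := by have := hw i; omega
          rw [m59l8_part_eq_zero w g i hi0]; simp
      · intro h; exact absurd (Finset.mem_univ _) h

end step

section main

variable {σ A : Type*} [CommRing A] [Finite σ] (w : σ → ℕ)
variable {E : Type*} [CommRing E] [IsDomain E] [IsNoetherianRing E] [IsLocalRing E]

/-- **Step (d) of (LOC-8)**. -/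
theorem m59l8_main (hw : ∀ i, w i ≤ 1) (P : Ideal (MvPowerSeries σ A)) [hP : P.IsPrime]
    (hPhom : ∀ (k : ℕ) (f : MvPowerSeries σ A), f ∈ P → weightedHomogeneousComponent w k f ∈ P)
    (y y' : MvPowerSeries σ A →+* E)
    (hC : ∀ a, y (C a) = y' (C a)) (hX : ∀ i, w i = 0 → y (X i) = y' (X i))
    (hm : ∀ i, y (X i) ∈ maximalIdeal E) (hm' : ∀ i, y' (X i) ∈ maximalIdeal E)
    (hPy : P ≤ RingHom.ker y)
    (i0 : σ) (G : σ → MvPowerSeries σ A)
    (hGhom : ∀ i, IsWeightedHomogeneous w (G i) 0)
    (hG : ∀ i, w i = 1 → X i * G i0 - X i0 * G i ∈ P)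
    (hyG0 : y (G i0) ≠ 0) (hyG : ∀ i, w i = 1 → i ≠ i0 → y (G i) = 0)
    (hy'X : ∀ i, w i = 1 → i ≠ i0 → y' (X i) = 0)
    (hx0 : (X i0 : MvPowerSeries σ A) ∉ P) :
    P ≤ RingHom.ker y' := by
  classical
  have := Fintype.ofFinite σ
  intro f hf
  rw [RingHom.mem_ker]
  apply m59l8_map_eq_zero w hw y' hm' f
  intro k
  have hfk := hPhom k f hf
  have hyy' : ∀ h, IsWeightedHomogeneous w h 0 → y' h = y h := fun h hh =>
    (m59l8_eq_of_hom_zero w y y' hC hX hm hm' h hh).symm
  obtain ⟨h, _, h2, h3⟩ := m59l8_step w P y y' i0 G (y' (X i0)) hGhom hG hyG hy'X rfl hyy' hw k _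
    (isWeightedHomogeneous_weightedHomogeneousComponent w f k)
  have h4 : X i0 ^ k * h ∈ P := by
    have := P.sub_mem (P.mul_mem_left (G i0 ^ k) hfk) h2
    simpa using this
  have h5 : h ∈ P := (hP.mem_or_mem h4).resolve_left fun hx => hx0 (hP.mem_of_pow_mem k hx)
  have h6 : y h = 0 := hPy h5
  rw [h6, mul_zero] at h3
  exact (mul_eq_zero.mp h3).resolve_right (pow_ne_zero k hyG0)

end main

section loc8

variable {σ A : Type*} [CommRing A] [Finite σ] (w : σ → ℕ)
variable {E : Type*} [CommRing E] [IsDomain E] [IsNoetherianRing E] [IsLocalRing E]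

omit [Finite σ] in
theorem m59l8_hom_sub {f g : MvPowerSeries σ A} {p : ℕ} (hf : IsWeightedHomogeneous w f p)
    (hg : IsWeightedHomogeneous w g p) : IsWeightedHomogeneous w (f - g) p := by
  intro d hd
  by_contra hne
  apply hd
  rw [map_sub, hf.coeff_eq_zero hne, hg.coeff_eq_zero hne, sub_zero]

omit [Finite σ] in
theorem m59l8_hom_mul0 {f g : MvPowerSeries σ A} (hf : IsWeightedHomogeneous w f 0)
    (hg : IsWeightedHomogeneous w g 0) : IsWeightedHomogeneous w (f * g) 0 := by
  intro d
  exact hf.mul hg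

open scoped Classical in
/-- the matrix `G = (Φ - s) E₁₂ (Φ - s l)` spread over the four marked variables. -/
noncomputable def m59l8_G (x11 x12 x21 x22 : σ) (a c d l s : MvPowerSeries σ A) :
    σ → MvPowerSeries σ A := fun i =>
  if i = x11 then (a - s) * c else if i = x12 then (a - s) * (d - s * l)
  else if i = x21 then c * c else if i = x22 then c * (d - s * l) else 0

/-- **(LOC-8)** (finding #5194, steps (c)+(d)) for a prime `P` of `A[[σ]]`, stable under the
`N_l`-components, containing the relations `tr N = det N = 0`, `Φ N = l N Φ`, `det Φ = l`,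
`(tr Φ)² = (l+1)²`, with `P ≤ ker y`, `y Φ = (s l, *; 0, s)`, `N ⊄ P`; `y'` agrees with `y` off the
entries of `N` and `y' N = n E₁₂`. Then `P ≤ ker y'`. -/
theorem m59l8_loc8 (hw : ∀ i, w i ≤ 1) (x11 x12 x21 x22 : σ)
    (hmark : ∀ i, w i = 1 ↔ i = x11 ∨ i = x12 ∨ i = x21 ∨ i = x22)
    (h12_11 : x12 ≠ x11) (h21_11 : x21 ≠ x11) (h21_12 : x21 ≠ x12)
    (h22_11 : x22 ≠ x11) (h22_12 : x22 ≠ x12) (h22_21 : x22 ≠ x21)
    (P : Ideal (MvPowerSeries σ A)) [hP : P.IsPrime]
    (hPhom : ∀ (k : ℕ) (f : MvPowerSeries σ A), f ∈ P → weightedHomogeneousComponent w k f ∈ P)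
    (y y' : MvPowerSeries σ A →+* E)
    (hC : ∀ a, y (C a) = y' (C a)) (hX : ∀ i, w i = 0 → y (X i) = y' (X i))
    (hm : ∀ i, y (X i) ∈ maximalIdeal E) (hm' : ∀ i, y' (X i) ∈ maximalIdeal E)
    (hPy : P ≤ RingHom.ker y)
    (a b c d l s : MvPowerSeries σ A)
    (ha : IsWeightedHomogeneous w a 0) (hc : IsWeightedHomogeneous w c 0)
    (hd : IsWeightedHomogeneous w d 0) (hl : IsWeightedHomogeneous w l 0)
    (hs0 : IsWeightedHomogeneous w s 0) (hs : s * s = 1)
    (h1 : X x11 + X x22 ∈ P) (h2 : X x11 * X x22 - X x12 * X x21 ∈ P)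
    (r11 : a * X x11 + b * X x21 - l * (X x11 * a + X x12 * c) ∈ P)
    (r12 : a * X x12 + b * X x22 - l * (X x11 * b + X x12 * d) ∈ P)
    (r21 : c * X x11 + d * X x21 - l * (X x21 * a + X x22 * c) ∈ P)
    (r22 : c * X x12 + d * X x22 - l * (X x21 * b + X x22 * d) ∈ P)
    (hdet : a * d - b * c - l ∈ P) (hr : (a + d) * (a + d) - (l + 1) * (l + 1) ∈ P)
    (ya : y a = y s * y l) (yc : y c = 0) (yd : y d = y s)
    (hl0 : y l ≠ 0) (hlm : y l - 1 ≠ 0) (hlp : y l + 1 ≠ 0) (h2E : (2 : E) ≠ 0)
    (hN : ¬ ((X x11 : MvPowerSeries σ A) ∈ P ∧ (X x12 : MvPowerSeries σ A) ∈ P ∧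
      (X x21 : MvPowerSeries σ A) ∈ P ∧ (X x22 : MvPowerSeries σ A) ∈ P))
    (hy'11 : y' (X x11) = 0) (hy'21 : y' (X x21) = 0) (hy'22 : y' (X x22) = 0) :
    P ≤ RingHom.ker y' := by
  classical
  obtain ⟨k1, k2, m1, m2, m3, z1, z2, z3⟩ := m59lm_main P y hPy a b c d (X x11) (X x12) (X x21)
    (X x22) l s hs h1 h2 r11 r12 r21 r22 hdet hr ya yc yd hl0 hlm hlp h2E hN
  have hG11 : m59l8_G x11 x12 x21 x22 a c d l s x11 = (a - s) * c := by
    simp [m59l8_G]
  have hG12 : m59l8_G x11 x12 x21 x22 a c d l s x12 = (a - s) * (d - s * l) := by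
    simp [m59l8_G, h12_11]
  have hG21 : m59l8_G x11 x12 x21 x22 a c d l s x21 = c * c := by
    simp [m59l8_G, h21_11, h21_12]
  have hG22 : m59l8_G x11 x12 x21 x22 a c d l s x22 = c * (d - s * l) := by
    simp [m59l8_G, h22_11, h22_12, h22_21]
  have has : IsWeightedHomogeneous w (a - s) 0 := m59l8_hom_sub w ha hs0
  have hdsl : IsWeightedHomogeneous w (d - s * l) 0 :=
    m59l8_hom_sub w hd (m59l8_hom_mul0 w hs0 hl)
  apply m59l8_main w hw P hPhom y y' hC hX hm hm' hPy x12
    (m59l8_G x11 x12 x21 x22 a c d l s)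
  · intro i
    unfold m59l8_G
    split_ifs
    · exact m59l8_hom_mul0 w has hc
    · exact m59l8_hom_mul0 w has hdsl
    · exact m59l8_hom_mul0 w hc hc
    · exact m59l8_hom_mul0 w hc hdsl
    · exact m59l8_hom_zero w 0
  · intro i hi
    rw [hG12]
    rcases (hmark i).mp hi with rfl | rfl | rfl | rfl
    · rw [hG11]; exact m1
    · rw [hG12]; simp
    · rw [hG21]; exact m2
    · rw [hG22]; exact m3
  · rw [hG12]; exact k2
  · intro i hi hne
    rcases (hmark i).mp hi with rfl | rfl | rfl | rfl
    · rw [hG11]; exact z1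
    · exact absurd rfl hne
    · rw [hG21]; exact z2
    · rw [hG22]; exact z3
  · intro i hi hne
    rcases (hmark i).mp hi with rfl | rfl | rfl | rfl
    · exact hy'11
    · exact absurd rfl hne
    · exact hy'21
    · exact hy'22
  · exact k1

end loc8

end Fermat.Agent.M59
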