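import Mathlib
import Fermat.Agent.M59.Loc.Loc8

/-!
# M59 / Loc : step (d) of (LOC) with a general proportionality hypothesis

Same setting as `M59/Loc/Loc8.lean` (`𝒫 = MvPowerSeries σ A`, `w` a `0/1`-weight, `P` a prime stable
under the `w`-components). `m59l8_main` asks `y G_i = 0 = y' X_i` at the marked `i ≠ i₀`; here this is
replaced by the proportionality of the two points,

  `y' (X i) * y (G i₀) = y (G i) * y' (X i₀)`   (marked `i`),

which also covers the normalised rings at the non-scalar primes (companion frame of #5231/#5232: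
marked `n₁, n₂`, relation `(1+l) n₁ - t n₂`, `G n₁ = t`, `G n₂ = 1 + l`) and every one-variable case.

* `m59lx_step`, `m59lx_main` : the general step (d);
* `m59lx_two` : two marked variables with one linear relation `c₂ X n₁ - c₁ X n₂ ∈ P`;
* `m59lx_one` : one marked variable (no relation needed).
-/

set_option autoImplicit false

namespace Fermat.Agent.M59

open MvPowerSeries IsLocalRing Fermat.Agent.TW

section step

variable {σ A : Type*} [CommRing A] (w : σ → ℕ)
variable {E : Type*} [CommRing E]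

theorem m59lx_step [Fintype σ] (P : Ideal (MvPowerSeries σ A))
    (y y' : MvPowerSeries σ A →+* E) (i0 : σ) (G : σ → MvPowerSeries σ A)
    (hGhom : ∀ i, IsWeightedHomogeneous w (G i) 0)
    (hG : ∀ i, w i = 1 → X i * G i0 - X i0 * G i ∈ P)
    (hprop : ∀ i, w i = 1 → y' (X i) * y (G i0) = y (G i) * y' (X i0))
    (hyy' : ∀ h, IsWeightedHomogeneous w h 0 → y' h = y h) (hw : ∀ i, w i ≤ 1) :
    ∀ (k : ℕ) (g : MvPowerSeries σ A), IsWeightedHomogeneous w g k →
      ∃ h, IsWeightedHomogeneous w h 0 ∧ G i0 ^ k * g - X i0 ^ k * h ∈ P ∧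
        y' g * y (G i0) ^ k = y' (X i0) ^ k * y h := by
  classical
  intro k
  induction k with
  | zero =>
    intro g hg
    refine ⟨g, hg, ?_, ?_⟩
    · simp
    · simp [hyy' g hg]
  | succ k ih =>
    intro g hg
    have hg0 : ∀ m, Finsupp.weight w m = 0 → coeff m g = 0 := by
      intro m hm
      apply hg.coeff_eq_zero
      rw [hm]
      exact (Nat.succ_ne_zero k).symm
    have hsum := m59l8_eq_sum w g hg0
    have hex : ∀ i, ∃ h, IsWeightedHomogeneous w h 0 ∧
        G i0 ^ k * m59l8_part w g i - X i0 ^ k * h ∈ P ∧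
        y' (m59l8_part w g i) * y (G i0) ^ k = y' (X i0) ^ k * y h ∧ (w i = 0 → h = 0) := by
      intro i
      by_cases hi : w i = 1
      · obtain ⟨h, h1, h2, h3⟩ := ih _ (m59l8_part_hom w g k hg i hi)
        exact ⟨h, h1, h2, h3, fun h0 => by omega⟩
      · have hi0 : w i = 0 := by have := hw i; omega
        refine ⟨0, m59l8_hom_zero w 0, ?_, ?_, fun _ => rfl⟩
        · rw [m59l8_part_eq_zero w g i hi0]; simp
        · rw [m59l8_part_eq_zero w g i hi0]; simp
    choose hh hh1 hh2 hh3 hh4 using hex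
    refine ⟨∑ i, G i * hh i, ?_, ?_, ?_⟩
    · apply m59l8_hom_sum
      intro i _
      have h1 : IsWeightedHomogeneous w (G i) 0 := hGhom i
      have h2 : IsWeightedHomogeneous w (hh i) 0 := hh1 i
      intro d
      exact h1.mul h2
    · have hrw : G i0 ^ (k + 1) * g - X i0 ^ (k + 1) * ∑ i, G i * hh i =
          ∑ i, (G i0 ^ k * m59l8_part w g i * (X i * G i0 - X i0 * G i) +
            X i0 * G i * (G i0 ^ k * m59l8_part w g i - X i0 ^ k * hh i)) := by
        conv_lhs => rw [hsum]
        rw [Finset.mul_sum, Finset.mul_sum, ← Finset.sum_sub_distrib]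
        refine Finset.sum_congr rfl fun i _ => ?_
        ring
      rw [hrw]
      refine Ideal.sum_mem _ fun i _ => ?_
      by_cases hi : w i = 1
      · exact P.add_mem (P.mul_mem_left _ (hG i hi)) (P.mul_mem_left _ (hh2 i))
      · have hi0 : w i = 0 := by have := hw i; omega
        rw [m59l8_part_eq_zero w g i hi0, hh4 i hi0]
        simp
    · conv_lhs => rw [hsum]
      rw [map_sum, map_sum, Finset.sum_mul, Finset.mul_sum]
      refine Finset.sum_congr rfl fun i _ => ?_
      by_cases hi : w i = 1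
      · rw [map_mul, map_mul]
        have e1 := hh3 i
        have e2 := hprop i hi
        linear_combination (y' (X i) * y (G i0)) * e1 + (y' (X i0) ^ k * y (hh i)) * e2
      · have hi0 : w i = 0 := by have := hw i; omega
        rw [m59l8_part_eq_zero w g i hi0, hh4 i hi0]
        simp

end step

section main

variable {σ A : Type*} [CommRing A] [Finite σ] (w : σ → ℕ)
variable {E : Type*} [CommRing E] [IsDomain E] [IsNoetherianRing E] [IsLocalRing E]

/-- **Step (d) of (LOC), general proportionality form.** -/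
theorem m59lx_main (hw : ∀ i, w i ≤ 1) (P : Ideal (MvPowerSeries σ A)) [hP : P.IsPrime]
    (hPhom : ∀ (k : ℕ) (f : MvPowerSeries σ A), f ∈ P → weightedHomogeneousComponent w k f ∈ P)
    (y y' : MvPowerSeries σ A →+* E)
    (hC : ∀ a, y (C a) = y' (C a)) (hX : ∀ i, w i = 0 → y (X i) = y' (X i))
    (hm : ∀ i, y (X i) ∈ maximalIdeal E) (hm' : ∀ i, y' (X i) ∈ maximalIdeal E)
    (hPy : P ≤ RingHom.ker y)
    (i0 : σ) (G : σ → MvPowerSeries σ A)
    (hGhom : ∀ i, IsWeightedHomogeneous w (G i) 0)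
    (hG : ∀ i, w i = 1 → X i * G i0 - X i0 * G i ∈ P)
    (hyG0 : y (G i0) ≠ 0)
    (hprop : ∀ i, w i = 1 → y' (X i) * y (G i0) = y (G i) * y' (X i0))
    (hx0 : (X i0 : MvPowerSeries σ A) ∉ P) :
    P ≤ RingHom.ker y' := by
  classical
  have := Fintype.ofFinite σ
  intro f hf
  rw [RingHom.mem_ker]
  apply m59l8_map_eq_zero w hw y' hm' f
  intro k
  have hfk := hPhom k f hf
  have hyy' : ∀ h, IsWeightedHomogeneous w h 0 → y' h = y h := fun h hh =>
    (m59l8_eq_of_hom_zero w y y' hC hX hm hm' h hh).symm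
  obtain ⟨h, _, h2, h3⟩ := m59lx_step w P y y' i0 G hGhom hG hprop hyy' hw k _
    (isWeightedHomogeneous_weightedHomogeneousComponent w f k)
  have h4 : X i0 ^ k * h ∈ P := by
    have := P.sub_mem (P.mul_mem_left (G i0 ^ k) hfk) h2
    simpa using this
  have h5 : h ∈ P := (hP.mem_or_mem h4).resolve_left fun hx => hx0 (hP.mem_of_pow_mem k hx)
  have h6 : y h = 0 := hPy h5
  rw [h6, mul_zero] at h3
  exact (mul_eq_zero.mp h3).resolve_right (pow_ne_zero k hyG0)

open scoped Classical in
/-- the family `G` for two marked variables. -/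
noncomputable def m59lx_G2 (n1 n2 : σ) (c1 c2 : MvPowerSeries σ A) : σ → MvPowerSeries σ A :=
  fun i => if i = n1 then c1 else if i = n2 then c2 else 0

/-- two marked variables `n₁, n₂` with one linear relation `c₂ X n₁ - c₁ X n₂ ∈ P`
(companion-normalised ring at a non-scalar prime: `c₁ = t`, `c₂ = 1 + l`). -/
theorem m59lx_two (hw : ∀ i, w i ≤ 1) (n1 n2 : σ)
    (hmark : ∀ i, w i = 1 ↔ i = n1 ∨ i = n2) (hne : n1 ≠ n2)
    (P : Ideal (MvPowerSeries σ A)) [hP : P.IsPrime]
    (hPhom : ∀ (k : ℕ) (f : MvPowerSeries σ A), f ∈ P → weightedHomogeneousComponent w k f ∈ P)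
    (y y' : MvPowerSeries σ A →+* E)
    (hC : ∀ a, y (C a) = y' (C a)) (hX : ∀ i, w i = 0 → y (X i) = y' (X i))
    (hm : ∀ i, y (X i) ∈ maximalIdeal E) (hm' : ∀ i, y' (X i) ∈ maximalIdeal E)
    (hPy : P ≤ RingHom.ker y)
    (c1 c2 : MvPowerSeries σ A) (hc1 : IsWeightedHomogeneous w c1 0)
    (hc2 : IsWeightedHomogeneous w c2 0)
    (hrel : c2 * X n1 - c1 * X n2 ∈ P) (hyc2 : y c2 ≠ 0)
    (hprop : y' (X n1) * y c2 = y c1 * y' (X n2))
    (hx0 : (X n2 : MvPowerSeries σ A) ∉ P) :
    P ≤ RingHom.ker y' := by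
  classical
  have hG1 : m59lx_G2 n1 n2 c1 c2 n1 = c1 := by simp [m59lx_G2]
  have hG2 : m59lx_G2 n1 n2 c1 c2 n2 = c2 := by simp [m59lx_G2, hne.symm]
  apply m59lx_main w hw P hPhom y y' hC hX hm hm' hPy n2 (m59lx_G2 n1 n2 c1 c2)
  · intro i
    unfold m59lx_G2
    split_ifs
    · exact hc1
    · exact hc2
    · exact m59l8_hom_zero w 0
  · intro i hi
    rw [hG2]
    rcases (hmark i).mp hi with rfl | rfl
    · rw [hG1]
      have : X i * c2 - X n2 * c1 = c2 * X i - c1 * X n2 := by ring
      rw [this]; exact hrel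
    · rw [hG2]; simp
  · rw [hG2]; exact hyc2
  · intro i hi
    rw [hG2]
    rcases (hmark i).mp hi with rfl | rfl
    · rw [hG1]; exact hprop
    · rw [hG2]; ring
  · exact hx0

/-- one marked variable. -/
theorem m59lx_one (hw : ∀ i, w i ≤ 1) (n0 : σ) (hmark : ∀ i, w i = 1 ↔ i = n0)
    (P : Ideal (MvPowerSeries σ A)) [hP : P.IsPrime]
    (hPhom : ∀ (k : ℕ) (f : MvPowerSeries σ A), f ∈ P → weightedHomogeneousComponent w k f ∈ P)
    (y y' : MvPowerSeries σ A →+* E)
    (hC : ∀ a, y (C a) = y' (C a)) (hX : ∀ i, w i = 0 → y (X i) = y' (X i))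
    (hm : ∀ i, y (X i) ∈ maximalIdeal E) (hm' : ∀ i, y' (X i) ∈ maximalIdeal E)
    (hPy : P ≤ RingHom.ker y) (hx0 : (X n0 : MvPowerSeries σ A) ∉ P) :
    P ≤ RingHom.ker y' := by
  classical
  have h1 : IsWeightedHomogeneous w (1 : MvPowerSeries σ A) 0 := by
    intro d hd
    rw [coeff_one] at hd
    split_ifs at hd with h
    · rw [h, map_zero]
    · exact absurd rfl hd
  apply m59lx_main w hw P hPhom y y' hC hX hm hm' hPy n0 (fun _ => 1)
  · intro i; exact h1
  · intro i hi
    rw [(hmark i).mp hi]; simp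
  · simp
  · intro i hi
    rw [(hmark i).mp hi]; simp
  · exact hx0

end main

end Fermat.Agent.M59
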