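import Mathlib
import Fermat.Agent.M59.Loc.Ring
import Fermat.Agent.M59.Loc.Kill
import Fermat.Agent.M59.Loc.LocGen

/-!
# M59 / Loc : the walk `y_0, …, y_m` on the concrete ring `m59b_P / m59b_J` (the `hpts` of [D'])

`ch : Fin m → T8 ⊕ Tn` an injective chain of primes of `B'`, `W k` the weight of the `k`-th prime
(helper4's ring `m59b_P`, `m59b_J`, `m59b_R` of `M59/Loc/Ring.lean`).

* `m59lw_disj`, `m59lw_J_stable` : the weights of the chain are disjoint and `J` is stable under the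
  components of all their tails (inputs of `m59lk_points'`);
* `m59lw_local` : a ring hom `O[[σ]] → O` which is the identity on constants is local;
* `m59lw_step8` : one (LOC-8) step (`m59l8_loc8` + [HOM]) at a scalar-hard prime;
* `m59lw_stepn` : one (LOC-norm) step (`m59lx_two` + [HOM]) at a non-scalar prime;
* `m59lw_walk` : the points `y_0 … y_m` with all clauses of `hpts`, for primes of `m59b_P` over `J`;
* `m59lw_hpts` : the same in the quotient `m59b_R` (the shape of `hpts` in `m59d_chain_patch`), with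
  the `[NZ]` input as the hypothesis `m59lw_NZ` on the pulled-back prime.
-/

set_option autoImplicit false
set_option linter.unusedSectionVars false

namespace Fermat.Agent.M59

open MvPowerSeries Matrix IsLocalRing Fermat.Agent.TW

noncomputable section

section weights

variable {T8 Tn : Type} (κ : Type) {m : ℕ} (ch : Fin m → T8 ⊕ Tn)

/-- the weight of the `k`-th prime of the chain. -/
def m59lw_W (k : Fin m) : twb_r8_Idx T8 (m59b_Aux Tn κ) → ℕ :=
  Sum.elim (fun t => m59b_w8 κ t) (fun l => m59b_wn κ l) (ch k)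

theorem m59lw_W_le_one (k : Fin m) (i : twb_r8_Idx T8 (m59b_Aux Tn κ)) : m59lw_W κ ch k i ≤ 1 := by
  unfold m59lw_W
  rcases ch k with t | l
  · exact m59b_w8_le_one κ t i
  · exact m59b_wn_le_one κ l i

theorem m59lw_w8_ne_zero {t : T8} {i : twb_r8_Idx T8 (m59b_Aux Tn κ)} (h : m59b_w8 κ t i ≠ 0) :
    ∃ a b : Fin 2, i = Sum.inl (t, 0, a, b) := by
  classical
  rcases i with ⟨t', e, a, b⟩ | i
  · have h' : (if t' = t ∧ e = 0 then 1 else 0) ≠ 0 := h
    by_cases hc : t' = t ∧ e = 0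
    · obtain ⟨rfl, rfl⟩ := hc
      exact ⟨a, b, rfl⟩
    · rw [if_neg hc] at h'
      exact absurd rfl h'
  · exact absurd rfl h

theorem m59lw_wn_ne_zero {l : Tn} {i : twb_r8_Idx T8 (m59b_Aux Tn κ)}
    (h : m59b_wn (T8 := T8) κ l i ≠ 0) :
    i = Sum.inr (Sum.inl (l, 1)) ∨ i = Sum.inr (Sum.inl (l, 2)) := by
  classical
  rcases i with i | ⟨l', e⟩ | i
  · exact absurd rfl h
  · have h' : (if l' = l ∧ e ≠ 0 then 1 else 0) ≠ 0 := h
    by_cases hc : l' = l ∧ e ≠ 0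
    · obtain ⟨rfl, he⟩ := hc
      fin_cases e
      · exact absurd rfl he
      · left; rfl
      · right; rfl
    · rw [if_neg hc] at h'
      exact absurd rfl h'
  · exact absurd rfl h

theorem m59lw_w8_self (t : T8) (a b : Fin 2) :
    m59b_w8 (Tn := Tn) κ t (Sum.inl (t, 0, a, b)) = 1 := by
  classical
  show (if t = t ∧ (0 : Fin 2) = 0 then 1 else 0) = 1
  simp

theorem m59lw_wn_self1 (l : Tn) : m59b_wn (T8 := T8) κ l (Sum.inr (Sum.inl (l, 1))) = 1 := by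
  classical
  show (if l = l ∧ (1 : Fin 3) ≠ 0 then 1 else 0) = 1
  simp

theorem m59lw_wn_self2 (l : Tn) : m59b_wn (T8 := T8) κ l (Sum.inr (Sum.inl (l, 2))) = 1 := by
  classical
  show (if l = l ∧ (2 : Fin 3) ≠ 0 then 1 else 0) = 1
  simp

theorem m59lw_w8_other {t t' : T8} (h : t' ≠ t) (e a b : Fin 2) :
    m59b_w8 (Tn := Tn) κ t (Sum.inl (t', e, a, b)) = 0 := by
  classical
  show (if t' = t ∧ e = 0 then 1 else 0) = 0
  rw [if_neg]
  exact fun hc => h hc.1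

theorem m59lw_wn_other {l l' : Tn} (h : l' ≠ l) (e : Fin 3) :
    m59b_wn (T8 := T8) κ l (Sum.inr (Sum.inl (l', e))) = 0 := by
  classical
  show (if l' = l ∧ e ≠ 0 then 1 else 0) = 0
  rw [if_neg]
  exact fun hc => h hc.1

/-- the weights of an injective chain are pairwise disjoint. -/
theorem m59lw_disj (hch : Function.Injective ch) (j j' : Fin m)
    (i : twb_r8_Idx T8 (m59b_Aux Tn κ)) (hjj' : j ≠ j') (hi : m59lw_W κ ch j i ≠ 0) :
    m59lw_W κ ch j' i = 0 := by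
  have hne : ch j ≠ ch j' := fun e => hjj' (hch e)
  unfold m59lw_W at hi ⊢
  rcases hj : ch j with t | l
  · rw [hj] at hi hne
    obtain ⟨a, b, rfl⟩ := m59lw_w8_ne_zero κ hi
    rcases hj' : ch j' with t' | l'
    · rw [hj'] at hne
      have : t ≠ t' := fun e => hne (by rw [e])
      exact m59lw_w8_other (Tn := Tn) κ this 0 a b
    · rfl
  · rw [hj] at hi hne
    rcases hj' : ch j' with t' | l'
    · rcases m59lw_wn_ne_zero κ hi with rfl | rfl <;> rfl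
    · rw [hj'] at hne
      have : l ≠ l' := fun e => hne (by rw [e])
      rcases m59lw_wn_ne_zero κ hi with rfl | rfl
      · exact m59lw_wn_other (T8 := T8) κ this 1
      · exact m59lw_wn_other (T8 := T8) κ this 2

theorem m59lw_W_inl0 (k : Fin m) (t : T8) (a b : Fin 2) :
    m59lw_W κ ch k (Sum.inl (t, 0, a, b)) = m59lw_W κ ch k (Sum.inl (t, 0, 0, 0)) := by
  unfold m59lw_W
  rcases ch k with t' | l <;> rfl

theorem m59lw_W_inl1 (k : Fin m) (t : T8) (a b : Fin 2) :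
    m59lw_W κ ch k (Sum.inl (t, 1, a, b)) = 0 := by
  classical
  unfold m59lw_W
  rcases ch k with t' | l
  · show (if t = t' ∧ (1 : Fin 2) = 0 then 1 else 0) = 0
    simp
  · rfl

theorem m59lw_W_n0 (k : Fin m) (l : Tn) :
    m59lw_W (T8 := T8) κ ch k (Sum.inr (Sum.inl (l, 0))) = 0 := by
  classical
  unfold m59lw_W
  rcases ch k with t' | l'
  · rfl
  · show (if l = l' ∧ (0 : Fin 3) ≠ 0 then 1 else 0) = 0
    simp

theorem m59lw_W_n12 (k : Fin m) (l : Tn) :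
    m59lw_W (T8 := T8) κ ch k (Sum.inr (Sum.inl (l, 2))) =
      m59lw_W κ ch k (Sum.inr (Sum.inl (l, 1))) := by
  classical
  unfold m59lw_W
  rcases ch k with t' | l'
  · rfl
  · show (if l = l' ∧ (2 : Fin 3) ≠ 0 then 1 else 0) = (if l = l' ∧ (1 : Fin 3) ≠ 0 then 1 else 0)
    by_cases h : l = l' <;> simp [h]

theorem m59lw_W_free (k : Fin m) (c : κ) :
    m59lw_W (T8 := T8) (Tn := Tn) κ ch k (Sum.inr (Sum.inr c)) = 0 := by
  unfold m59lw_W
  rcases ch k with t' | l' <;> rfl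

/-- `J` is stable under the components of every tail weight of the chain. -/
theorem m59lw_J_stable {O : Type} [CommRing O] (a : T8 → O) (l8 : T8 → ℕ) (t0 : Tn → O)
    (ln : Tn → ℕ) (k : ℕ) (f : m59b_P O T8 Tn κ) (hf : f ∈ m59b_J O κ a l8 t0 ln) (n : ℕ) :
    weightedHomogeneousComponent (m59lk_tail (m59lw_W κ ch) k) n f ∈ m59b_J O κ a l8 t0 ln := by
  refine m59b_J_stable O κ (m59lk_tail (m59lw_W κ ch) k) a l8 t0 ln
    (fun t => m59lk_tail (m59lw_W κ ch) k (Sum.inl (t, 0, 0, 0)))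
    (fun l => m59lk_tail (m59lw_W κ ch) k (Sum.inr (Sum.inl (l, 1)))) ?_ ?_ ?_ ?_ ?_ f hf n
  · intro t i j
    unfold m59lk_tail
    refine Finset.sum_congr rfl fun j' _ => ?_
    rw [m59lw_W_inl0]
  · intro t i j
    apply m59lk_tail_zero
    intro j' _
    exact m59lw_W_inl1 κ ch j' t i j
  · intro l
    apply m59lk_tail_zero
    intro j' _
    exact m59lw_W_n0 κ ch j' l
  · intro l; rfl
  · intro l
    unfold m59lk_tail
    refine Finset.sum_congr rfl fun j' _ => ?_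
    rw [m59lw_W_n12]

end weights

section loc

variable {σ O : Type*} [CommRing O] [IsLocalRing O]

/-- a ring hom `O[[σ]] → O` which is the identity on the constants is local. -/
theorem m59lw_local (x : MvPowerSeries σ O →+* O) (hxC : ∀ c, x (C c) = c) (i : σ) :
    x (X i) ∈ maximalIdeal O := by
  by_contra h
  rw [mem_maximalIdeal, mem_nonunits_iff, not_not] at h
  obtain ⟨u, hu⟩ := h
  have h1 : IsUnit (1 - X i * C (↑u⁻¹ : O) : MvPowerSeries σ O) := by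
    rw [MvPowerSeries.isUnit_iff_constantCoeff]
    simp
  have h2 := h1.map x
  rw [map_sub, map_one, map_mul, hxC, ← hu, Units.mul_inv, sub_self] at h2
  exact not_isUnit_zero h2

end loc

section steps

variable {O : Type} [CommRing O] [IsDomain O] [IsNoetherianRing O] [IsLocalRing O] [CharZero O]
  {T8 Tn : Type} [Finite T8] [Finite Tn] (κ : Type) [Finite κ]
  (a : T8 → O) (l8 : T8 → ℕ) (t0 : Tn → O) (ln : Tn → ℕ)

theorem m59lw_mark8 (t : T8) (i : twb_r8_Idx T8 (m59b_Aux Tn κ)) :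
    m59b_w8 κ t i = 1 ↔ i = Sum.inl (t, 0, 0, 0) ∨ i = Sum.inl (t, 0, 0, 1) ∨
      i = Sum.inl (t, 0, 1, 0) ∨ i = Sum.inl (t, 0, 1, 1) := by
  constructor
  · intro h
    obtain ⟨a', b', rfl⟩ := m59lw_w8_ne_zero κ (by rw [h]; exact one_ne_zero)
    fin_cases a' <;> fin_cases b' <;> simp
  · rintro (rfl | rfl | rfl | rfl) <;> exact m59lw_w8_self κ t _ _

theorem m59lw_markn (l : Tn) (i : twb_r8_Idx T8 (m59b_Aux Tn κ)) :
    m59b_wn (T8 := T8) κ l i = 1 ↔ i = Sum.inr (Sum.inl (l, 1)) ∨ i = Sum.inr (Sum.inl (l, 2)) := by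
  constructor
  · intro h
    exact m59lw_wn_ne_zero κ (by rw [h]; exact one_ne_zero)
  · rintro (rfl | rfl)
    · exact m59lw_wn_self1 κ l
    · exact m59lw_wn_self2 κ l

theorem m59lw_mem_J8 (t : T8) {g : m59b_P O T8 Tn κ} (hg : g ∈ m59b_rel8 O κ a l8 t) :
    g ∈ m59b_J O κ a l8 t0 ln :=
  Ideal.subset_span (Or.inl (Set.mem_iUnion.mpr ⟨t, hg⟩))

theorem m59lw_mem_Jn (l : Tn) {g : m59b_P O T8 Tn κ} (hg : g ∈ m59b_reln O T8 κ t0 ln l) :
    g ∈ m59b_J O κ a l8 t0 ln :=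
  Ideal.subset_span (Or.inr (Set.mem_iUnion.mpr ⟨l, hg⟩))

/-- **one (LOC-8) step** at a scalar-hard prime `t`, for a minimal prime over `J`. -/
theorem m59lw_step8 (t : T8) (hl : 2 ≤ l8 t) (ε : ℤ) (hε : ε * ε = 1)
    (P : Ideal (m59b_P O T8 Tn κ)) (hP : P ∈ (m59b_J O κ a l8 t0 ln).minimalPrimes)
    (y y' : m59b_P O T8 Tn κ →+* O)
    (hC : ∀ c, y (C c) = c) (hC' : ∀ c, y' (C c) = c)
    (hX : ∀ i, m59b_w8 κ t i = 0 → y (X i) = y' (X i))
    (hPy : P ≤ RingHom.ker y)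
    (hr : m59b_r8 O κ a l8 t ∈ P)
    (ya : y (m59b_Phi8 O κ a t 0 0) = (ε : O) * (l8 t : O)) (yc : y (m59b_Phi8 O κ a t 1 0) = 0)
    (yd : y (m59b_Phi8 O κ a t 1 1) = (ε : O))
    (hN : ¬ ∀ i j : Fin 2, (X (Sum.inl (t, 0, i, j)) : m59b_P O T8 Tn κ) ∈ P)
    (hy'11 : y' (X (Sum.inl (t, 0, 0, 0))) = 0) (hy'21 : y' (X (Sum.inl (t, 0, 1, 0))) = 0)
    (hy'22 : y' (X (Sum.inl (t, 0, 1, 1))) = 0) :
    P ≤ RingHom.ker y' := by
  classical
  have hprime : P.IsPrime := hP.1.1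
  have hJP : m59b_J O κ a l8 t0 ln ≤ P := hP.1.2
  have hPhom : ∀ (k : ℕ) (f : m59b_P O T8 Tn κ), f ∈ P →
      weightedHomogeneousComponent (m59b_w8 κ t) k f ∈ P := fun k f hf =>
    m59bh_hom_of_minimal (m59b_w8 κ t) (m59b_w8_le_one κ t) _ P
      (m59b_J_stable8 O κ a l8 t0 ln t) hP f hf k
  have h81 : ∀ i j, m59b_w8 (Tn := Tn) κ t (Sum.inl (t, 1, i, j)) = 0 := by
    intro i j
    show (if t = t ∧ (1 : Fin 2) = 0 then 1 else 0) = 0
    simp
  have hΦ := m59b_Phi8_homog (m59b_w8 κ t) a t h81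
  -- the relations
  have e1 : (X (Sum.inl (t, 0, 0, 0)) + X (Sum.inl (t, 0, 1, 1)) : m59b_P O T8 Tn κ) ∈ P := by
    apply hJP
    apply m59lw_mem_J8 κ a l8 t0 ln t
    left; left; left
    simp [m59b_N8, Matrix.trace_fin_two]
  have e2 : (X (Sum.inl (t, 0, 0, 0)) * X (Sum.inl (t, 0, 1, 1)) -
      X (Sum.inl (t, 0, 0, 1)) * X (Sum.inl (t, 0, 1, 0)) : m59b_P O T8 Tn κ) ∈ P := by
    apply hJP
    apply m59lw_mem_J8 κ a l8 t0 ln t
    left; left; right
    simp [m59b_N8, Matrix.det_fin_two]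
  have eent : ∀ i j : Fin 2, ((m59b_Phi8 O κ a t * m59b_N8 O κ t -
      ((l8 t : ℕ) : m59b_P O T8 Tn κ) • (m59b_N8 O κ t * m59b_Phi8 O κ a t) :
      Matrix (Fin 2) (Fin 2) (m59b_P O T8 Tn κ)) i j) ∈ P := by
    intro i j
    apply hJP
    apply m59lw_mem_J8 κ a l8 t0 ln t
    left; right
    exact ⟨(i, j), rfl⟩
  have edet : m59b_Phi8 O κ a t 0 0 * m59b_Phi8 O κ a t 1 1 -
      m59b_Phi8 O κ a t 0 1 * m59b_Phi8 O κ a t 1 0 - ((l8 t : ℕ) : m59b_P O T8 Tn κ) ∈ P := by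
    apply hJP
    apply m59lw_mem_J8 κ a l8 t0 ln t
    right
    simp [Matrix.det_fin_two]
  have er : (m59b_Phi8 O κ a t 0 0 + m59b_Phi8 O κ a t 1 1) *
      (m59b_Phi8 O κ a t 0 0 + m59b_Phi8 O κ a t 1 1) -
      (((l8 t : ℕ) : m59b_P O T8 Tn κ) + 1) * (((l8 t : ℕ) : m59b_P O T8 Tn κ) + 1) ∈ P := by
    have : m59b_r8 O κ a l8 t = (m59b_Phi8 O κ a t 0 0 + m59b_Phi8 O κ a t 1 1) *
      (m59b_Phi8 O κ a t 0 0 + m59b_Phi8 O κ a t 1 1) -
      (((l8 t : ℕ) : m59b_P O T8 Tn κ) + 1) * (((l8 t : ℕ) : m59b_P O T8 Tn κ) + 1) := by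
      rw [m59b_r8, Matrix.trace_fin_two]; ring
    rw [← this]; exact hr
  have ynat : ∀ n : ℕ, y ((n : ℕ) : m59b_P O T8 Tn κ) = (n : O) := fun n => map_natCast y n
  have yint : ∀ n : ℤ, y ((n : ℤ) : m59b_P O T8 Tn κ) = (n : O) := fun n => map_intCast y n
  have hl0 : ((l8 t : ℕ) : O) ≠ 0 := by
    have : l8 t ≠ 0 := by omega
    exact_mod_cast this
  have hlm : ((l8 t : ℕ) : O) - 1 ≠ 0 := by
    intro h
    have h1 : ((l8 t : ℕ) : O) = ((1 : ℕ) : O) := by rw [Nat.cast_one]; exact sub_eq_zero.mp h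
    have := Nat.cast_injective h1
    omega
  have hlp : ((l8 t : ℕ) : O) + 1 ≠ 0 := by
    have : ((l8 t + 1 : ℕ) : O) ≠ 0 := by
      have : l8 t + 1 ≠ 0 := by omega
      exact_mod_cast this
    simpa using this
  have h2O : (2 : O) ≠ 0 := two_ne_zero
  refine m59l8_loc8 (m59b_w8 κ t) (m59b_w8_le_one κ t)
    (Sum.inl (t, 0, 0, 0)) (Sum.inl (t, 0, 0, 1)) (Sum.inl (t, 0, 1, 0)) (Sum.inl (t, 0, 1, 1))
    (m59lw_mark8 κ t) (by simp) (by simp) (by simp) (by simp) (by simp) (by simp)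
    P hPhom y y' (fun c => by rw [hC, hC']) hX (m59lw_local y hC) (m59lw_local y' hC') hPy
    (m59b_Phi8 O κ a t 0 0) (m59b_Phi8 O κ a t 0 1) (m59b_Phi8 O κ a t 1 0)
    (m59b_Phi8 O κ a t 1 1) ((l8 t : ℕ) : m59b_P O T8 Tn κ) ((ε : ℤ) : m59b_P O T8 Tn κ)
    (hΦ 0 0) (hΦ 1 0) (hΦ 1 1) (m59b_homog_natCast _ _) ?_ ?_ e1 e2 ?_ ?_ ?_ ?_ edet er
    ?_ yc ?_ ?_ ?_ ?_ h2O ?_ hy'11 hy'21 hy'22
  · have : ((ε : ℤ) : m59b_P O T8 Tn κ) = C ((ε : ℤ) : O) := by rw [map_intCast]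
    rw [this]
    intro d
    exact m59b_homog_C _ _
  · rw [← Int.cast_mul, hε, Int.cast_one]
  · have := eent 0 0
    simpa [m59b_N8, Matrix.mul_apply, Fin.sum_univ_two, Matrix.sub_apply, Matrix.smul_apply]
      using this
  · have := eent 0 1
    simpa [m59b_N8, Matrix.mul_apply, Fin.sum_univ_two, Matrix.sub_apply, Matrix.smul_apply]
      using this
  · have := eent 1 0
    simpa [m59b_N8, Matrix.mul_apply, Fin.sum_univ_two, Matrix.sub_apply, Matrix.smul_apply]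
      using this
  · have := eent 1 1
    simpa [m59b_N8, Matrix.mul_apply, Fin.sum_univ_two, Matrix.sub_apply, Matrix.smul_apply]
      using this
  · rw [ya, yint, ynat]
  · rw [yd, yint]
  · rw [ynat]; exact hl0
  · rw [ynat]; exact hlm
  · rw [ynat]; exact hlp
  · intro h
    apply hN
    intro i j
    fin_cases i <;> fin_cases j
    · exact h.1
    · exact h.2.1
    · exact h.2.2.1
    · exact h.2.2.2

/-- **one (LOC-norm) step** at a non-scalar prime `l` (companion coordinates). -/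
theorem m59lw_stepn (l : Tn)
    (P : Ideal (m59b_P O T8 Tn κ)) (hP : P ∈ (m59b_J O κ a l8 t0 ln).minimalPrimes)
    (y y' : m59b_P O T8 Tn κ →+* O)
    (hC : ∀ c, y (C c) = c) (hC' : ∀ c, y' (C c) = c)
    (hX : ∀ i, m59b_wn (T8 := T8) κ l i = 0 → y (X i) = y' (X i))
    (hPy : P ≤ RingHom.ker y) (hJy' : m59b_J O κ a l8 t0 ln ≤ RingHom.ker y')
    (hN : (X (Sum.inr (Sum.inl (l, 2))) : m59b_P O T8 Tn κ) ∉ P) :
    P ≤ RingHom.ker y' := by
  classical
  have hprime : P.IsPrime := hP.1.1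
  have hJP : m59b_J O κ a l8 t0 ln ≤ P := hP.1.2
  have hPhom : ∀ (k : ℕ) (f : m59b_P O T8 Tn κ), f ∈ P →
      weightedHomogeneousComponent (m59b_wn κ l) k f ∈ P := fun k f hf =>
    m59bh_hom_of_minimal (m59b_wn κ l) (m59b_wn_le_one κ l) _ P
      (m59b_J_stablen O κ a l8 t0 ln l) hP f hf k
  have hw0 : m59b_wn (T8 := T8) κ l (Sum.inr (Sum.inl (l, 0))) = 0 := by
    show (if l = l ∧ (0 : Fin 3) ≠ 0 then 1 else 0) = 0
    simp
  have hrel : (1 + ((ln l : ℕ) : m59b_P O T8 Tn κ)) * X (Sum.inr (Sum.inl (l, 1))) -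
      m59b_tn O T8 κ t0 l * X (Sum.inr (Sum.inl (l, 2))) ∈ m59b_J O κ a l8 t0 ln := by
    apply m59lw_mem_Jn κ a l8 t0 ln l
    left
    rfl
  have hc1 : IsWeightedHomogeneous (m59b_wn κ l) (m59b_tn O T8 κ t0 l) 0 :=
    m59b_homog_add _ (m59b_homog_C _ _) (m59b_homog_X' _ _ 0 hw0)
  have hc2 : IsWeightedHomogeneous (m59b_wn (T8 := T8) κ l)
      (1 + ((ln l : ℕ) : m59b_P O T8 Tn κ)) 0 :=
    m59b_homog_add _ (m59b_homog_one _) (m59b_homog_natCast _ _)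
  have yc1 : y (m59b_tn O T8 κ t0 l) = y' (m59b_tn O T8 κ t0 l) := by
    rw [m59b_tn, map_add, map_add, hC, hC', hX _ hw0]
  have yc2 : y (1 + ((ln l : ℕ) : m59b_P O T8 Tn κ)) = 1 + (ln l : O) := by
    rw [map_add, map_one, map_natCast]
  have yc2' : y' (1 + ((ln l : ℕ) : m59b_P O T8 Tn κ)) = 1 + (ln l : O) := by
    rw [map_add, map_one, map_natCast]
  refine m59lx_two (m59b_wn κ l) (m59b_wn_le_one κ l) (Sum.inr (Sum.inl (l, 1)))
    (Sum.inr (Sum.inl (l, 2))) (m59lw_markn κ l) (by simp) P hPhom y y'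
    (fun c => by rw [hC, hC']) hX (m59lw_local y hC) (m59lw_local y' hC') hPy
    (m59b_tn O T8 κ t0 l) (1 + ((ln l : ℕ) : m59b_P O T8 Tn κ)) hc1 hc2 (hJP hrel) ?_ ?_ hN
  · rw [yc2]
    have : ((1 + ln l : ℕ) : O) ≠ 0 := by
      have : 1 + ln l ≠ 0 := by omega
      exact_mod_cast this
    simpa using this
  · have h := hJy' hrel
    rw [RingHom.mem_ker, map_sub, map_mul, map_mul, yc2'] at h
    rw [yc2, yc1]
    linear_combination h

end steps

section walk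

variable {O : Type} [CommRing O] [IsDomain O] [IsNoetherianRing O] [IsLocalRing O] [CharZero O]
  {T8 Tn : Type} [Finite T8] [Finite Tn] (κ : Type) [Finite κ]
  (a : T8 → O) (l8 : T8 → ℕ) (t0 : Tn → O) (ln : Tn → ℕ)

/-- `r_b = (tr Φ_b)² - (l_b + 1)²`. -/
def m59lw_r (b : T8 ⊕ Tn) : m59b_P O T8 Tn κ :=
  Sum.elim (m59b_r8 O κ a l8) (m59b_rn O κ t0 ln) b

/-- `s_b = (l_b + 1) - ε_b tr Φ_b`. -/
def m59lw_s (ε8 : T8 → ℤ) (εn : Tn → ℤ) (b : T8 ⊕ Tn) : m59b_P O T8 Tn κ :=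
  Sum.elim (m59b_s8 O κ a l8 ε8) (m59b_sn O κ t0 ln εn) b

variable (O) in
/-- the `[NZ]` condition at the prime `b`: not all `N`-coordinates of `b` lie in `P`. -/
def m59lw_NZ (b : T8 ⊕ Tn) (P : Ideal (m59b_P O T8 Tn κ)) : Prop :=
  Sum.elim (fun t => ¬ ∀ i j : Fin 2, (X (Sum.inl (t, 0, i, j)) : m59b_P O T8 Tn κ) ∈ P)
    (fun l => (X (Sum.inr (Sum.inl (l, 2))) : m59b_P O T8 Tn κ) ∉ P) b

/-- **the walk** on `m59b_P / m59b_J`, in the language of primes of `m59b_P` over `m59b_J`. -/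
theorem m59lw_walk {m : ℕ} (ch : Fin m → T8 ⊕ Tn) (hch : Function.Injective ch)
    (hl8 : ∀ t, 2 ≤ l8 t) (ε8 : T8 → ℤ) (hε8 : ∀ t, ε8 t * ε8 t = 1)
    (εn : Tn → ℤ) (hεn : ∀ l, εn l * εn l = 1)
    (x : m59b_P O T8 Tn κ →+* O) (hxC : ∀ c, x (C c) = c)
    (hxJ : m59b_J O κ a l8 t0 ln ≤ RingHom.ker x)
    (hxa : ∀ t, x (m59b_Phi8 O κ a t 0 0) = (ε8 t : O) * (l8 t : O))
    (hxc : ∀ t, x (m59b_Phi8 O κ a t 1 0) = 0)
    (hxd : ∀ t, x (m59b_Phi8 O κ a t 1 1) = (ε8 t : O))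
    (hx11 : ∀ t, x (X (Sum.inl (t, 0, 0, 0))) = 0)
    (hx21 : ∀ t, x (X (Sum.inl (t, 0, 1, 0))) = 0)
    (hx22 : ∀ t, x (X (Sum.inl (t, 0, 1, 1))) = 0)
    (hxt : ∀ l, x (m59b_tn O T8 κ t0 l) = (εn l : O) * ((ln l : O) + 1)) :
    ∃ y : Fin (m + 1) → (m59b_P O T8 Tn κ →+* O),
      y (Fin.last m) = x ∧
      (∀ k, m59b_J O κ a l8 t0 ln ≤ RingHom.ker (y k)) ∧
      (∀ k c, y k (C c) = c) ∧
      (∀ (j : Fin m) i, m59lw_W κ ch j i ≠ 0 → y 0 (X i) = 0) ∧
      (∀ k : Fin m, y k.castSucc (m59lw_s κ a l8 t0 ln ε8 εn (ch k)) = 0) ∧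
      (∀ (k : Fin m) (P : Ideal (m59b_P O T8 Tn κ)),
        P ∈ (m59b_J O κ a l8 t0 ln).minimalPrimes →
        m59lw_r κ a l8 t0 ln (ch k) ∈ P → m59lw_NZ O κ (ch k) P →
        P ≤ RingHom.ker (y k.castSucc) → P ≤ RingHom.ker (y k.succ)) := by
  classical
  obtain ⟨y, hylast, hyJ, hyhom, hyC, hyne, hyzero⟩ :=
    m59lk_points' (m59lw_W κ ch) (m59b_J O κ a l8 t0 ln)
      (fun k f hf n => m59lw_J_stable κ ch a l8 t0 ln k f hf n) x hxJ
  -- values on the `Φ`-entries and on `t_l`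
  have hΦ : ∀ (k : Fin (m + 1)) (t : T8) (i j : Fin 2),
      y k (m59b_Phi8 O κ a t i j) = x (m59b_Phi8 O κ a t i j) := by
    intro k t i j
    apply hyhom
    intro j'
    exact m59b_Phi8_homog (m59lw_W κ ch j') a t (fun i' j'' => m59lw_W_inl1 κ ch j' t i' j'') i j
  have htn : ∀ (k : Fin (m + 1)) (l : Tn),
      y k (m59b_tn O T8 κ t0 l) = x (m59b_tn O T8 κ t0 l) := by
    intro k l
    apply hyhom
    intro j'
    exact m59b_homog_add _ (m59b_homog_C _ _) (m59b_homog_X' _ _ 0 (m59lw_W_n0 κ ch j' l))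
  -- agreement of consecutive points off the marked variables
  have hagree : ∀ (k : Fin m) i, m59lw_W κ ch k i = 0 → y k.castSucc (X i) = y k.succ (X i) := by
    intro k i hi
    have ht : m59lk_tail (m59lw_W κ ch) ((k.castSucc : Fin (m + 1)) : ℕ) i =
        m59lk_tail (m59lw_W κ ch) ((k.succ : Fin (m + 1)) : ℕ) i := by
      rw [Fin.val_castSucc, Fin.val_succ, m59lk_tail_succ (m59lw_W κ ch) k, Pi.add_apply, hi,
        zero_add]
    by_cases h0 : m59lk_tail (m59lw_W κ ch) ((k.succ : Fin (m + 1)) : ℕ) i = 0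
    · rw [hyzero k.castSucc i (ht.trans h0), hyzero k.succ i h0]
    · rw [hyne k.castSucc i (by rw [ht]; exact h0), hyne k.succ i h0]
  -- at the marked variables of step `k`, `y_{k+1} = x`
  have hsucc : ∀ (k : Fin m) i, m59lw_W κ ch k i ≠ 0 → y k.succ (X i) = x (X i) := by
    intro k i hi
    apply hyzero
    apply m59lk_tail_zero
    intro j hj
    rw [Fin.val_succ] at hj
    apply m59lw_disj κ ch hch k j i _ hi
    intro e
    rw [e] at hj
    omega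
  refine ⟨y, hylast, hyJ, fun k c => (hyC k c).trans (hxC c), ?_, ?_, ?_⟩
  · intro j i hi
    apply hyne
    exact m59lk_tail_pos (m59lw_W κ ch) _ j (Nat.zero_le _) i hi
  · intro k
    rcases hk : ch k with t | l
    · show y k.castSucc (m59b_s8 O κ a l8 ε8 t) = 0
      rw [m59b_s8, Matrix.trace_fin_two, map_sub, map_add, map_one, map_natCast, map_mul,
        map_intCast, map_add, hΦ, hΦ, hxa, hxd]
      have h := hε8 t
      have h' : ((ε8 t : ℤ) : O) * ((ε8 t : ℤ) : O) = 1 := by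
        rw [← Int.cast_mul, h, Int.cast_one]
      linear_combination (-((l8 t : O) + 1)) * h'
    · show y k.castSucc (m59b_sn O κ t0 ln εn l) = 0
      rw [m59b_sn, map_sub, map_add, map_one, map_natCast, map_mul, map_intCast, htn, hxt]
      have h := hεn l
      have h' : ((εn l : ℤ) : O) * ((εn l : ℤ) : O) = 1 := by
        rw [← Int.cast_mul, h, Int.cast_one]
      linear_combination (-((ln l : O) + 1)) * h'
  · intro k P hP hr hNZ hPy
    have hWk : m59lw_W κ ch k = Sum.elim (fun t => m59b_w8 κ t) (fun l => m59b_wn κ l) (ch k) :=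
      rfl
    rcases hk : ch k with t | l
    · rw [hk] at hr hNZ hWk
      have hWk' : m59lw_W κ ch k = m59b_w8 κ t := hWk
      refine m59lw_step8 κ a l8 t0 ln t (hl8 t) (ε8 t) (hε8 t) P hP (y k.castSucc) (y k.succ)
        (fun c => (hyC _ c).trans (hxC c)) (fun c => (hyC _ c).trans (hxC c)) ?_ hPy hr ?_ ?_ ?_
        hNZ ?_ ?_ ?_
      · intro i hi
        exact hagree k i (by rw [hWk']; exact hi)
      · rw [hΦ, hxa]
      · rw [hΦ, hxc]
      · rw [hΦ, hxd]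
      · rw [hsucc k _ (by rw [hWk', m59lw_w8_self]; exact one_ne_zero), hx11]
      · rw [hsucc k _ (by rw [hWk', m59lw_w8_self]; exact one_ne_zero), hx21]
      · rw [hsucc k _ (by rw [hWk', m59lw_w8_self]; exact one_ne_zero), hx22]
    · rw [hk] at hr hNZ hWk
      have hWk' : m59lw_W κ ch k = m59b_wn κ l := hWk
      refine m59lw_stepn κ a l8 t0 ln l P hP (y k.castSucc) (y k.succ)
        (fun c => (hyC _ c).trans (hxC c)) (fun c => (hyC _ c).trans (hxC c)) ?_ hPy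
        (hyJ k.succ) hNZ
      intro i hi
      exact hagree k i (by rw [hWk']; exact hi)

/-- a minimal prime of `𝒫 ⧸ J` pulls back to a minimal prime over `J`. -/
theorem m59lw_comap_minimal {A : Type*} [CommRing A] (J : Ideal A) (P : Ideal (A ⧸ J))
    (hP : P ∈ minimalPrimes (A ⧸ J)) : P.comap (Ideal.Quotient.mk J) ∈ J.minimalPrimes := by
  have h := Ideal.comap_minimalPrimes_eq_of_surjective
    (f := Ideal.Quotient.mk J) Ideal.Quotient.mk_surjective (⊥ : Ideal (A ⧸ J))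
  have h2 : (⊥ : Ideal (A ⧸ J)).comap (Ideal.Quotient.mk J) = J := by
    rw [← RingHom.ker_eq_comap_bot, Ideal.mk_ker]
  rw [h2] at h
  rw [h]
  exact Set.mem_image_of_mem _ hP

/-- **`hpts` for `m59b_R`**: the walk in the quotient ring. The `[NZ]` input is the hypothesis
`m59lw_NZ` on the pulled-back prime. -/
theorem m59lw_hpts {m : ℕ} (ch : Fin m → T8 ⊕ Tn) (hch : Function.Injective ch)
    (hl8 : ∀ t, 2 ≤ l8 t) (ε8 : T8 → ℤ) (hε8 : ∀ t, ε8 t * ε8 t = 1)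
    (εn : Tn → ℤ) (hεn : ∀ l, εn l * εn l = 1)
    (x : m59b_R O κ a l8 t0 ln →+* O)
    (hxC : ∀ c, x (Ideal.Quotient.mk _ (C c)) = c)
    (hxa : ∀ t, x (Ideal.Quotient.mk _ (m59b_Phi8 O κ a t 0 0)) = (ε8 t : O) * (l8 t : O))
    (hxc : ∀ t, x (Ideal.Quotient.mk _ (m59b_Phi8 O κ a t 1 0)) = 0)
    (hxd : ∀ t, x (Ideal.Quotient.mk _ (m59b_Phi8 O κ a t 1 1)) = (ε8 t : O))
    (hx11 : ∀ t, x (Ideal.Quotient.mk _ (X (Sum.inl (t, 0, 0, 0)))) = 0)
    (hx21 : ∀ t, x (Ideal.Quotient.mk _ (X (Sum.inl (t, 0, 1, 0)))) = 0)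
    (hx22 : ∀ t, x (Ideal.Quotient.mk _ (X (Sum.inl (t, 0, 1, 1)))) = 0)
    (hxt : ∀ l, x (Ideal.Quotient.mk _ (m59b_tn O T8 κ t0 l)) = (εn l : O) * ((ln l : O) + 1)) :
    ∃ y : Fin (m + 1) → (m59b_R O κ a l8 t0 ln →+* O),
      y (Fin.last m) = x ∧
      (∀ (j : Fin m) i, m59lw_W κ ch j i ≠ 0 → y 0 (Ideal.Quotient.mk _ (X i)) = 0) ∧
      (∀ k : Fin m,
        y k.castSucc (Ideal.Quotient.mk _ (m59lw_s κ a l8 t0 ln ε8 εn (ch k))) = 0) ∧
      (∀ (k : Fin m) (P : Ideal (m59b_R O κ a l8 t0 ln)),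
        P ∈ minimalPrimes (m59b_R O κ a l8 t0 ln) →
        Ideal.Quotient.mk _ (m59lw_r κ a l8 t0 ln (ch k)) ∈ P →
        m59lw_NZ O κ (ch k) (P.comap (Ideal.Quotient.mk _)) →
        P ≤ RingHom.ker (y k.castSucc) → P ≤ RingHom.ker (y k.succ)) := by
  classical
  set J := m59b_J O κ a l8 t0 ln with hJdef
  obtain ⟨y, hylast, hyJ, _, hy0, hys, hstep⟩ := m59lw_walk κ a l8 t0 ln ch hch hl8 ε8 hε8 εn hεn
    (x.comp (Ideal.Quotient.mk J)) hxC
    (by
      intro f hf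
      rw [RingHom.mem_ker, RingHom.comp_apply, Ideal.Quotient.eq_zero_iff_mem.mpr hf, map_zero])
    hxa hxc hxd hx11 hx21 hx22 hxt
  let yq : Fin (m + 1) → (m59b_R O κ a l8 t0 ln →+* O) := fun k =>
    Ideal.Quotient.lift J (y k) (fun f hf => hyJ k hf)
  have hyq : ∀ k f, yq k (Ideal.Quotient.mk J f) = y k f := fun k f =>
    Ideal.Quotient.lift_mk J (y k) _
  refine ⟨yq, ?_, ?_, ?_, ?_⟩
  · apply Ideal.Quotient.ringHom_ext
    ext f
    rw [RingHom.comp_apply, hyq, hylast]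
  · intro j i hi
    rw [hyq]
    exact hy0 j i hi
  · intro k
    rw [hyq]
    exact hys k
  · intro k P hP hr hNZ hPy
    have hPmin := m59lw_comap_minimal J P hP
    have h1 : P.comap (Ideal.Quotient.mk J) ≤ RingHom.ker (y k.castSucc) := by
      intro f hf
      have := hPy (Ideal.mem_comap.mp hf)
      rwa [RingHom.mem_ker, hyq] at this
    have h2 := hstep k _ hPmin (Ideal.mem_comap.mpr hr) hNZ h1
    intro g hg
    obtain ⟨f, rfl⟩ := Ideal.Quotient.mk_surjective g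
    rw [RingHom.mem_ker, hyq]
    exact h2 (Ideal.mem_comap.mpr hg)

end walk

end

end Fermat.Agent.M59
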