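import Mathlib
import Fermat.Agent.M59.Loc.Walk
import Fermat.Agent.M59.Loc.LocNorm
import Fermat.Agent.M59.Loc.DimP

/-!
# M59 / [B], case (III) : the walk on `Rp = m59b_P / (J + (a · v))`, with the step at `p`
(helper26; prefix `m59lp_`)

The primes of the walk are `b : (T8 ⊕ Tn) ⊕ Unit` (`Sum.inr ()` is the prime `p`); the weight of `p`
is the `v`-weight `m59lp_wv κ kv`.  Nothing in the ring-theoretic walk needs the `p`-step to be the
last one; the chain `ch : Fin m → (T8 ⊕ Tn) ⊕ Unit` is any injective chain (with or without `p`).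

* `m59lp_IsBlock w` : the weights for which `J`, `Jp` are stable (`m59lp_block_stable_J/_Jp`);
  the weights of the primes and all the tails of a chain are block weights;
* `m59lp_step8`, `m59lp_stepn` : twins of `m59lw_step8/_stepn` for a prime `P ⊇ J` stable under the
  components of the weight (instead of a minimal prime over `J`);
* `m59lp_stepp` : **the step at `p`** (`m59bl_loc_norm` with `x₀ = X kv`): `P` stable under the
  `v`-components, `X kv ∉ P`, `y (X kv) = 0`, `y = y'` off `X kv`, `P ≤ ker y ⟹ P ≤ ker y'`;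
* `m59lp_walk` : the points `y_0 … y_m` for primes minimal over ANY `J' ⊇ J` stable under the block
  weights;
* `m59lp_nz`, `m59lp_hpts` : [NZ] by dimension and **the `hpts` clause for `Rp`**.
-/

set_option autoImplicit false
set_option linter.unusedSectionVars false
set_option linter.style.haveILetI false

namespace Fermat.Agent.M59

open MvPowerSeries Matrix IsLocalRing Fermat.Agent.TW

noncomputable section

/-! ### block weights -/

section block

variable {T8 Tn : Type} {κ : Type}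

/-- the weights for which the relations of `m59b_J` are homogeneous: constant on the
`N`-coordinates of each scalar-hard prime, `0` on its `Φ`-coordinates, `0` on `t'_l`, the same value
on `n₁`, `n₂`; no condition on the free variables. -/
def m59lp_IsBlock (w : twb_r8_Idx T8 (m59b_Aux Tn κ) → ℕ) : Prop :=
  (∀ t i j, w (Sum.inl (t, 0, i, j)) = w (Sum.inl (t, 0, 0, 0))) ∧
  (∀ t i j, w (Sum.inl (t, 1, i, j)) = 0) ∧
  (∀ l, w (Sum.inr (Sum.inl (l, 0))) = 0) ∧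
  (∀ l, w (Sum.inr (Sum.inl (l, 2))) = w (Sum.inr (Sum.inl (l, 1))))

theorem m59lp_block_stable_J {O : Type} [CommRing O] (a : T8 → O) (l8 : T8 → ℕ) (t0 : Tn → O)
    (ln : Tn → ℕ) {w : twb_r8_Idx T8 (m59b_Aux Tn κ) → ℕ} (hw : m59lp_IsBlock w)
    (f : m59b_P O T8 Tn κ) (hf : f ∈ m59b_J O κ a l8 t0 ln) (k : ℕ) :
    weightedHomogeneousComponent w k f ∈ m59b_J O κ a l8 t0 ln :=
  m59b_J_stable O κ w a l8 t0 ln (fun t => w (Sum.inl (t, 0, 0, 0)))
    (fun l => w (Sum.inr (Sum.inl (l, 1)))) hw.1 hw.2.1 hw.2.2.1 (fun _ => rfl) hw.2.2.2 f hf k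

theorem m59lp_block_stable_Jp {O : Type} [CommRing O] (a : T8 → O) (l8 : T8 → ℕ) (t0 : Tn → O)
    (ln : Tn → ℕ) (ka kv : κ) {w : twb_r8_Idx T8 (m59b_Aux Tn κ) → ℕ} (hw : m59lp_IsBlock w)
    (f : m59b_P O T8 Tn κ) (hf : f ∈ m59lp_Jp O κ a l8 t0 ln ka kv) (k : ℕ) :
    weightedHomogeneousComponent w k f ∈ m59lp_Jp O κ a l8 t0 ln ka kv :=
  m59lp_Jp_stable O κ w a l8 t0 ln ka kv (fun t => w (Sum.inl (t, 0, 0, 0)))
    (fun l => w (Sum.inr (Sum.inl (l, 1)))) hw.1 hw.2.1 hw.2.2.1 (fun _ => rfl) hw.2.2.2 f hf k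

theorem m59lp_block_w8 (t : T8) : m59lp_IsBlock (m59b_w8 (Tn := Tn) κ t) := by
  classical
  refine ⟨fun t' i j => rfl, fun t' i j => ?_, fun l => rfl, fun l => rfl⟩
  show (if t' = t ∧ (1 : Fin 2) = 0 then 1 else 0) = 0
  simp

theorem m59lp_block_wn (l : Tn) : m59lp_IsBlock (m59b_wn (T8 := T8) κ l) := by
  classical
  refine ⟨fun t' i j => rfl, fun t' i j => rfl, fun l' => ?_, fun l' => ?_⟩
  · show (if l' = l ∧ (0 : Fin 3) ≠ 0 then 1 else 0) = 0
    simp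
  · show (if l' = l ∧ (2 : Fin 3) ≠ 0 then 1 else 0) = (if l' = l ∧ (1 : Fin 3) ≠ 0 then 1 else 0)
    by_cases h : l' = l <;> simp [h]

theorem m59lp_block_wv (kv : κ) : m59lp_IsBlock (m59lp_wv (T8 := T8) (Tn := Tn) κ kv) :=
  ⟨fun _ _ _ => rfl, fun _ _ _ => rfl, fun _ => rfl, fun _ => rfl⟩

/-- the tails of a family of block weights are block weights. -/
theorem m59lp_block_tail {M : ℕ} (W : Fin M → twb_r8_Idx T8 (m59b_Aux Tn κ) → ℕ)
    (hW : ∀ j, m59lp_IsBlock (W j)) (k : ℕ) : m59lp_IsBlock (m59lk_tail W k) := by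
  refine ⟨fun t i j => ?_, fun t i j => ?_, fun l => ?_, fun l => ?_⟩
  · unfold m59lk_tail
    refine Finset.sum_congr rfl fun j' _ => ?_
    rw [(hW j').1 t i j]
  · apply m59lk_tail_zero
    intro j' _
    exact (hW j').2.1 t i j
  · apply m59lk_tail_zero
    intro j' _
    exact (hW j').2.2.1 l
  · unfold m59lk_tail
    refine Finset.sum_congr rfl fun j' _ => ?_
    rw [(hW j').2.2.2 l]

end block

/-! ### the primes of the walk, with `p` -/

section primes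

variable {T8 Tn : Type} (κ : Type) (kv : κ)

/-- the weight of the prime `b : (T8 ⊕ Tn) ⊕ Unit` (`Sum.inr ()` is `p`, with the `v`-weight). -/
def m59lp_Wb : (T8 ⊕ Tn) ⊕ Unit → twb_r8_Idx T8 (m59b_Aux Tn κ) → ℕ :=
  Sum.elim (Sum.elim (fun t => m59b_w8 κ t) (fun l => m59b_wn κ l)) (fun _ => m59lp_wv κ kv)

theorem m59lp_Wb_le_one (b : (T8 ⊕ Tn) ⊕ Unit) (i : twb_r8_Idx T8 (m59b_Aux Tn κ)) :
    m59lp_Wb κ kv b i ≤ 1 := by
  rcases b with (t | l) | u
  · exact m59b_w8_le_one κ t i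
  · exact m59b_wn_le_one κ l i
  · exact m59lp_wv_le_one kv i

theorem m59lp_Wb_block (b : (T8 ⊕ Tn) ⊕ Unit) : m59lp_IsBlock (m59lp_Wb (T8 := T8) (Tn := Tn) κ kv b) := by
  rcases b with (t | l) | u
  · exact m59lp_block_w8 t
  · exact m59lp_block_wn l
  · exact m59lp_block_wv kv

/-- the weights of distinct primes are disjoint. -/
theorem m59lp_Wb_disj (b b' : (T8 ⊕ Tn) ⊕ Unit) (hne : b ≠ b')
    (i : twb_r8_Idx T8 (m59b_Aux Tn κ)) (hi : m59lp_Wb κ kv b i ≠ 0) : m59lp_Wb κ kv b' i = 0 := by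
  rcases b with (t | l) | u
  · obtain ⟨a', b'', rfl⟩ := m59lw_w8_ne_zero κ hi
    rcases b' with (t' | l') | u'
    · have : t ≠ t' := fun e => hne (by rw [e])
      exact m59lw_w8_other (Tn := Tn) κ this 0 a' b''
    · rfl
    · rfl
  · rcases b' with (t' | l') | u'
    · rcases m59lw_wn_ne_zero κ hi with rfl | rfl <;> rfl
    · have : l ≠ l' := fun e => hne (by rw [e])
      rcases m59lw_wn_ne_zero κ hi with rfl | rfl
      · exact m59lw_wn_other (T8 := T8) κ this 1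
      · exact m59lw_wn_other (T8 := T8) κ this 2
    · rcases m59lw_wn_ne_zero κ hi with rfl | rfl <;> rfl
  · have hi' := m59lp_wv_ne_zero (T8 := T8) (Tn := Tn) hi
    subst hi'
    rcases b' with (t' | l') | u'
    · rfl
    · rfl
    · exact absurd rfl hne

end primes

/-! ### the steps, for a prime `P ⊇ J` stable under the components of the weight -/

section steps

variable {O : Type} [CommRing O] [IsDomain O] [IsNoetherianRing O] [IsLocalRing O] [CharZero O]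
  {T8 Tn : Type} [Finite T8] [Finite Tn] (κ : Type) [Finite κ]
  (a : T8 → O) (l8 : T8 → ℕ) (t0 : Tn → O) (ln : Tn → ℕ)

/-- **one (LOC-8) step** at a scalar-hard prime `t` (twin of `m59lw_step8`). -/
theorem m59lp_step8 (t : T8) (hl : 2 ≤ l8 t) (ε : ℤ) (hε : ε * ε = 1)
    (P : Ideal (m59b_P O T8 Tn κ)) (hprime : P.IsPrime) (hJP : m59b_J O κ a l8 t0 ln ≤ P)
    (hPhom : ∀ (k : ℕ) (f : m59b_P O T8 Tn κ), f ∈ P →
      weightedHomogeneousComponent (m59b_w8 κ t) k f ∈ P)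
    (y y' : m59b_P O T8 Tn κ →+* O)
    (hC : ∀ c, y (C c) = c) (hC' : ∀ c, y' (C c) = c)
    (hX : ∀ i, m59b_w8 κ t i = 0 → y (X i) = y' (X i))
    (hPy : P ≤ RingHom.ker y)
    (hr : m59b_r8 O κ a l8 t ∈ P)
    (ya : y (m59b_Phi8 O κ a t 0 0) = (ε : O) * (l8 t : O)) (yc : y (m59b_Phi8 O κ a t 1 0) = 0)
    (yd : y (m59b_Phi8 O κ a t 1 1) = (ε : O))
    (hN : ¬ ∀ i j : Fin 2, (X (Sum.inl (t, 0, i, j)) : m59b_P O T8 Tn κ) ∈ P)
    (hy'11 : y' (X (Sum.inl (t, 0, 0, 0))) = 0) (hy'21 : y' (X (Sum.inl (t, 0, 1, 0))) = 0)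
    (hy'22 : y' (X (Sum.inl (t, 0, 1, 1))) = 0) :
    P ≤ RingHom.ker y' := by
  classical
  have h81 : ∀ i j, m59b_w8 (Tn := Tn) κ t (Sum.inl (t, 1, i, j)) = 0 := by
    intro i j
    show (if t = t ∧ (1 : Fin 2) = 0 then 1 else 0) = 0
    simp
  have hΦ := m59b_Phi8_homog (m59b_w8 κ t) a t h81
  -- the relations
  have e1 : (X (Sum.inl (t, 0, 0, 0)) + X (Sum.inl (t, 0, 1, 1)) : m59b_P O T8 Tn κ) ∈ P := by
    apply hJP
    apply m59lw_mem_J8 κ a l8 t0 ln t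
    left; left; left
    simp [m59b_N8, Matrix.trace_fin_two]
  have e2 : (X (Sum.inl (t, 0, 0, 0)) * X (Sum.inl (t, 0, 1, 1)) -
      X (Sum.inl (t, 0, 0, 1)) * X (Sum.inl (t, 0, 1, 0)) : m59b_P O T8 Tn κ) ∈ P := by
    apply hJP
    apply m59lw_mem_J8 κ a l8 t0 ln t
    left; left; right
    simp [m59b_N8, Matrix.det_fin_two]
  have eent : ∀ i j : Fin 2, ((m59b_Phi8 O κ a t * m59b_N8 O κ t -
      ((l8 t : ℕ) : m59b_P O T8 Tn κ) • (m59b_N8 O κ t * m59b_Phi8 O κ a t) :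
      Matrix (Fin 2) (Fin 2) (m59b_P O T8 Tn κ)) i j) ∈ P := by
    intro i j
    apply hJP
    apply m59lw_mem_J8 κ a l8 t0 ln t
    left; right
    exact ⟨(i, j), rfl⟩
  have edet : m59b_Phi8 O κ a t 0 0 * m59b_Phi8 O κ a t 1 1 -
      m59b_Phi8 O κ a t 0 1 * m59b_Phi8 O κ a t 1 0 - ((l8 t : ℕ) : m59b_P O T8 Tn κ) ∈ P := by
    apply hJP
    apply m59lw_mem_J8 κ a l8 t0 ln t
    right
    simp [Matrix.det_fin_two]
  have er : (m59b_Phi8 O κ a t 0 0 + m59b_Phi8 O κ a t 1 1) *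
      (m59b_Phi8 O κ a t 0 0 + m59b_Phi8 O κ a t 1 1) -
      (((l8 t : ℕ) : m59b_P O T8 Tn κ) + 1) * (((l8 t : ℕ) : m59b_P O T8 Tn κ) + 1) ∈ P := by
    have : m59b_r8 O κ a l8 t = (m59b_Phi8 O κ a t 0 0 + m59b_Phi8 O κ a t 1 1) *
      (m59b_Phi8 O κ a t 0 0 + m59b_Phi8 O κ a t 1 1) -
      (((l8 t : ℕ) : m59b_P O T8 Tn κ) + 1) * (((l8 t : ℕ) : m59b_P O T8 Tn κ) + 1) := by
      rw [m59b_r8, Matrix.trace_fin_two]; ring
    rw [← this]; exact hr
  have ynat : ∀ n : ℕ, y ((n : ℕ) : m59b_P O T8 Tn κ) = (n : O) := fun n => map_natCast y n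
  have yint : ∀ n : ℤ, y ((n : ℤ) : m59b_P O T8 Tn κ) = (n : O) := fun n => map_intCast y n
  have hl0 : ((l8 t : ℕ) : O) ≠ 0 := by
    have : l8 t ≠ 0 := by omega
    exact_mod_cast this
  have hlm : ((l8 t : ℕ) : O) - 1 ≠ 0 := by
    intro h
    have h1 : ((l8 t : ℕ) : O) = ((1 : ℕ) : O) := by rw [Nat.cast_one]; exact sub_eq_zero.mp h
    have := Nat.cast_injective h1
    omega
  have hlp : ((l8 t : ℕ) : O) + 1 ≠ 0 := by
    have : ((l8 t + 1 : ℕ) : O) ≠ 0 := by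
      have : l8 t + 1 ≠ 0 := by omega
      exact_mod_cast this
    simpa using this
  have h2O : (2 : O) ≠ 0 := two_ne_zero
  refine m59l8_loc8 (m59b_w8 κ t) (m59b_w8_le_one κ t)
    (Sum.inl (t, 0, 0, 0)) (Sum.inl (t, 0, 0, 1)) (Sum.inl (t, 0, 1, 0)) (Sum.inl (t, 0, 1, 1))
    (m59lw_mark8 κ t) (by simp) (by simp) (by simp) (by simp) (by simp) (by simp)
    P hPhom y y' (fun c => by rw [hC, hC']) hX (m59lw_local y hC) (m59lw_local y' hC') hPy
    (m59b_Phi8 O κ a t 0 0) (m59b_Phi8 O κ a t 0 1) (m59b_Phi8 O κ a t 1 0)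
    (m59b_Phi8 O κ a t 1 1) ((l8 t : ℕ) : m59b_P O T8 Tn κ) ((ε : ℤ) : m59b_P O T8 Tn κ)
    (hΦ 0 0) (hΦ 1 0) (hΦ 1 1) (m59b_homog_natCast _ _) ?_ ?_ e1 e2 ?_ ?_ ?_ ?_ edet er
    ?_ yc ?_ ?_ ?_ ?_ h2O ?_ hy'11 hy'21 hy'22
  · have : ((ε : ℤ) : m59b_P O T8 Tn κ) = C ((ε : ℤ) : O) := by rw [map_intCast]
    rw [this]
    intro d
    exact m59b_homog_C _ _
  · rw [← Int.cast_mul, hε, Int.cast_one]
  · have := eent 0 0
    simpa [m59b_N8, Matrix.mul_apply, Fin.sum_univ_two, Matrix.sub_apply, Matrix.smul_apply]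
      using this
  · have := eent 0 1
    simpa [m59b_N8, Matrix.mul_apply, Fin.sum_univ_two, Matrix.sub_apply, Matrix.smul_apply]
      using this
  · have := eent 1 0
    simpa [m59b_N8, Matrix.mul_apply, Fin.sum_univ_two, Matrix.sub_apply, Matrix.smul_apply]
      using this
  · have := eent 1 1
    simpa [m59b_N8, Matrix.mul_apply, Fin.sum_univ_two, Matrix.sub_apply, Matrix.smul_apply]
      using this
  · rw [ya, yint, ynat]
  · rw [yd, yint]
  · rw [ynat]; exact hl0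
  · rw [ynat]; exact hlm
  · rw [ynat]; exact hlp
  · intro h
    apply hN
    intro i j
    fin_cases i <;> fin_cases j
    · exact h.1
    · exact h.2.1
    · exact h.2.2.1
    · exact h.2.2.2

/-- **one (LOC-norm) step** at a non-scalar prime `l` (twin of `m59lw_stepn`). -/
theorem m59lp_stepn (l : Tn)
    (P : Ideal (m59b_P O T8 Tn κ)) (hprime : P.IsPrime) (hJP : m59b_J O κ a l8 t0 ln ≤ P)
    (hPhom : ∀ (k : ℕ) (f : m59b_P O T8 Tn κ), f ∈ P →
      weightedHomogeneousComponent (m59b_wn κ l) k f ∈ P)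
    (y y' : m59b_P O T8 Tn κ →+* O)
    (hC : ∀ c, y (C c) = c) (hC' : ∀ c, y' (C c) = c)
    (hX : ∀ i, m59b_wn (T8 := T8) κ l i = 0 → y (X i) = y' (X i))
    (hPy : P ≤ RingHom.ker y) (hJy' : m59b_J O κ a l8 t0 ln ≤ RingHom.ker y')
    (hN : (X (Sum.inr (Sum.inl (l, 2))) : m59b_P O T8 Tn κ) ∉ P) :
    P ≤ RingHom.ker y' := by
  classical
  have hw0 : m59b_wn (T8 := T8) κ l (Sum.inr (Sum.inl (l, 0))) = 0 := by
    show (if l = l ∧ (0 : Fin 3) ≠ 0 then 1 else 0) = 0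
    simp
  have hrel : (1 + ((ln l : ℕ) : m59b_P O T8 Tn κ)) * X (Sum.inr (Sum.inl (l, 1))) -
      m59b_tn O T8 κ t0 l * X (Sum.inr (Sum.inl (l, 2))) ∈ m59b_J O κ a l8 t0 ln := by
    apply m59lw_mem_Jn κ a l8 t0 ln l
    left
    rfl
  have hc1 : IsWeightedHomogeneous (m59b_wn κ l) (m59b_tn O T8 κ t0 l) 0 :=
    m59b_homog_add _ (m59b_homog_C _ _) (m59b_homog_X' _ _ 0 hw0)
  have hc2 : IsWeightedHomogeneous (m59b_wn (T8 := T8) κ l)
      (1 + ((ln l : ℕ) : m59b_P O T8 Tn κ)) 0 :=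
    m59b_homog_add _ (m59b_homog_one _) (m59b_homog_natCast _ _)
  have yc1 : y (m59b_tn O T8 κ t0 l) = y' (m59b_tn O T8 κ t0 l) := by
    rw [m59b_tn, map_add, map_add, hC, hC', hX _ hw0]
  have yc2 : y (1 + ((ln l : ℕ) : m59b_P O T8 Tn κ)) = 1 + (ln l : O) := by
    rw [map_add, map_one, map_natCast]
  have yc2' : y' (1 + ((ln l : ℕ) : m59b_P O T8 Tn κ)) = 1 + (ln l : O) := by
    rw [map_add, map_one, map_natCast]
  refine m59lx_two (m59b_wn κ l) (m59b_wn_le_one κ l) (Sum.inr (Sum.inl (l, 1)))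
    (Sum.inr (Sum.inl (l, 2))) (m59lw_markn κ l) (by simp) P hPhom y y'
    (fun c => by rw [hC, hC']) hX (m59lw_local y hC) (m59lw_local y' hC') hPy
    (m59b_tn O T8 κ t0 l) (1 + ((ln l : ℕ) : m59b_P O T8 Tn κ)) hc1 hc2 (hJP hrel) ?_ ?_ hN
  · rw [yc2]
    have : ((1 + ln l : ℕ) : O) ≠ 0 := by
      have : 1 + ln l ≠ 0 := by omega
      exact_mod_cast this
    simpa using this
  · have h := hJy' hrel
    rw [RingHom.mem_ker, map_sub, map_mul, map_mul, yc2'] at h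
    rw [yc2, yc1]
    linear_combination h

omit [IsDomain O] [CharZero O] in
/-- **the step at `p`** ((LOC-norm) with `x₀ = X kv`, helper4's `m59bl_loc_norm`). -/
theorem m59lp_stepp (kv : κ)
    (P : Ideal (m59b_P O T8 Tn κ)) (hprime : P.IsPrime)
    (hPhom : ∀ (k : ℕ) (f : m59b_P O T8 Tn κ), f ∈ P →
      weightedHomogeneousComponent (m59lp_wv κ kv) k f ∈ P)
    (y y' : m59b_P O T8 Tn κ →+* O)
    (hC : ∀ c, y (C c) = c) (hC' : ∀ c, y' (C c) = c)
    (hX : ∀ i, m59lp_wv (T8 := T8) (Tn := Tn) κ kv i = 0 → y (X i) = y' (X i))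
    (hy0 : y (X (Sum.inr (Sum.inr kv))) = 0)
    (hPy : P ≤ RingHom.ker y)
    (hN : (X (Sum.inr (Sum.inr kv)) : m59b_P O T8 Tn κ) ∉ P) :
    P ≤ RingHom.ker y' := by
  classical
  let yA : m59b_P O T8 Tn κ →ₐ[O] O :=
    { y with
      commutes' := fun c => by
        rw [MvPowerSeries.algebraMap_apply, Algebra.algebraMap_self, RingHom.id_apply]
        exact hC c }
  let yA' : m59b_P O T8 Tn κ →ₐ[O] O :=
    { y' with
      commutes' := fun c => by
        rw [MvPowerSeries.algebraMap_apply, Algebra.algebraMap_self, RingHom.id_apply]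
        exact hC' c }
  have hyA : ∀ f, yA f = y f := fun _ => rfl
  have hyA' : ∀ f, yA' f = y' f := fun _ => rfl
  have hw : m59bl_w (Sum.inr (Sum.inr kv) : twb_r8_Idx T8 (m59b_Aux Tn κ)) = m59lp_wv κ kv := by
    funext i
    unfold m59bl_w
    by_cases hi : i = Sum.inr (Sum.inr kv)
    · rw [if_pos hi, hi, m59lp_wv_self]
    · rw [if_neg hi]
      have h1 := m59lp_wv_le_one (T8 := T8) (Tn := Tn) kv i
      have h2 : m59lp_wv (T8 := T8) (Tn := Tn) κ kv i ≠ 1 := fun h =>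
        hi ((m59lp_wv_eq_one_iff kv i).mp h)
      omega
  have key := m59bl_loc_norm (O := O) (Sum.inr (Sum.inr kv) : twb_r8_Idx T8 (m59b_Aux Tn κ)) P
    hprime (by rw [hw]; exact fun f hf k => hPhom k f hf) hN yA yA'
    (fun s => by rw [hyA]; exact m59lw_local y hC s)
    (fun s => by rw [hyA']; exact m59lw_local y' hC' s)
    (fun s hs => by
      rw [hyA, hyA']
      apply hX
      by_contra h
      exact hs (m59lp_wv_ne_zero h))
    (by rw [hyA]; exact hy0)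
    (fun f hf => by rw [hyA]; exact hPy hf)
  intro f hf
  rw [RingHom.mem_ker, ← hyA']
  exact key f hf

end steps

/-! ### the walk -/

section walk

variable {O : Type} [CommRing O] [IsDomain O] [IsNoetherianRing O] [IsLocalRing O] [CharZero O]
  {T8 Tn : Type} [Finite T8] [Finite Tn] (κ : Type) [Finite κ]
  (a : T8 → O) (l8 : T8 → ℕ) (t0 : Tn → O) (ln : Tn → ℕ)

/-- `r_b`, with `r_p := rp` (in use: `rp = (a (2 + a)) ^ e`, `a = X ka`). -/
def m59lp_r (rp : m59b_P O T8 Tn κ) (b : (T8 ⊕ Tn) ⊕ Unit) : m59b_P O T8 Tn κ :=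
  Sum.elim (m59lw_r κ a l8 t0 ln) (fun _ => rp) b

/-- `s_b`, with `s_p := sp`. -/
def m59lp_s (ε8 : T8 → ℤ) (εn : Tn → ℤ) (sp : m59b_P O T8 Tn κ) (b : (T8 ⊕ Tn) ⊕ Unit) :
    m59b_P O T8 Tn κ :=
  Sum.elim (m59lw_s κ a l8 t0 ln ε8 εn) (fun _ => sp) b

variable (O) in
/-- the `[NZ]` condition at the prime `b`; at `p`: `X kv ∉ P`. -/
def m59lp_NZ (kv : κ) (b : (T8 ⊕ Tn) ⊕ Unit) (P : Ideal (m59b_P O T8 Tn κ)) : Prop :=
  Sum.elim (fun b' => m59lw_NZ O κ b' P)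
    (fun _ => (X (Sum.inr (Sum.inr kv)) : m59b_P O T8 Tn κ) ∉ P) b

/-- **the walk**, in the language of primes of `m59b_P` minimal over an ideal `J' ⊇ J` stable under
the components of the block weights (`J' = m59b_J`, `J' = m59lp_Jp`). -/
theorem m59lp_walk {m : ℕ} (ch : Fin m → (T8 ⊕ Tn) ⊕ Unit) (hch : Function.Injective ch)
    (ka kv : κ) (hne : ka ≠ kv)
    (J' : Ideal (m59b_P O T8 Tn κ)) (hJJ' : m59b_J O κ a l8 t0 ln ≤ J')
    (hJ'st : ∀ w : twb_r8_Idx T8 (m59b_Aux Tn κ) → ℕ, m59lp_IsBlock w →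
      ∀ f ∈ J', ∀ n, weightedHomogeneousComponent w n f ∈ J')
    (hl8 : ∀ t, 2 ≤ l8 t) (ε8 : T8 → ℤ) (hε8 : ∀ t, ε8 t * ε8 t = 1)
    (εn : Tn → ℤ) (hεn : ∀ l, εn l * εn l = 1)
    (rp sp : m59b_P O T8 Tn κ)
    (hsp : ∀ y : m59b_P O T8 Tn κ →+* O, (∀ c, y (C c) = c) →
      y (X (Sum.inr (Sum.inr ka))) = 0 → y sp = 0)
    (x : m59b_P O T8 Tn κ →+* O) (hxC : ∀ c, x (C c) = c)
    (hxJ : J' ≤ RingHom.ker x)
    (hxa : ∀ t, x (m59b_Phi8 O κ a t 0 0) = (ε8 t : O) * (l8 t : O))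
    (hxc : ∀ t, x (m59b_Phi8 O κ a t 1 0) = 0)
    (hxd : ∀ t, x (m59b_Phi8 O κ a t 1 1) = (ε8 t : O))
    (hx11 : ∀ t, x (X (Sum.inl (t, 0, 0, 0))) = 0)
    (hx21 : ∀ t, x (X (Sum.inl (t, 0, 1, 0))) = 0)
    (hx22 : ∀ t, x (X (Sum.inl (t, 0, 1, 1))) = 0)
    (hxt : ∀ l, x (m59b_tn O T8 κ t0 l) = (εn l : O) * ((ln l : O) + 1))
    (hxka : (∃ k, ch k = Sum.inr ()) → x (X (Sum.inr (Sum.inr ka))) = 0) :
    ∃ y : Fin (m + 1) → (m59b_P O T8 Tn κ →+* O),
      y (Fin.last m) = x ∧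
      (∀ k, J' ≤ RingHom.ker (y k)) ∧
      (∀ k c, y k (C c) = c) ∧
      (∀ (j : Fin m) i, m59lp_Wb κ kv (ch j) i ≠ 0 → y 0 (X i) = 0) ∧
      (∀ k i, (∀ j : Fin m, m59lp_Wb κ kv (ch j) i = 0) → y k (X i) = x (X i)) ∧
      (∀ k : Fin m, y k.castSucc (m59lp_s κ a l8 t0 ln ε8 εn sp (ch k)) = 0) ∧
      (∀ (k : Fin m) (P : Ideal (m59b_P O T8 Tn κ)),
        P ∈ J'.minimalPrimes →
        m59lp_r κ a l8 t0 ln rp (ch k) ∈ P → m59lp_NZ O κ kv (ch k) P →
        P ≤ RingHom.ker (y k.castSucc) → P ≤ RingHom.ker (y k.succ)) := by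
  classical
  set W : Fin m → twb_r8_Idx T8 (m59b_Aux Tn κ) → ℕ := fun k => m59lp_Wb κ kv (ch k) with hWdef
  have hWblock : ∀ j, m59lp_IsBlock (W j) := fun j => m59lp_Wb_block κ kv (ch j)
  obtain ⟨y, hylast, hyJ, hyhom, hyC, hyne, hyzero⟩ :=
    m59lk_points' W J'
      (fun k f hf n => hJ'st _ (m59lp_block_tail W hWblock k) f hf n) x hxJ
  -- values on the `Φ`-entries and on `t_l`
  have hΦ : ∀ (k : Fin (m + 1)) (t : T8) (i j : Fin 2),
      y k (m59b_Phi8 O κ a t i j) = x (m59b_Phi8 O κ a t i j) := by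
    intro k t i j
    apply hyhom
    intro j'
    exact m59b_Phi8_homog (W j') a t (fun i' j'' => (hWblock j').2.1 t i' j'') i j
  have htn : ∀ (k : Fin (m + 1)) (l : Tn),
      y k (m59b_tn O T8 κ t0 l) = x (m59b_tn O T8 κ t0 l) := by
    intro k l
    apply hyhom
    intro j'
    exact m59b_homog_add _ (m59b_homog_C _ _) (m59b_homog_X' _ _ 0 ((hWblock j').2.2.1 l))
  -- variables not marked by the chain
  have hfree : ∀ (k : Fin (m + 1)) i, (∀ j : Fin m, W j i = 0) → y k (X i) = x (X i) := by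
    intro k i hi
    apply hyzero
    apply m59lk_tail_zero
    intro j _
    exact hi j
  -- agreement of consecutive points off the marked variables
  have hagree : ∀ (k : Fin m) i, W k i = 0 → y k.castSucc (X i) = y k.succ (X i) := by
    intro k i hi
    have ht : m59lk_tail W ((k.castSucc : Fin (m + 1)) : ℕ) i =
        m59lk_tail W ((k.succ : Fin (m + 1)) : ℕ) i := by
      rw [Fin.val_castSucc, Fin.val_succ, m59lk_tail_succ W k, Pi.add_apply, hi, zero_add]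
    by_cases h0 : m59lk_tail W ((k.succ : Fin (m + 1)) : ℕ) i = 0
    · rw [hyzero k.castSucc i (ht.trans h0), hyzero k.succ i h0]
    · rw [hyne k.castSucc i (by rw [ht]; exact h0), hyne k.succ i h0]
  -- at the marked variables of step `k`, `y_{k+1} = x`
  have hsucc : ∀ (k : Fin m) i, W k i ≠ 0 → y k.succ (X i) = x (X i) := by
    intro k i hi
    apply hyzero
    apply m59lk_tail_zero
    intro j hj
    rw [Fin.val_succ] at hj
    apply m59lp_Wb_disj κ kv (ch k) (ch j) _ i hi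
    intro e
    have := hch e
    rw [this] at hj
    omega
  -- at the marked variables of step `k`, `y_k = 0`
  have hcast : ∀ (k : Fin m) i, W k i ≠ 0 → y k.castSucc (X i) = 0 := by
    intro k i hi
    apply hyne
    exact m59lk_tail_pos W _ k (by rw [Fin.val_castSucc]) i hi
  refine ⟨y, hylast, hyJ, fun k c => (hyC k c).trans (hxC c), ?_, hfree, ?_, ?_⟩
  · intro j i hi
    apply hyne
    exact m59lk_tail_pos W _ j (Nat.zero_le _) i hi
  · intro k
    rcases hk : ch k with (t | l) | u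
    · show y k.castSucc (m59b_s8 O κ a l8 ε8 t) = 0
      rw [m59b_s8, Matrix.trace_fin_two, map_sub, map_add, map_one, map_natCast, map_mul,
        map_intCast, map_add, hΦ, hΦ, hxa, hxd]
      have h := hε8 t
      have h' : ((ε8 t : ℤ) : O) * ((ε8 t : ℤ) : O) = 1 := by
        rw [← Int.cast_mul, h, Int.cast_one]
      linear_combination (-((l8 t : O) + 1)) * h'
    · show y k.castSucc (m59b_sn O κ t0 ln εn l) = 0
      rw [m59b_sn, map_sub, map_add, map_one, map_natCast, map_mul, map_intCast, htn, hxt]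
      have h := hεn l
      have h' : ((εn l : ℤ) : O) * ((εn l : ℤ) : O) = 1 := by
        rw [← Int.cast_mul, h, Int.cast_one]
      linear_combination (-((ln l : O) + 1)) * h'
    · show y k.castSucc sp = 0
      apply hsp _ (fun c => (hyC _ c).trans (hxC c))
      rw [hfree, hxka ⟨k, hk⟩]
      intro j
      show m59lp_Wb κ kv (ch j) (Sum.inr (Sum.inr ka)) = 0
      rcases ch j with (t' | l') | u'
      · rfl
      · rfl
      · exact m59lp_wv_other (T8 := T8) (Tn := Tn) hne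
  · intro k P hP hr hNZ hPy
    have hprime : P.IsPrime := hP.1.1
    have hJP : m59b_J O κ a l8 t0 ln ≤ P := hJJ'.trans hP.1.2
    have hPhom : ∀ (n : ℕ) (f : m59b_P O T8 Tn κ), f ∈ P →
        weightedHomogeneousComponent (W k) n f ∈ P := fun n f hf =>
      m59bh_hom_of_minimal (W k) (m59lp_Wb_le_one κ kv (ch k)) J' P
        (hJ'st _ (hWblock k)) hP f hf n
    have hWk : W k = m59lp_Wb κ kv (ch k) := rfl
    rcases hk : ch k with (t | l) | u
    · rw [hk] at hr hNZ hWk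
      have hWk' : W k = m59b_w8 κ t := hWk
      rw [hWk'] at hPhom
      refine m59lp_step8 κ a l8 t0 ln t (hl8 t) (ε8 t) (hε8 t) P hprime hJP hPhom
        (y k.castSucc) (y k.succ)
        (fun c => (hyC _ c).trans (hxC c)) (fun c => (hyC _ c).trans (hxC c)) ?_ hPy hr ?_ ?_ ?_
        hNZ ?_ ?_ ?_
      · intro i hi
        exact hagree k i (by rw [hWk']; exact hi)
      · rw [hΦ, hxa]
      · rw [hΦ, hxc]
      · rw [hΦ, hxd]
      · rw [hsucc k _ (by rw [hWk', m59lw_w8_self]; exact one_ne_zero), hx11]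
      · rw [hsucc k _ (by rw [hWk', m59lw_w8_self]; exact one_ne_zero), hx21]
      · rw [hsucc k _ (by rw [hWk', m59lw_w8_self]; exact one_ne_zero), hx22]
    · rw [hk] at hr hNZ hWk
      have hWk' : W k = m59b_wn κ l := hWk
      rw [hWk'] at hPhom
      refine m59lp_stepn κ a l8 t0 ln l P hprime hJP hPhom (y k.castSucc) (y k.succ)
        (fun c => (hyC _ c).trans (hxC c)) (fun c => (hyC _ c).trans (hxC c)) ?_ hPy
        (hJJ'.trans (hyJ k.succ)) hNZ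
      intro i hi
      exact hagree k i (by rw [hWk']; exact hi)
    · rw [hk] at hr hNZ hWk
      have hWk' : W k = m59lp_wv κ kv := hWk
      rw [hWk'] at hPhom
      refine m59lp_stepp κ kv P hprime hPhom (y k.castSucc) (y k.succ)
        (fun c => (hyC _ c).trans (hxC c)) (fun c => (hyC _ c).trans (hxC c)) ?_ ?_ hPy hNZ
      · intro i hi
        exact hagree k i (by rw [hWk']; exact hi)
      · exact hcast k _ (by rw [hWk', m59lp_wv_self]; exact one_ne_zero)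

end walk

/-! ### [NZ] by dimension and `hpts` for `Rp` -/

section NZ

variable {O : Type} [CommRing O] [IsDomain O] [IsNoetherianRing O] [IsLocalRing O] [CharZero O]
  {T8 Tn : Type} [Fintype T8] [Fintype Tn] {κ : Type} [Fintype κ]

/-- the elements `u` of the chain datum in case (III): all the `N`-coordinates, and `v = X kv`. -/
def m59lp_uRp (a : T8 → O) (l8 : T8 → ℕ) (t0 : Tn → O) (ln : Tn → ℕ) (ka kv : κ) :
    ((T8 × Fin 2 × Fin 2) ⊕ (Tn × Fin 2)) ⊕ Unit → m59lp_Rp O κ a l8 t0 ln ka kv :=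
  Sum.elim (fun i => Ideal.Quotient.mk _ (m59b_u O κ i))
    (fun _ => Ideal.Quotient.mk _ (X (Sum.inr (Sum.inr kv))))

/-- `(X ka * (X ka + 2)) ^ e` (`= (z'² - 1) ^ e` for `z' = z₀ (1 + a)`, `z₀² = 1`) lies in a prime
only if `X ka` does. -/
theorem m59lp_rp_mem (h2 : IsUnit (2 : O)) (ka : κ) (e : ℕ) (P : Ideal (m59b_P O T8 Tn κ))
    (hP : P.IsPrime)
    (h : ((X (Sum.inr (Sum.inr ka)) : m59b_P O T8 Tn κ) * (X (Sum.inr (Sum.inr ka)) + 2)) ^ e ∈ P) :
    (X (Sum.inr (Sum.inr ka)) : m59b_P O T8 Tn κ) ∈ P := by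
  have h1 := hP.mem_of_pow_mem e h
  rcases hP.mem_or_mem h1 with h3 | h3
  · exact h3
  · exfalso
    apply hP.ne_top
    apply Ideal.eq_top_of_isUnit_mem _ h3
    rw [MvPowerSeries.isUnit_iff_constantCoeff, map_add, constantCoeff_X, zero_add]
    have : (2 : m59b_P O T8 Tn κ) = C (2 : O) := by
      rw [show (2 : O) = ((2 : ℕ) : O) by norm_num, map_natCast]; norm_num
    rw [this, constantCoeff_C]
    exact h2

/-- **[NZ] by dimension, case (III)**: a prime of `Rp` of coheight `≥ |κ| + 3 |T8| + |Tn|`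
containing `r_b` satisfies `[NZ]` at `b` (at `p`: it does not contain `X kv`). -/
theorem m59lp_nz {lam : O} (hmax : maximalIdeal O = Ideal.span {lam}) {p : ℕ} (hp : p.Prime)
    (hp2 : p ≠ 2) (hpl : (p : O) ∈ Ideal.span {lam}) (h2 : IsUnit (2 : O))
    (a : T8 → O) (l8 : T8 → ℕ) (t0 : Tn → O) (ln : Tn → ℕ) (hl8 : ∀ t, l8 t % p = 1)
    (han : ∀ t, a t ^ 2 - (l8 t : O) ∈ maximalIdeal O) (ka kv : κ) (hne : ka ≠ kv)
    (rp : m59b_P O T8 Tn κ)
    (hrp : ∀ Q : Ideal (m59b_P O T8 Tn κ), Q.IsPrime → rp ∈ Q →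
      (X (Sum.inr (Sum.inr ka)) : m59b_P O T8 Tn κ) ∈ Q)
    (P : Ideal (m59lp_Rp O κ a l8 t0 ln ka kv)) (hP : P.IsPrime)
    (hdim : ((Fintype.card κ + 3 * Fintype.card T8 + Fintype.card Tn : ℕ) : WithBot ℕ∞) ≤
      ringKrullDim (m59lp_Rp O κ a l8 t0 ln ka kv ⧸ P))
    (b : (T8 ⊕ Tn) ⊕ Unit)
    (hr : Ideal.Quotient.mk (m59lp_Jp O κ a l8 t0 ln ka kv) (m59lp_r κ a l8 t0 ln rp b) ∈ P) :
    m59lp_NZ O κ kv b (P.comap (Ideal.Quotient.mk (m59lp_Jp O κ a l8 t0 ln ka kv))) := by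
  set J := m59lp_Jp O κ a l8 t0 ln ka kv with hJ
  set Pt := P.comap (Ideal.Quotient.mk J) with hPt
  haveI : Pt.IsPrime := hP.comap _
  have hJPt : J ≤ Pt := by
    intro f hf
    rw [hPt, Ideal.mem_comap, Ideal.Quotient.eq_zero_iff_mem.mpr hf]
    exact zero_mem _
  have hJ0Pt : m59b_J O κ a l8 t0 ln ≤ Pt := (m59lp_J_le_Jp O a l8 t0 ln ka kv).trans hJPt
  -- `dim (Rp ⧸ P) ≤ dim (𝒫 ⧸ P̃)`
  let g : m59b_P O T8 Tn κ ⧸ Pt →+* m59lp_Rp O κ a l8 t0 ln ka kv ⧸ P :=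
    Ideal.Quotient.lift Pt ((Ideal.Quotient.mk P).comp (Ideal.Quotient.mk J)) (by
      intro f hf
      rw [RingHom.comp_apply, Ideal.Quotient.eq_zero_iff_mem]
      exact hf)
  have hsurj : Function.Surjective g := by
    intro y
    obtain ⟨y', rfl⟩ := Ideal.Quotient.mk_surjective y
    obtain ⟨f, rfl⟩ := Ideal.Quotient.mk_surjective y'
    exact ⟨Ideal.Quotient.mk Pt f, rfl⟩
  have hle : ringKrullDim (m59lp_Rp O κ a l8 t0 ln ka kv ⧸ P) ≤
      ringKrullDim (m59b_P O T8 Tn κ ⧸ Pt) := ringKrullDim_le_of_surjective g hsurj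
  have hc2 := m59lp_two_le_card ka kv hne
  -- contradiction from a bound one less
  have hcontra : ringKrullDim (m59b_P O T8 Tn κ ⧸ Pt) ≤
      ((Fintype.card κ - 1 + 3 * Fintype.card T8 + Fintype.card Tn : ℕ) : WithBot ℕ∞) → False := by
    intro h
    have h3 := (hdim.trans hle).trans h
    have h4 : Fintype.card κ + 3 * Fintype.card T8 + Fintype.card Tn ≤
        Fintype.card κ - 1 + 3 * Fintype.card T8 + Fintype.card Tn := by
      exact_mod_cast h3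
    omega
  rcases b with (t | l) | u
  · show ¬ ∀ i j : Fin 2, (X (Sum.inl (t, 0, i, j)) : m59b_P O T8 Tn κ) ∈ Pt
    intro hN
    exact hcontra (m59lp_dim_nz8 hmax hp hp2 hpl h2 a l8 t0 ln hl8 han ka kv hne Pt hJPt t hN hr)
  · show (X (Sum.inr (Sum.inl (l, 2))) : m59b_P O T8 Tn κ) ∉ Pt
    intro hn2
    have hn2' : m59b_n2 O T8 κ l ∈ Pt := hn2
    have hn1 : m59b_n1 O T8 κ l ∈ Pt := by
      have h3 : m59b_n1 O T8 κ l ^ 2 - m59b_n2 O T8 κ l ^ 2 ∈ Pt :=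
        hJ0Pt (Ideal.subset_span (Or.inr (Set.mem_iUnion.mpr ⟨l, Or.inr (Or.inr rfl)⟩)))
      have h4 : m59b_n1 O T8 κ l ^ 2 ∈ Pt := by
        have := add_mem h3 (Ideal.pow_mem_of_mem Pt hn2' 2 (by norm_num))
        rwa [sub_add_cancel] at this
      exact Ideal.IsPrime.mem_of_pow_mem inferInstance 2 h4
    exact hcontra
      (m59lp_dim_nzn hmax hp hp2 hpl h2 a l8 t0 ln hl8 han ka kv hne Pt hJPt l hn1 hn2' hr)
  · show (X (Sum.inr (Sum.inr kv)) : m59b_P O T8 Tn κ) ∉ Pt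
    intro hkv
    have hka : (X (Sum.inr (Sum.inr ka)) : m59b_P O T8 Tn κ) ∈ Pt := hrp Pt inferInstance hr
    exact hcontra
      (m59lp_dim_nzp hmax hp hp2 hpl h2 a l8 t0 ln hl8 han ka kv hne Pt hJ0Pt hka hkv)

/-- **the `hpts` clause of `m59d_chain_patch` for `Rp`** (case (III)): `ch` an injective chain
through all the primes of `B' = T8 ⊔ Tn`, with or without the prime `p = Sum.inr ()`.
If `p` is in the chain the point has `a = 0` (`hxka`); if not, it has `v = 0` (`hxkv`). -/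
theorem m59lp_hpts {lam : O} (hmax : maximalIdeal O = Ideal.span {lam}) {p : ℕ} (hp : p.Prime)
    (hp2 : p ≠ 2) (hpl : (p : O) ∈ Ideal.span {lam}) (h2 : IsUnit (2 : O))
    (a : T8 → O) (l8 : T8 → ℕ) (t0 : Tn → O) (ln : Tn → ℕ) (hl8 : ∀ t, l8 t % p = 1)
    (han : ∀ t, a t ^ 2 - (l8 t : O) ∈ maximalIdeal O) (ka kv : κ) (hne : ka ≠ kv)
    {m : ℕ} (ch : Fin m → (T8 ⊕ Tn) ⊕ Unit) (hch : Function.Injective ch)
    (hsurj : ∀ b : T8 ⊕ Tn, ∃ k, ch k = Sum.inl b) (hl82 : ∀ t, 2 ≤ l8 t)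
    (ε8 : T8 → ℤ) (hε8 : ∀ t, ε8 t * ε8 t = 1) (εn : Tn → ℤ) (hεn : ∀ l, εn l * εn l = 1)
    (dS : WithBot ℕ∞)
    (hdS : ((Fintype.card κ + 3 * Fintype.card T8 + Fintype.card Tn : ℕ) : WithBot ℕ∞) ≤ dS)
    (ee : Fin m → ℕ)
    (rp sp : m59b_P O T8 Tn κ)
    (hrp : ∀ Q : Ideal (m59b_P O T8 Tn κ), Q.IsPrime → rp ∈ Q →
      (X (Sum.inr (Sum.inr ka)) : m59b_P O T8 Tn κ) ∈ Q)
    (hsp : ∀ y : m59b_P O T8 Tn κ →+* O, (∀ c, y (C c) = c) →
      y (X (Sum.inr (Sum.inr ka))) = 0 → y sp = 0)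
    (x : m59lp_Rp O κ a l8 t0 ln ka kv →+* O)
    (hxC : ∀ c, x (Ideal.Quotient.mk _ (C c)) = c)
    (hxa : ∀ t, x (Ideal.Quotient.mk _ (m59b_Phi8 O κ a t 0 0)) = (ε8 t : O) * (l8 t : O))
    (hxc : ∀ t, x (Ideal.Quotient.mk _ (m59b_Phi8 O κ a t 1 0)) = 0)
    (hxd : ∀ t, x (Ideal.Quotient.mk _ (m59b_Phi8 O κ a t 1 1)) = (ε8 t : O))
    (hx11 : ∀ t, x (Ideal.Quotient.mk _ (X (Sum.inl (t, 0, 0, 0)))) = 0)
    (hx21 : ∀ t, x (Ideal.Quotient.mk _ (X (Sum.inl (t, 0, 1, 0)))) = 0)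
    (hx22 : ∀ t, x (Ideal.Quotient.mk _ (X (Sum.inl (t, 0, 1, 1)))) = 0)
    (hxt : ∀ l, x (Ideal.Quotient.mk _ (m59b_tn O T8 κ t0 l)) = (εn l : O) * ((ln l : O) + 1))
    (hxka : (∃ k, ch k = Sum.inr ()) → x (Ideal.Quotient.mk _ (X (Sum.inr (Sum.inr ka)))) = 0)
    (hxkv : (∀ k, ch k ≠ Sum.inr ()) → x (Ideal.Quotient.mk _ (X (Sum.inr (Sum.inr kv)))) = 0) :
    ∃ y : Fin (m + 1) → (m59lp_Rp O κ a l8 t0 ln ka kv →+* O),
      y (Fin.last m) = x ∧
      (∀ i, y 0 (m59lp_uRp a l8 t0 ln ka kv i) = 0) ∧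
      (∀ k : Fin m,
        y k.castSucc (Ideal.Quotient.mk _ (m59lp_s κ a l8 t0 ln ε8 εn sp (ch k))) = 0) ∧
      (∀ (k : Fin m) (P : Ideal (m59lp_Rp O κ a l8 t0 ln ka kv)),
        P ∈ minimalPrimes (m59lp_Rp O κ a l8 t0 ln ka kv) →
        dS ≤ ringKrullDim (m59lp_Rp O κ a l8 t0 ln ka kv ⧸ P) →
        Ideal.Quotient.mk _ (m59lp_r κ a l8 t0 ln rp (ch k)) ^ ee k ∈ P →
        P ≤ RingHom.ker (y k.castSucc) → P ≤ RingHom.ker (y k.succ)) := by
  classical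
  set J := m59lp_Jp O κ a l8 t0 ln ka kv with hJdef
  obtain ⟨y, hylast, hyJ, _, hy0, hyfree, hys, hstep⟩ :=
    m59lp_walk κ a l8 t0 ln ch hch ka kv hne J (m59lp_J_le_Jp O a l8 t0 ln ka kv)
      (fun w hw f hf n => m59lp_block_stable_Jp a l8 t0 ln ka kv hw f hf n)
      hl82 ε8 hε8 εn hεn rp sp hsp
      (x.comp (Ideal.Quotient.mk J)) hxC
      (by
        intro f hf
        rw [RingHom.mem_ker, RingHom.comp_apply, Ideal.Quotient.eq_zero_iff_mem.mpr hf, map_zero])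
      hxa hxc hxd hx11 hx21 hx22 hxt hxka
  let yq : Fin (m + 1) → (m59lp_Rp O κ a l8 t0 ln ka kv →+* O) := fun k =>
    Ideal.Quotient.lift J (y k) (fun f hf => hyJ k hf)
  have hyq : ∀ k f, yq k (Ideal.Quotient.mk J f) = y k f := fun k f =>
    Ideal.Quotient.lift_mk J (y k) _
  refine ⟨yq, ?_, ?_, ?_, ?_⟩
  · apply Ideal.Quotient.ringHom_ext
    ext f
    rw [RingHom.comp_apply, hyq, hylast]
  · rintro ((⟨t, i, j⟩ | ⟨l, i⟩) | u)
    · obtain ⟨k, hk⟩ := hsurj (Sum.inl t)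
      show yq 0 (Ideal.Quotient.mk J (X (Sum.inl (t, 0, i, j)))) = 0
      rw [hyq]
      refine hy0 k _ ?_
      rw [hk]
      show m59b_w8 (Tn := Tn) κ t (Sum.inl (t, 0, i, j)) ≠ 0
      rw [m59lw_w8_self]
      exact one_ne_zero
    · obtain ⟨k, hk⟩ := hsurj (Sum.inr l)
      show yq 0 (Ideal.Quotient.mk J (X (Sum.inr (Sum.inl (l, Fin.succ i))))) = 0
      rw [hyq]
      refine hy0 k _ ?_
      rw [hk]
      show m59b_wn (T8 := T8) κ l (Sum.inr (Sum.inl (l, Fin.succ i))) ≠ 0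
      fin_cases i
      · exact (m59lw_wn_self1 κ l).symm ▸ one_ne_zero
      · exact (m59lw_wn_self2 κ l).symm ▸ one_ne_zero
    · show yq 0 (Ideal.Quotient.mk J (X (Sum.inr (Sum.inr kv)))) = 0
      rw [hyq]
      by_cases hpc : ∃ k, ch k = Sum.inr ()
      · obtain ⟨k, hk⟩ := hpc
        refine hy0 k _ ?_
        rw [hk]
        show m59lp_wv (T8 := T8) (Tn := Tn) κ kv (Sum.inr (Sum.inr kv)) ≠ 0
        rw [m59lp_wv_self]
        exact one_ne_zero
      · have hpc' : ∀ k, ch k ≠ Sum.inr () := fun k hk => hpc ⟨k, hk⟩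
        rw [hyfree]
        · exact hxkv hpc'
        · intro j
          rcases hj : ch j with (t' | l') | u'
          · rfl
          · rfl
          · exact absurd hj (hpc' j)
  · intro k
    rw [hyq]
    exact hys k
  · intro k P hP hdim hr hPy
    have hprime : P.IsPrime := hP.1.1
    have hr' : Ideal.Quotient.mk J (m59lp_r κ a l8 t0 ln rp (ch k)) ∈ P :=
      hprime.mem_of_pow_mem (ee k) hr
    have hNZ := m59lp_nz hmax hp hp2 hpl h2 a l8 t0 ln hl8 han ka kv hne rp hrp P hprime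
      (hdS.trans hdim) (ch k) hr'
    have hPmin := m59lw_comap_minimal J P hP
    have h1 : P.comap (Ideal.Quotient.mk J) ≤ RingHom.ker (y k.castSucc) := by
      intro f hf
      have := hPy (Ideal.mem_comap.mp hf)
      rwa [RingHom.mem_ker, hyq] at this
    have h2' := hstep k _ hPmin (Ideal.mem_comap.mpr hr') hNZ h1
    intro g hg
    obtain ⟨f, rfl⟩ := Ideal.Quotient.mk_surjective g
    rw [RingHom.mem_ker, hyq]
    exact h2' (Ideal.mem_comap.mpr hg)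

end NZ

end

end Fermat.Agent.M59
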