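import Mathlib
import Fermat.Agent.M59.Loc.Irr
import Fermat.Agent.M59.Loc.WalkP

/-!
# M59 / [B], case (III) : (B2) for `Rp`, irreducibility of `Rp / (u, v)` (helper26; prefix `m59lp_`)

`I' = m59bi_I + (X kv) = Jp + (u) + (v)` is a PRIME ideal of `m59b_P`: it is the kernel of
`kill_v ∘ ψ`, `ψ` helper4's idempotent endomorphism `m59bi_psi` (`ker ψ = J + (u)`), `kill_v` the
endomorphism `X kv ↦ 0` (`m59bl_kill`).

* `m59lp_sub_kill_mem` : `g - kill_{x₀} g ∈ (X x₀)`;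
* `m59lp_I`, `m59lp_I_isPrime`;
* `m59lp_span_uRp_isPrime` : `(u, v)` is a prime ideal of `Rp` (`u, v = m59lp_uRp`);
* `m59lp_irr` : **(B2)** `(nilradical (Rp ⧸ span (range m59lp_uRp))).IsPrime`;
* `m59lp_dim_uRp_le` : `dim (Rp ⧸ (u, v)) ≤ |κ| + 3 |T8| + |Tn|` (the `hudim` of
  `m59d_hbase_of_irr`).
-/

set_option autoImplicit false
set_option linter.unusedSectionVars false
set_option linter.style.haveILetI false

namespace Fermat.Agent.M59

open MvPowerSeries Matrix IsLocalRing Fermat.Agent.TW Fermat.Agent.S56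

noncomputable section

section Kill

variable {σ : Type*} [DecidableEq σ] {O : Type*} [CommRing O] (x₀ : σ)

/-- `g - kill_{x₀} g` is divisible by `X x₀`. -/
theorem m59lp_sub_kill_mem (g : MvPowerSeries σ O) :
    g - m59bl_kill x₀ g ∈ (Ideal.span {X x₀} : Ideal (MvPowerSeries σ O)) := by
  rw [Ideal.mem_span_singleton, X_dvd_iff]
  intro d hd
  rw [map_sub, m59bl_coeff_kill, if_pos hd, sub_self]

end Kill

section Irr

variable {O : Type} [CommRing O] [IsLocalRing O] [IsNoetherianRing O]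
  [IsAdicComplete (maximalIdeal O) O] {T8 Tn κ : Type} [Finite T8] [Finite Tn] [Finite κ]

/-- the ideal `I' = J + (u) + (v)` (it contains `a · v`). -/
def m59lp_I (a : T8 → O) (l8 : T8 → ℕ) (t0 : Tn → O) (ln : Tn → ℕ) (kv : κ) :
    Ideal (m59b_P O T8 Tn κ) :=
  m59bi_I κ a l8 t0 ln ⊔ Ideal.span {(X (Sum.inr (Sum.inr kv)) : m59b_P O T8 Tn κ)}

theorem m59lp_Jp_le_I (a : T8 → O) (l8 : T8 → ℕ) (t0 : Tn → O) (ln : Tn → ℕ) (ka kv : κ) :
    m59lp_Jp O κ a l8 t0 ln ka kv ≤ m59lp_I a l8 t0 ln kv := by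
  rw [m59lp_Jp_le_iff]
  refine ⟨le_trans (le_sup_left : m59b_J O κ a l8 t0 ln ≤ m59bi_I κ a l8 t0 ln) le_sup_left, ?_⟩
  apply Ideal.mem_sup_right
  exact Ideal.mul_mem_left _ _ (Ideal.subset_span rfl)

variable [IsDomain O]

open Classical in
/-- **`I' = J + (u) + (v)` is prime.** -/
theorem m59lp_I_isPrime (a : T8 → O) (l8 : T8 → ℕ) (t0 : Tn → O) (ln : Tn → ℕ) (kv : κ)
    (ha : ∀ t, IsUnit (a t)) (han : ∀ t, a t ^ 2 - (l8 t : O) ∈ maximalIdeal O) :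
    (m59lp_I a l8 t0 ln kv).IsPrime := by
  set ψ := m59bi_psi Tn κ a l8 ha han with hψ
  set kl : m59b_P O T8 Tn κ →ₐ[O] m59b_P O T8 Tn κ :=
    m59bl_kill (Sum.inr (Sum.inr kv) : twb_r8_Idx T8 (m59b_Aux Tn κ)) with hkl
  have h : m59lp_I a l8 t0 ln kv = RingHom.ker (kl.comp ψ).toRingHom := by
    apply le_antisymm
    · rw [m59lp_I, sup_le_iff]
      constructor
      · intro f hf
        have h1 := m59bi_le_ker a l8 t0 ln ha han hf
        rw [RingHom.mem_ker] at h1 ⊢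
        have h2 : ψ f = 0 := h1
        show kl (ψ f) = 0
        rw [h2, map_zero]
      · rw [Ideal.span_le, Set.singleton_subset_iff, SetLike.mem_coe, RingHom.mem_ker]
        show kl (ψ (X (Sum.inr (Sum.inr kv)))) = 0
        rw [hψ, m59bi_psi_X]
        show kl (X (Sum.inr (Sum.inr kv))) = 0
        rw [hkl, m59bl_kill_X, if_pos rfl]
    · intro f hf
      rw [RingHom.mem_ker] at hf
      have hf' : kl (ψ f) = 0 := hf
      have h1 : f - ψ f ∈ m59bi_I κ a l8 t0 ln := m59bi_sub_psi_mem a l8 t0 ln ha han f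
      have h2 : ψ f - kl (ψ f) ∈
          (Ideal.span {X (Sum.inr (Sum.inr kv))} : Ideal (m59b_P O T8 Tn κ)) :=
        m59lp_sub_kill_mem _ _
      rw [hf', sub_zero] at h2
      have h3 : f = (f - ψ f) + ψ f := by ring
      rw [h3]
      exact Submodule.add_mem_sup h1 h2
  rw [h]
  haveI : IsDomain (m59b_P O T8 Tn κ) := NoZeroDivisors.to_isDomain _
  exact RingHom.ker_isPrime _

/-- `(u, v)` is a prime ideal of `Rp`. -/
theorem m59lp_span_uRp_isPrime (a : T8 → O) (l8 : T8 → ℕ) (t0 : Tn → O) (ln : Tn → ℕ)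
    (ka kv : κ) (ha : ∀ t, IsUnit (a t)) (han : ∀ t, a t ^ 2 - (l8 t : O) ∈ maximalIdeal O) :
    (Ideal.span (Set.range (m59lp_uRp a l8 t0 ln ka kv))).IsPrime := by
  have hI := m59lp_I_isPrime (κ := κ) a l8 t0 ln kv ha han
  have hker : RingHom.ker (Ideal.Quotient.mk (m59lp_Jp O κ a l8 t0 ln ka kv)) ≤
      m59lp_I a l8 t0 ln kv := by
    rw [Ideal.mk_ker]
    exact m59lp_Jp_le_I a l8 t0 ln ka kv
  have h := Ideal.map_isPrime_of_surjective
    (f := Ideal.Quotient.mk (m59lp_Jp O κ a l8 t0 ln ka kv)) Ideal.Quotient.mk_surjective hker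
  have e : (m59lp_I a l8 t0 ln kv).map (Ideal.Quotient.mk (m59lp_Jp O κ a l8 t0 ln ka kv)) =
      Ideal.span (Set.range (m59lp_uRp a l8 t0 ln ka kv)) := by
    have hJ0 : (m59b_J O κ a l8 t0 ln).map
        (Ideal.Quotient.mk (m59lp_Jp O κ a l8 t0 ln ka kv)) = ⊥ := by
      rw [eq_bot_iff, Ideal.map_le_iff_le_comap]
      intro f hf
      rw [Ideal.mem_comap, Ideal.mem_bot, Ideal.Quotient.eq_zero_iff_mem]
      exact m59lp_J_le_Jp O a l8 t0 ln ka kv hf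
    rw [m59lp_I, m59bi_I, Ideal.map_sup, Ideal.map_sup, hJ0, bot_sup_eq, Ideal.map_span,
      Ideal.map_span, ← Ideal.span_union]
    congr 1
    ext x
    constructor
    · rintro (⟨_, ⟨i, rfl⟩, rfl⟩ | ⟨_, hx, rfl⟩)
      · exact ⟨Sum.inl i, rfl⟩
      · rw [Set.mem_singleton_iff] at hx
        rw [hx]
        exact ⟨Sum.inr (), rfl⟩
    · rintro ⟨i | u, rfl⟩
      · exact Or.inl ⟨_, ⟨i, rfl⟩, rfl⟩
      · exact Or.inr ⟨_, rfl, rfl⟩
  rwa [e] at h

/-- **(B2), case (III)**: the nilradical of `Rp / (u, v)` is prime (the ring is a domain). -/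
theorem m59lp_irr (a : T8 → O) (l8 : T8 → ℕ) (t0 : Tn → O) (ln : Tn → ℕ) (ka kv : κ)
    (ha : ∀ t, IsUnit (a t)) (han : ∀ t, a t ^ 2 - (l8 t : O) ∈ maximalIdeal O) :
    (nilradical (m59lp_Rp O κ a l8 t0 ln ka kv ⧸
      Ideal.span (Set.range (m59lp_uRp a l8 t0 ln ka kv)))).IsPrime := by
  haveI := m59lp_span_uRp_isPrime (κ := κ) a l8 t0 ln ka kv ha han
  haveI : IsDomain (m59lp_Rp O κ a l8 t0 ln ka kv ⧸
      Ideal.span (Set.range (m59lp_uRp a l8 t0 ln ka kv))) :=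
    Ideal.Quotient.isDomain _
  have hbot : (⊥ : Ideal (m59lp_Rp O κ a l8 t0 ln ka kv ⧸
      Ideal.span (Set.range (m59lp_uRp a l8 t0 ln ka kv)))).IsPrime := Ideal.isPrime_bot
  show (Ideal.radical ⊥).IsPrime
  rw [Ideal.IsPrime.radical hbot]
  exact hbot

end Irr

section Dim

variable {O : Type} [CommRing O] [IsLocalRing O] [IsNoetherianRing O] {T8 Tn κ : Type}
  [Fintype T8] [Fintype Tn] [Fintype κ]

/-- the dimension of any quotient of `Rp` is `≤ |κ| + 3 |T8| + |Tn|` (the `hudim` of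
`m59d_hbase_of_irr` for `Rp ⧸ (u, v)`). -/
theorem m59lp_dim_Rp_quot_le {lam : O} (hmax : maximalIdeal O = Ideal.span {lam}) {p : ℕ}
    (hp : p.Prime) (hp2 : p ≠ 2) (hpl : (p : O) ∈ Ideal.span {lam}) (h2 : IsUnit (2 : O))
    (a : T8 → O) (l8 : T8 → ℕ) (t0 : Tn → O) (ln : Tn → ℕ) (hl8 : ∀ t, l8 t % p = 1)
    (han : ∀ t, a t ^ 2 - (l8 t : O) ∈ maximalIdeal O) (ka kv : κ) (hne : ka ≠ kv)
    (K : Ideal (m59lp_Rp O κ a l8 t0 ln ka kv)) :
    ringKrullDim (m59lp_Rp O κ a l8 t0 ln ka kv ⧸ K) ≤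
      ((Fintype.card κ + 3 * Fintype.card T8 + Fintype.card Tn : ℕ) : WithBot ℕ∞) :=
  (ringKrullDim_le_of_surjective (Ideal.Quotient.mk K) Ideal.Quotient.mk_surjective).trans
    (m59lp_dim_Rp_le hmax hp hp2 hpl h2 a l8 t0 ln hl8 han ka kv hne)

end Dim

end

end Fermat.Agent.M59
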