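import Mathlib
import Fermat.Agent.M59.D.ChainMain
import Fermat.Agent.M59.Loc.IrrP

/-!
# M59 / [B], case (III) : the base hypothesis `hbase` for `Rp`, ring form of (SUPP-fl)
(helper26; prefix `m59lp_`; paper proof: referee helper12, finding #5308 (4))

`u = m59lp_uRp` (all the `N`-coordinates, and `v = X kv`); the precision `𝔠 = m59lp_cc lam`: `⊥` at
the `N`-coordinates, `(λ) + 𝔪²` at `v` (at finite level only a `k_n ≡ v mod (λ) + 𝔪²` is killed on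
the flat side: the tangent statement (R2')).

* `m59lp_X_mem_of_tangent` : a prime of `O[[σ]]` containing `C λ`, all the variables but `X x₀`, and
  some `X x₀ + z`, `z ∈ (λ) + 𝔪²`, contains `X x₀`;
* `m59lp_dim_le_gen2` : `m59lp_dim_le_gen` where the hypothesis on the free variables may use that
  `C λ` and all the other variables already lie in the prime;
* `m59lp_v_mem` : a prime `P` of `Rp` of coheight `≥ |κ| + 3 |T8| + |Tn|` containing some
  `w ≡ v mod (λ) + 𝔪²` contains `v` (if not, `a ∈ P` because `a v = 0`, and `Rp / (a, w)` is too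
  small);
* `m59lp_hbase` : **the field `hbase` of `m59d_ChainData` for `Rp`** (`m59lp_v_mem` + helper25's
  `m59d_hbase_of_irr` at `𝔠 = ⊥` with `m59lp_irr`, `m59lp_dim_Rp_quot_le`).
-/

set_option autoImplicit false
set_option linter.unusedSectionVars false
set_option linter.style.haveILetI false

namespace Fermat.Agent.M59

open MvPowerSeries Matrix IsLocalRing Fermat.Agent.TW

noncomputable section

section Tangent

variable {O : Type*} [CommRing O] [IsLocalRing O] {σ : Type*} [Fintype σ]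

/-- a prime of `O[[σ]]` containing `C λ`, all the variables but `X x₀`, and some `X x₀ + z` with
`z ∈ (λ) + 𝔪²`, contains `X x₀`. -/
theorem m59lp_X_mem_of_tangent {lam : O} (hmax : maximalIdeal O = Ideal.span {lam}) (x₀ : σ)
    (𝔭 : Ideal (MvPowerSeries σ O)) (h𝔭 : 𝔭.IsPrime)
    (hlam : (C lam : MvPowerSeries σ O) ∈ 𝔭)
    (hX : ∀ i, i ≠ x₀ → (X i : MvPowerSeries σ O) ∈ 𝔭)
    (z : MvPowerSeries σ O)
    (hz : z ∈ Ideal.span {(C lam : MvPowerSeries σ O)} ⊔ maximalIdeal (MvPowerSeries σ O) ^ 2)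
    (hw : X x₀ + z ∈ 𝔭) : (X x₀ : MvPowerSeries σ O) ∈ 𝔭 := by
  classical
  set B : Ideal (MvPowerSeries σ O) := Ideal.span {(X x₀ : MvPowerSeries σ O)} with hB
  have hm : maximalIdeal (MvPowerSeries σ O) ≤ 𝔭 ⊔ B := by
    apply twb_dim_maximalIdeal_le
    · intro i
      by_cases hi : i = x₀
      · rw [hi]
        exact Ideal.mem_sup_right (Ideal.subset_span rfl)
      · exact Ideal.mem_sup_left (hX i hi)
    · intro c hc
      exact Ideal.mem_sup_left (m59bd_C_mem hmax 𝔭 hlam c hc)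
  have hm2 : maximalIdeal (MvPowerSeries σ O) ^ 2 ≤ 𝔭 ⊔ B ^ 2 := by
    refine (Ideal.pow_right_mono hm 2).trans ?_
    rw [pow_two, Ideal.mul_le]
    intro r hr s hs
    obtain ⟨r1, hr1, r2, hr2, rfl⟩ := Submodule.mem_sup.mp hr
    obtain ⟨s1, hs1, s2, hs2, rfl⟩ := Submodule.mem_sup.mp hs
    have e : (r1 + r2) * (s1 + s2) = (r1 * (s1 + s2) + r2 * s1) + r2 * s2 := by ring
    rw [e]
    refine Submodule.add_mem_sup (𝔭.add_mem (𝔭.mul_mem_right _ hr1) (𝔭.mul_mem_left _ hs1)) ?_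
    rw [pow_two]
    exact Ideal.mul_mem_mul hr2 hs2
  have hz' : z ∈ 𝔭 ⊔ B ^ 2 := by
    refine (sup_le ?_ hm2) hz
    rw [Ideal.span_le, Set.singleton_subset_iff]
    exact Ideal.mem_sup_left hlam
  obtain ⟨q₁, hq₁, b, hb, rfl⟩ := Submodule.mem_sup.mp hz'
  rw [hB, Ideal.span_singleton_pow, Ideal.mem_span_singleton'] at hb
  obtain ⟨g, rfl⟩ := hb
  have h1 : X x₀ * (1 + X x₀ * g) ∈ 𝔭 := by
    have h2 := sub_mem hw hq₁
    have e : X x₀ + (q₁ + g * X x₀ ^ 2) - q₁ = X x₀ * (1 + X x₀ * g) := by ring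
    rwa [e] at h2
  rcases h𝔭.mem_or_mem h1 with h | h
  · exact h
  · exfalso
    apply h𝔭.ne_top
    apply Ideal.eq_top_of_isUnit_mem _ h
    rw [MvPowerSeries.isUnit_iff_constantCoeff, map_add, map_one, map_mul, constantCoeff_X,
      zero_mul, add_zero]
    exact isUnit_one

end Tangent

section Global

variable {O : Type} [CommRing O] [IsLocalRing O] [IsNoetherianRing O] {T8 Tn κ : Type}
  [Fintype T8] [Fintype Tn] [Fintype κ]

open Classical in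
/-- **(B1), general form with arbitrary parameters for the free variables**; the hypothesis on the
free variables may use that `C λ` and all the other variables already lie in the prime. -/
theorem m59lp_dim_le_gen2 {lam : O} (hmax : maximalIdeal O = Ideal.span {lam}) {p : ℕ}
    (hp : p.Prime) (hp2 : p ≠ 2) (hpl : (p : O) ∈ Ideal.span {lam}) (h2 : IsUnit (2 : O))
    (a : T8 → O) (l8 : T8 → ℕ) (t0 : Tn → O) (ln : Tn → ℕ) (hl8 : ∀ t, l8 t % p = 1)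
    (han : ∀ t, a t ^ 2 - (l8 t : O) ∈ maximalIdeal O)
    (A8 : Finset T8) (An : Finset Tn) (J' : Ideal (m59b_P O T8 Tn κ))
    (hJ : m59b_J O κ a l8 t0 ln ≤ J')
    (hA8 : ∀ t ∈ A8, (∀ i j : Fin 2, (X (Sum.inl (t, 0, i, j)) : m59b_P O T8 Tn κ) ∈ J') ∧
      m59b_r8 O κ a l8 t ∈ J')
    (hAn : ∀ l ∈ An, m59b_n1 O T8 κ l ∈ J' ∧ m59b_n2 O T8 κ l ∈ J' ∧ m59b_rn O κ t0 ln l ∈ J')
    (sκ : Finset (m59b_P O T8 Tn κ))
    (hsκ : ∀ x ∈ sκ, constantCoeff x ∈ maximalIdeal O)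
    (hκ : ∀ 𝔭 : Ideal (m59b_P O T8 Tn κ), 𝔭.IsPrime → J' ≤ 𝔭 → (∀ x ∈ sκ, x ∈ 𝔭) →
      (C lam : m59b_P O T8 Tn κ) ∈ 𝔭 →
      (∀ i, (X (Sum.inl i) : m59b_P O T8 Tn κ) ∈ 𝔭) →
      (∀ i, (X (Sum.inr (Sum.inl i)) : m59b_P O T8 Tn κ) ∈ 𝔭) →
      ∀ k : κ, (X (Sum.inr (Sum.inr k)) : m59b_P O T8 Tn κ) ∈ 𝔭) :
    ringKrullDim (m59b_P O T8 Tn κ ⧸ J') ≤
      ((1 + sκ.card + 2 * Fintype.card T8 + (Fintype.card T8 - A8.card) +
        (Fintype.card Tn - An.card) : ℕ) : WithBot ℕ∞) := by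
  let q1 : T8 → m59b_P O T8 Tn κ := fun t => X (Sum.inl (t, 1, 0, 1)) - X (Sum.inl (t, 0, 1, 0))
  let q2 : T8 → m59b_P O T8 Tn κ := fun t => X (Sum.inl (t, 1, 1, 0)) - X (Sum.inl (t, 0, 0, 0))
  let q3 : T8 → m59b_P O T8 Tn κ := fun t =>
    X (Sum.inl (t, 1, 0, 0)) - X (Sum.inl (t, 1, 1, 1)) - C 2 * X (Sum.inl (t, 0, 0, 1))
  let qn : Tn → m59b_P O T8 Tn κ := fun l =>
    X (Sum.inr (Sum.inl (l, 0))) + X (Sum.inr (Sum.inl (l, 2)))
  let s : Finset (m59b_P O T8 Tn κ) :=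
    insert (C lam) (sκ ∪ (Finset.univ.image q1 ∪ (Finset.univ.image q2 ∪
      ((Finset.univ \ A8).image q3 ∪ (Finset.univ \ An).image qn))))
  have hsmem : ∀ x, x ∈ (s : Set (m59b_P O T8 Tn κ)) ↔
      x = C lam ∨ x ∈ sκ ∨ (∃ t, q1 t = x) ∨ (∃ t, q2 t = x) ∨
        (∃ t, t ∉ A8 ∧ q3 t = x) ∨ (∃ l, l ∉ An ∧ qn l = x) := by
    intro x
    simp only [s, Finset.coe_insert, Finset.coe_union, Finset.coe_image, Finset.coe_univ,
      Set.image_univ, Set.mem_insert_iff, Set.mem_union, Set.mem_range, Set.mem_image,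
      Finset.coe_sdiff, Set.mem_sdiff, Set.mem_univ, true_and, Finset.mem_coe]
  have hlamM : lam ∈ maximalIdeal O := by
    rw [hmax]; exact Ideal.mem_span_singleton_self lam
  have hs : (s : Set (m59b_P O T8 Tn κ)) ⊆ maximalIdeal (m59b_P O T8 Tn κ) := by
    intro x hx
    apply twb_d8_mem_maximalIdeal
    rcases (hsmem x).mp hx with rfl | hxκ | ⟨t, rfl⟩ | ⟨t, rfl⟩ | ⟨t, -, rfl⟩ | ⟨l, -, rfl⟩
    · simpa using hlamM
    · exact hsκ x hxκ
    · simp [q1]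
    · simp [q2]
    · simp [q3]
    · simp [qn]
  have key := twb_dim_quot_le_card_of_primes J' s hs (by
    intro 𝔭 h𝔭 hJ𝔭 hs𝔭
    have hlam : (C lam : m59b_P O T8 Tn κ) ∈ 𝔭 := hs𝔭 ((hsmem _).mpr (Or.inl rfl))
    have hrel8 : ∀ t, ∀ g ∈ m59b_rel8 (Tn := Tn) O κ a l8 t, g ∈ 𝔭 := fun t g hg =>
      hJ𝔭 (hJ (Ideal.subset_span (Or.inl (Set.mem_iUnion.mpr ⟨t, hg⟩))))
    have hreln : ∀ l, ∀ g ∈ m59b_reln O T8 κ t0 ln l, g ∈ 𝔭 := fun l g hg =>
      hJ𝔭 (hJ (Ideal.subset_span (Or.inr (Set.mem_iUnion.mpr ⟨l, hg⟩))))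
    apply twb_dim_maximalIdeal_le 𝔭 _ (fun b hb => m59bd_C_mem hmax 𝔭 hlam b hb)
    have hq1 : ∀ t, q1 t ∈ 𝔭 := fun t =>
      hs𝔭 ((hsmem _).mpr (Or.inr (Or.inr (Or.inl ⟨t, rfl⟩))))
    have hq2 : ∀ t, q2 t ∈ 𝔭 := fun t =>
      hs𝔭 ((hsmem _).mpr (Or.inr (Or.inr (Or.inr (Or.inl ⟨t, rfl⟩)))))
    have h8all : ∀ i, (X (Sum.inl i) : m59b_P O T8 Tn κ) ∈ 𝔭 := by
      rintro ⟨t, e, i, j⟩
      by_cases ht : t ∈ A8
      · obtain ⟨hN, hr⟩ := hA8 t ht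
        exact m59bd_local8_nz hmax a l8 t (han t) 𝔭 h𝔭 hlam (fun i j => hJ𝔭 (hN i j)) (hJ𝔭 hr)
          (hrel8 t _ (Or.inr rfl)) (hq1 t) (hq2 t) e i j
      · exact m59bd_local8 hmax hp hp2 hpl h2 a l8 t (hl8 t) 𝔭 h𝔭 hlam (hrel8 t) (hq1 t) (hq2 t)
          (hs𝔭 ((hsmem _).mpr (Or.inr (Or.inr (Or.inr (Or.inr (Or.inl ⟨t, ht, rfl⟩))))))) e i j
    have hnall : ∀ i, (X (Sum.inr (Sum.inl i)) : m59b_P O T8 Tn κ) ∈ 𝔭 := by
      rintro ⟨l, i⟩
      by_cases hl : l ∈ An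
      · obtain ⟨h1, h2', hr⟩ := hAn l hl
        fin_cases i
        · exact m59bd_localn_nz hmax t0 ln l 𝔭 h𝔭 hlam (hJ𝔭 hr)
        · exact hJ𝔭 h1
        · exact hJ𝔭 h2'
      · exact m59bd_localn hmax t0 ln l 𝔭 h𝔭 hlam (hreln l)
          (hs𝔭 ((hsmem _).mpr (Or.inr (Or.inr (Or.inr (Or.inr (Or.inr ⟨l, hl, rfl⟩))))))) i
    have hfree := hκ 𝔭 h𝔭 hJ𝔭 (fun x hx => hs𝔭 ((hsmem _).mpr (Or.inr (Or.inl hx)))) hlam
      h8all hnall
    rintro (i | i | k)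
    · exact h8all i
    · exact hnall i
    · exact hfree k)
  refine key.trans ?_
  have hcard : s.card ≤ 1 + sκ.card + 2 * Fintype.card T8 + (Fintype.card T8 - A8.card) +
      (Fintype.card Tn - An.card) := by
    have h1 := Finset.card_insert_le (C lam : m59b_P O T8 Tn κ)
      (sκ ∪ (Finset.univ.image q1 ∪ (Finset.univ.image q2 ∪
      ((Finset.univ \ A8).image q3 ∪ (Finset.univ \ An).image qn))))
    have h2 := Finset.card_union_le sκ
      (Finset.univ.image q1 ∪ (Finset.univ.image q2 ∪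
      ((Finset.univ \ A8).image q3 ∪ (Finset.univ \ An).image qn)))
    have h3 := Finset.card_union_le (Finset.univ.image q1)
      (Finset.univ.image q2 ∪ ((Finset.univ \ A8).image q3 ∪ (Finset.univ \ An).image qn))
    have h4 := Finset.card_union_le (Finset.univ.image q2)
      ((Finset.univ \ A8).image q3 ∪ (Finset.univ \ An).image qn)
    have h5 := Finset.card_union_le ((Finset.univ \ A8).image q3) ((Finset.univ \ An).image qn)
    have h7 := Finset.card_image_le (s := (Finset.univ : Finset T8)) (f := q1)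
    have h8 := Finset.card_image_le (s := (Finset.univ : Finset T8)) (f := q2)
    have h9 := Finset.card_image_le (s := (Finset.univ \ A8 : Finset T8)) (f := q3)
    have h10 := Finset.card_image_le (s := (Finset.univ \ An : Finset Tn)) (f := qn)
    rw [Finset.card_univ] at h7 h8
    rw [Finset.card_univ_sdiff] at h9 h10
    have hs_def : s.card = (insert (C lam : m59b_P O T8 Tn κ)
      (sκ ∪ (Finset.univ.image q1 ∪ (Finset.univ.image q2 ∪
      ((Finset.univ \ A8).image q3 ∪ (Finset.univ \ An).image qn))))).card := rfl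
    omega
  exact_mod_cast hcard

/-- the precision ideals `𝔠` of the chain datum in case (III): `⊥` at the `N`-coordinates,
`(λ) + 𝔪²` at `v`. -/
def m59lp_cc (lam : O) (a : T8 → O) (l8 : T8 → ℕ) (t0 : Tn → O) (ln : Tn → ℕ) (ka kv : κ)
    [IsLocalRing (m59lp_Rp O κ a l8 t0 ln ka kv)] :
    ((T8 × Fin 2 × Fin 2) ⊕ (Tn × Fin 2)) ⊕ Unit → Ideal (m59lp_Rp O κ a l8 t0 ln ka kv) :=
  Sum.elim (fun _ => ⊥)
    (fun _ => Ideal.span {algebraMap O (m59lp_Rp O κ a l8 t0 ln ka kv) lam} ⊔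
      maximalIdeal (m59lp_Rp O κ a l8 t0 ln ka kv) ^ 2)

/-- `(λ) + 𝔪²` of `Rp` is the image of `(C λ) + 𝔪²` of the power series ring. -/
theorem m59lp_cc_le_map (lam : O) (a : T8 → O) (l8 : T8 → ℕ) (t0 : Tn → O) (ln : Tn → ℕ)
    (ka kv : κ) [IsLocalRing (m59lp_Rp O κ a l8 t0 ln ka kv)] :
    Ideal.span {algebraMap O (m59lp_Rp O κ a l8 t0 ln ka kv) lam} ⊔
      maximalIdeal (m59lp_Rp O κ a l8 t0 ln ka kv) ^ 2 ≤
    (Ideal.span {(C lam : m59b_P O T8 Tn κ)} ⊔ maximalIdeal (m59b_P O T8 Tn κ) ^ 2).map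
      (Ideal.Quotient.mk (m59lp_Jp O κ a l8 t0 ln ka kv)) := by
  set mk := Ideal.Quotient.mk (m59lp_Jp O κ a l8 t0 ln ka kv) with hmk
  rw [Ideal.map_sup, Ideal.map_span, Set.image_singleton, Ideal.map_pow]
  refine sup_le_sup (le_of_eq ?_) (Ideal.pow_right_mono ?_ 2)
  · congr 1
  · intro y hy
    obtain ⟨f, rfl⟩ := Ideal.Quotient.mk_surjective y
    apply Ideal.mem_map_of_mem
    rw [mem_maximalIdeal, mem_nonunits_iff] at hy ⊢
    intro hu
    exact hy (hu.map mk)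

/-- **`v ∈ P`**: a prime of `Rp` of coheight `≥ |κ| + 3 |T8| + |Tn|` containing some
`w ≡ v mod (λ) + 𝔪²` contains `v`. -/
theorem m59lp_v_mem {lam : O} (hmax : maximalIdeal O = Ideal.span {lam}) {p : ℕ} (hp : p.Prime)
    (hp2 : p ≠ 2) (hpl : (p : O) ∈ Ideal.span {lam}) (h2 : IsUnit (2 : O))
    (a : T8 → O) (l8 : T8 → ℕ) (t0 : Tn → O) (ln : Tn → ℕ) (hl8 : ∀ t, l8 t % p = 1)
    (han : ∀ t, a t ^ 2 - (l8 t : O) ∈ maximalIdeal O) (ka kv : κ) (hne : ka ≠ kv)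
    [IsLocalRing (m59lp_Rp O κ a l8 t0 ln ka kv)]
    (P : Ideal (m59lp_Rp O κ a l8 t0 ln ka kv)) (hP : P.IsPrime)
    (hdim : ((Fintype.card κ + 3 * Fintype.card T8 + Fintype.card Tn : ℕ) : WithBot ℕ∞) ≤
      ringKrullDim (m59lp_Rp O κ a l8 t0 ln ka kv ⧸ P))
    (wv : m59lp_Rp O κ a l8 t0 ln ka kv)
    (hwv : wv - Ideal.Quotient.mk _ (X (Sum.inr (Sum.inr kv))) ∈
      Ideal.span {algebraMap O (m59lp_Rp O κ a l8 t0 ln ka kv) lam} ⊔
        maximalIdeal (m59lp_Rp O κ a l8 t0 ln ka kv) ^ 2)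
    (hwP : wv ∈ P) :
    Ideal.Quotient.mk (m59lp_Jp O κ a l8 t0 ln ka kv) (X (Sum.inr (Sum.inr kv))) ∈ P := by
  classical
  by_contra hv
  set J := m59lp_Jp O κ a l8 t0 ln ka kv with hJ
  set mk := Ideal.Quotient.mk J with hmk
  -- `a ∈ P`
  have hka : mk (X (Sum.inr (Sum.inr ka))) ∈ P := by
    have h0 : mk (X (Sum.inr (Sum.inr ka))) * mk (X (Sum.inr (Sum.inr kv))) = 0 := by
      rw [← map_mul, hmk, Ideal.Quotient.eq_zero_iff_mem]
      exact m59lp_av_mem_Jp O a l8 t0 ln ka kv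
    have h1 : mk (X (Sum.inr (Sum.inr ka))) * mk (X (Sum.inr (Sum.inr kv))) ∈ P := by
      rw [h0]; exact zero_mem _
    exact (hP.mem_or_mem h1).resolve_right hv
  -- a lift `X kv + z` of `wv`
  obtain ⟨z, hz, hzw⟩ := (Ideal.mem_map_iff_of_surjective mk Ideal.Quotient.mk_surjective).mp
    (m59lp_cc_le_map lam a l8 t0 ln ka kv hwv)
  set Pt := P.comap mk with hPt
  haveI : Pt.IsPrime := hP.comap _
  have hJPt : J ≤ Pt := by
    intro f hf
    rw [hPt, Ideal.mem_comap, hmk, Ideal.Quotient.eq_zero_iff_mem.mpr hf]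
    exact zero_mem _
  have hJ0Pt : m59b_J O κ a l8 t0 ln ≤ Pt := (m59lp_J_le_Jp O a l8 t0 ln ka kv).trans hJPt
  have hkaPt : (X (Sum.inr (Sum.inr ka)) : m59b_P O T8 Tn κ) ∈ Pt := hka
  have hwPt : (X (Sum.inr (Sum.inr kv)) : m59b_P O T8 Tn κ) + z ∈ Pt := by
    rw [hPt, Ideal.mem_comap, map_add, hzw, add_sub_cancel]
    exact hwP
  -- the dimension bound
  have hbound := m59lp_dim_le_gen2 hmax hp hp2 hpl h2 a l8 t0 ln hl8 han ∅ ∅ Pt hJ0Pt
    (fun t ht => absurd ht (Finset.notMem_empty t)) (fun l hl => absurd hl (Finset.notMem_empty l))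
    (m59lp_sκ O T8 Tn ka kv) (m59lp_sκ_cc ka kv)
    (by
      intro 𝔭 h𝔭 hJ𝔭 hs hlam h8 hn k
      have hothers : ∀ k', k' ≠ kv → (X (Sum.inr (Sum.inr k')) : m59b_P O T8 Tn κ) ∈ 𝔭 := by
        intro k' hk'
        by_cases h1 : k' = ka
        · rw [h1]; exact hJ𝔭 hkaPt
        · exact hs _ (m59lp_mem_sκ ka kv k' h1 hk')
      by_cases hk : k = kv
      · rw [hk]
        refine m59lp_X_mem_of_tangent hmax (Sum.inr (Sum.inr kv)) 𝔭 h𝔭 hlam ?_ z hz (hJ𝔭 hwPt)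
        rintro (i | i | k') hi
        · exact h8 i
        · exact hn i
        · exact hothers k' (fun e => hi (by rw [e]))
      · exact hothers k hk)
  -- `dim (Rp ⧸ P) ≤ dim (𝒫 ⧸ P̃)`
  let g : m59b_P O T8 Tn κ ⧸ Pt →+* m59lp_Rp O κ a l8 t0 ln ka kv ⧸ P :=
    Ideal.Quotient.lift Pt ((Ideal.Quotient.mk P).comp mk) (by
      intro f hf
      rw [RingHom.comp_apply, Ideal.Quotient.eq_zero_iff_mem]
      exact hf)
  have hsurj : Function.Surjective g := by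
    intro y
    obtain ⟨y', rfl⟩ := Ideal.Quotient.mk_surjective y
    obtain ⟨f, rfl⟩ := Ideal.Quotient.mk_surjective y'
    exact ⟨Ideal.Quotient.mk Pt f, rfl⟩
  have hle : ringKrullDim (m59lp_Rp O κ a l8 t0 ln ka kv ⧸ P) ≤
      ringKrullDim (m59b_P O T8 Tn κ ⧸ Pt) := ringKrullDim_le_of_surjective g hsurj
  have h3 := (hdim.trans hle).trans hbound
  have hc1 := m59lp_sκ_card_le (O := O) (T8 := T8) (Tn := Tn) ka kv hne
  have hc2 := m59lp_two_le_card ka kv hne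
  have h4 : Fintype.card κ + 3 * Fintype.card T8 + Fintype.card Tn ≤
      1 + (m59lp_sκ O T8 Tn ka kv).card + 2 * Fintype.card T8 +
        (Fintype.card T8 - (∅ : Finset T8).card) + (Fintype.card Tn - (∅ : Finset Tn).card) := by
    exact_mod_cast h3
  simp only [Finset.card_empty] at h4
  omega

/-- **the field `hbase` of `m59d_ChainData` for `Rp`** (case (III)), for any `S` of dimension
`≥ |κ| + 3 |T8| + |Tn|` (in use: `S = O[[y_1, …, y_rr]]`, `rr = |κ| - 1 + 3 |T8| + |Tn|`). -/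
theorem m59lp_hbase [IsDomain O] [IsAdicComplete (maximalIdeal O) O]
    {lam : O} (hmax : maximalIdeal O = Ideal.span {lam}) {p : ℕ} (hp : p.Prime)
    (hp2 : p ≠ 2) (hpl : (p : O) ∈ Ideal.span {lam}) (h2 : IsUnit (2 : O))
    (a : T8 → O) (l8 : T8 → ℕ) (t0 : Tn → O) (ln : Tn → ℕ) (hl8 : ∀ t, l8 t % p = 1)
    (ha : ∀ t, IsUnit (a t))
    (han : ∀ t, a t ^ 2 - (l8 t : O) ∈ maximalIdeal O) (ka kv : κ) (hne : ka ≠ kv)
    [IsLocalRing (m59lp_Rp O κ a l8 t0 ln ka kv)]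
    {S : Type*} [CommRing S] [IsDomain S] [IsNoetherianRing S] [IsLocalRing S]
    (hS : ((Fintype.card κ + 3 * Fintype.card T8 + Fintype.card Tn : ℕ) : WithBot ℕ∞) ≤
      ringKrullDim S)
    {E : Type*} [CommRing E] [IsDomain E] :
    ∀ w : ((T8 × Fin 2 × Fin 2) ⊕ (Tn × Fin 2)) ⊕ Unit → m59lp_Rp O κ a l8 t0 ln ka kv,
      (∀ i, w i - m59lp_uRp a l8 t0 ln ka kv i ∈ m59lp_cc lam a l8 t0 ln ka kv i) →
      ∀ P : Ideal (m59lp_Rp O κ a l8 t0 ln ka kv), P.IsPrime → (∀ i, w i ∈ P) →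
      ringKrullDim S ≤ ringKrullDim (m59lp_Rp O κ a l8 t0 ln ka kv ⧸ P) →
      ∀ y0 : m59lp_Rp O κ a l8 t0 ln ka kv →+* E,
        (∀ i, y0 (m59lp_uRp a l8 t0 ln ka kv i) = 0) → P ≤ RingHom.ker y0 := by
  intro w hw P hP hwP hPdim y0 hy0
  -- all the `u i` lie in `P`
  have huP : ∀ i, m59lp_uRp a l8 t0 ln ka kv i ∈ P := by
    rintro (i | u)
    · have h1 := hw (Sum.inl i)
      have h2 : w (Sum.inl i) - m59lp_uRp a l8 t0 ln ka kv (Sum.inl i) = 0 := by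
        have h3 : w (Sum.inl i) - m59lp_uRp a l8 t0 ln ka kv (Sum.inl i) ∈
            (⊥ : Ideal (m59lp_Rp O κ a l8 t0 ln ka kv)) := h1
        rwa [Ideal.mem_bot] at h3
      rw [← sub_eq_zero.mp h2]
      exact hwP (Sum.inl i)
    · exact m59lp_v_mem hmax hp hp2 hpl h2 a l8 t0 ln hl8 han ka kv hne P hP (hS.trans hPdim)
        (w (Sum.inr ())) (hw (Sum.inr ())) (hwP (Sum.inr ()))
  have hudim : ringKrullDim (m59lp_Rp O κ a l8 t0 ln ka kv ⧸
      Ideal.span (Set.range (m59lp_uRp a l8 t0 ln ka kv))) ≤ ringKrullDim S :=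
    (m59lp_dim_Rp_quot_le hmax hp hp2 hpl h2 a l8 t0 ln hl8 han ka kv hne _).trans hS
  exact m59d_hbase_of_irr (S := S)
    (𝔠 := fun _ => (⊥ : Ideal (m59lp_Rp O κ a l8 t0 ln ka kv))) (fun _ => rfl)
    (m59lp_irr a l8 t0 ln ka kv ha han) hudim (m59lp_uRp a l8 t0 ln ka kv)
    (fun i => by rw [sub_self]; exact Ideal.zero_mem _) P hP huP hPdim y0 hy0

end Global

end

end Fermat.Agent.M59
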