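import Mathlib
import Fermat.Agent.S53.PowerSeriesComplete

/-!
# M59 / [B] : the "coefficient ideal" `P₀[[a₀]]` (helper4; prefix `m59bn_`)

`a₀ : σ` a variable of `R₀ = MvPowerSeries σ O`; `m59bn_div a₀ k f` = the coefficient of `X a₀ ^ k` in
`f` (a series free of `a₀`).

* `m59bn_graded_isPrime` : abstract: for a Hasse–Schmidt family `D k` (`D k (f g) = ∑ D i f * D j g`,
  `D 0 1 = 1`) and a prime `P`, `{f | ∀ k, D k f ∈ P}` is a prime ideal;
* `m59bn_div_mul` : the product formula for `m59bn_div`;
* `m59bn_coeffIdeal a₀ P` : `{f | ∀ k, m59bn_div a₀ k f ∈ P}`; prime if `P` is; does not contain `X a₀`.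
-/

set_option autoImplicit false
set_option linter.unusedSectionVars false

namespace Fermat.Agent.M59

open MvPowerSeries Finsupp

section Abstract

variable {R : Type*} [CommRing R]

/-- the ideal cut out by a multiplicative family of additive maps. -/
def m59bn_graded (D : ℕ → R →+ R)
    (hmul : ∀ f g k, D k (f * g) = ∑ ij ∈ Finset.HasAntidiagonal.antidiagonal k, D ij.1 f * D ij.2 g)
    (P : Ideal R) : Ideal R where
  carrier := {f | ∀ k, D k f ∈ P}
  add_mem' := by
    intro f g hf hg k
    rw [map_add]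
    exact P.add_mem (hf k) (hg k)
  zero_mem' := by
    intro k
    rw [map_zero]
    exact P.zero_mem
  smul_mem' := by
    intro c f hf k
    rw [smul_eq_mul, hmul]
    exact P.sum_mem fun ij _ => P.mul_mem_left _ (hf ij.2)

theorem m59bn_mem_graded {D : ℕ → R →+ R}
    {hmul : ∀ f g k, D k (f * g) =
      ∑ ij ∈ Finset.HasAntidiagonal.antidiagonal k, D ij.1 f * D ij.2 g}
    {P : Ideal R} {f : R} : f ∈ m59bn_graded D hmul P ↔ ∀ k, D k f ∈ P := Iff.rfl

theorem m59bn_graded_isPrime (D : ℕ → R →+ R)
    (hmul : ∀ f g k, D k (f * g) = ∑ ij ∈ Finset.HasAntidiagonal.antidiagonal k, D ij.1 f * D ij.2 g)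
    (hone : D 0 1 = 1) {P : Ideal R} (hP : P.IsPrime) : (m59bn_graded D hmul P).IsPrime := by
  classical
  refine ⟨?_, ?_⟩
  · intro htop
    have h1 : (1 : R) ∈ m59bn_graded D hmul P := htop ▸ Submodule.mem_top
    have h2 := h1 0
    rw [hone] at h2
    exact hP.ne_top ((Ideal.eq_top_iff_one P).mpr h2)
  · intro f g hfg
    by_contra hcon
    push Not at hcon
    obtain ⟨hf, hg⟩ := hcon
    rw [m59bn_mem_graded] at hf hg
    push Not at hf hg
    let i := Nat.find hf
    let j := Nat.find hg
    have hi : D i f ∉ P := Nat.find_spec hf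
    have hj : D j g ∉ P := Nat.find_spec hg
    have hi' : ∀ a < i, D a f ∈ P := fun a ha => by
      by_contra h
      exact Nat.find_min hf ha h
    have hj' : ∀ b < j, D b g ∈ P := fun b hb => by
      by_contra h
      exact Nat.find_min hg hb h
    have h1 := hfg (i + j)
    rw [hmul] at h1
    have hmem : (i, j) ∈ Finset.HasAntidiagonal.antidiagonal (i + j) :=
      Finset.HasAntidiagonal.mem_antidiagonal.mpr rfl
    rw [← Finset.add_sum_erase _ _ hmem] at h1
    have h2 : ∑ ij ∈ (Finset.HasAntidiagonal.antidiagonal (i + j)).erase (i, j),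
        D ij.1 f * D ij.2 g ∈ P := by
      refine P.sum_mem fun ab hab => ?_
      rw [Finset.mem_erase, Finset.HasAntidiagonal.mem_antidiagonal] at hab
      obtain ⟨hne, hab⟩ := hab
      rcases lt_trichotomy ab.1 i with h | h | h
      · exact P.mul_mem_right _ (hi' _ h)
      · exfalso
        apply hne
        have : ab.2 = j := by omega
        exact Prod.ext h this
      · exact P.mul_mem_left _ (hj' _ (by omega))
    have h3 := (Ideal.add_mem_iff_left P h2).mp h1
    rcases hP.mem_or_mem h3 with h | h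
    · exact hi h
    · exact hj h

end Abstract

section Div

variable {σ : Type*} [DecidableEq σ] {O : Type*} [CommRing O] (a₀ : σ)

/-- the indicator weight of `a₀`. -/
def m59bn_w : σ → ℕ := fun s => if s = a₀ then 1 else 0

theorem m59bn_weight (d : σ →₀ ℕ) : weight (m59bn_w a₀) d = d a₀ := by
  classical
  rw [Finsupp.weight_apply, Finsupp.sum]
  by_cases h : a₀ ∈ d.support
  · rw [Finset.sum_eq_single a₀]
    · simp [m59bn_w]
    · intro s _ hs
      simp [m59bn_w, hs]
    · intro hn
      exact absurd h hn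
  · rw [Finsupp.notMem_support_iff.mp h]
    refine Finset.sum_eq_zero fun s hs => ?_
    have : s ≠ a₀ := fun e => h (e ▸ hs)
    simp [m59bn_w, this]

/-- the coefficient of `X a₀ ^ k`, as a linear map. -/
noncomputable def m59bn_div (k : ℕ) : MvPowerSeries σ O →+ MvPowerSeries σ O where
  toFun f := fun d => if d a₀ = 0 then coeff (d + Finsupp.single a₀ k) f else 0
  map_zero' := by
    ext d
    show (if d a₀ = 0 then coeff (d + Finsupp.single a₀ k) (0 : MvPowerSeries σ O) else 0) = 0
    simp
  map_add' f g := by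
    ext d
    show (if d a₀ = 0 then coeff (d + Finsupp.single a₀ k) (f + g) else 0) =
      (if d a₀ = 0 then coeff (d + Finsupp.single a₀ k) f else 0) +
        (if d a₀ = 0 then coeff (d + Finsupp.single a₀ k) g else 0)
    split_ifs <;> simp

theorem m59bn_coeff_div (k : ℕ) (f : MvPowerSeries σ O) (d : σ →₀ ℕ) :
    coeff d (m59bn_div a₀ k f) = if d a₀ = 0 then coeff (d + Finsupp.single a₀ k) f else 0 := rfl

/-- `f_k = X a₀ ^ k * (coefficient of X a₀ ^ k)`. -/
theorem m59bn_wHC_eq (k : ℕ) (f : MvPowerSeries σ O) :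
    weightedHomogeneousComponent (m59bn_w a₀) k f = X a₀ ^ k * m59bn_div a₀ k f := by
  classical
  ext d
  rw [coeff_weightedHomogeneousComponent, m59bn_weight, X_pow_eq, coeff_monomial_mul, one_mul]
  by_cases hle : Finsupp.single a₀ k ≤ d
  · rw [if_pos hle, m59bn_coeff_div]
    have h1 : k ≤ d a₀ := by
      have := hle a₀
      rwa [Finsupp.single_eq_same] at this
    have h2 : (d - Finsupp.single a₀ k) a₀ = d a₀ - k := by
      rw [Finsupp.tsub_apply, Finsupp.single_eq_same]
    rw [h2, tsub_add_cancel_of_le hle]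
    by_cases hk : d a₀ = k
    · rw [if_pos hk, if_pos (by omega)]
    · rw [if_neg hk, if_neg (by omega)]
  · rw [if_neg hle]
    have h1 : ¬ k ≤ d a₀ := by
      intro h
      apply hle
      intro s
      by_cases hs : s = a₀
      · subst hs
        rwa [Finsupp.single_eq_same]
      · rw [Finsupp.single_apply, if_neg (Ne.symm hs)]
        exact Nat.zero_le _
    rw [if_neg (by omega)]

/-- multiplication by `X a₀ ^ k` is injective. -/
theorem m59bn_X_pow_mul_cancel (k : ℕ) {u v : MvPowerSeries σ O}
    (h : X a₀ ^ k * u = X a₀ ^ k * v) : u = v := by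
  classical
  ext d
  have h1 := congrArg (coeff (Finsupp.single a₀ k + d)) h
  rwa [X_pow_eq, coeff_add_monomial_mul, coeff_add_monomial_mul, one_mul, one_mul] at h1

/-- the product formula for the coefficients. -/
theorem m59bn_div_mul (f g : MvPowerSeries σ O) (k : ℕ) :
    m59bn_div a₀ k (f * g) =
      ∑ ij ∈ Finset.HasAntidiagonal.antidiagonal k, m59bn_div a₀ ij.1 f * m59bn_div a₀ ij.2 g := by
  classical
  apply m59bn_X_pow_mul_cancel a₀ k
  rw [← m59bn_wHC_eq, Finset.mul_sum]
  -- the weighted homogeneous component of a product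
  have hmul : weightedHomogeneousComponent (m59bn_w a₀) k (f * g) =
      ∑ ij ∈ Finset.HasAntidiagonal.antidiagonal k,
        weightedHomogeneousComponent (m59bn_w a₀) ij.1 f *
          weightedHomogeneousComponent (m59bn_w a₀) ij.2 g := by
    ext d
    rw [coeff_weightedHomogeneousComponent, map_sum]
    simp only [coeff_mul, coeff_weightedHomogeneousComponent]
    rw [Finset.sum_comm]
    split_ifs with hd
    · refine Finset.sum_congr rfl fun x hx => ?_
      rw [Finset.HasAntidiagonal.mem_antidiagonal] at hx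
      have hx' : weight (m59bn_w a₀) x.1 + weight (m59bn_w a₀) x.2 = k := by
        rw [← map_add, hx, hd]
      rw [Finset.sum_eq_single (weight (m59bn_w a₀) x.1, weight (m59bn_w a₀) x.2)]
      · rw [if_pos rfl, if_pos rfl]
      · rintro ⟨i, j⟩ _ hne
        by_cases h1 : weight (m59bn_w a₀) x.1 = i
        · by_cases h2 : weight (m59bn_w a₀) x.2 = j
          · exact absurd (by rw [h1, h2]) hne
          · rw [if_neg h2, mul_zero]
        · rw [if_neg h1, zero_mul]
      · intro hnot
        exact absurd (Finset.HasAntidiagonal.mem_antidiagonal.mpr hx') hnot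
    · symm
      refine Finset.sum_eq_zero fun x hx => ?_
      rw [Finset.HasAntidiagonal.mem_antidiagonal] at hx
      refine Finset.sum_eq_zero fun ij hij => ?_
      rw [Finset.HasAntidiagonal.mem_antidiagonal] at hij
      by_cases h1 : weight (m59bn_w a₀) x.1 = ij.1
      · by_cases h2 : weight (m59bn_w a₀) x.2 = ij.2
        · exfalso
          apply hd
          rw [← hx, map_add, h1, h2, hij]
        · rw [if_neg h2, mul_zero]
      · rw [if_neg h1, zero_mul]
  rw [hmul]
  refine Finset.sum_congr rfl fun ij hij => ?_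
  rw [Finset.HasAntidiagonal.mem_antidiagonal] at hij
  rw [m59bn_wHC_eq, m59bn_wHC_eq, ← hij, pow_add]
  ring

theorem m59bn_div_zero_one : m59bn_div (O := O) a₀ 0 1 = 1 := by
  classical
  ext d
  rw [m59bn_coeff_div, Finsupp.single_zero, add_zero, coeff_one]
  by_cases hd : d = 0
  · subst hd
    simp
  · rw [if_neg hd]
    split_ifs <;> rfl

/-- the coefficient ideal `P₀[[a₀]]`. -/
noncomputable def m59bn_coeffIdeal (P : Ideal (MvPowerSeries σ O)) : Ideal (MvPowerSeries σ O) :=
  m59bn_graded (m59bn_div a₀) (m59bn_div_mul a₀) P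

theorem m59bn_coeffIdeal_isPrime {P : Ideal (MvPowerSeries σ O)} (hP : P.IsPrime) :
    (m59bn_coeffIdeal a₀ P).IsPrime :=
  m59bn_graded_isPrime _ _ (m59bn_div_zero_one a₀) hP

/-- `X a₀ ∉ P₀[[a₀]]`. -/
theorem m59bn_X_notMem {P : Ideal (MvPowerSeries σ O)} (hP : P.IsPrime) :
    (X a₀ : MvPowerSeries σ O) ∉ m59bn_coeffIdeal a₀ P := by
  classical
  intro h
  have h1 := h 1
  have h2 : m59bn_div (O := O) a₀ 1 (X a₀) = 1 := by
    ext d
    rw [m59bn_coeff_div, coeff_X, coeff_one]
    by_cases hd : d = 0
    · subst hd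
      simp
    · rw [if_neg hd]
      by_cases hd0 : d a₀ = 0
      · rw [if_pos hd0, if_neg]
        intro he
        exact hd (add_eq_right.mp he)
      · rw [if_neg hd0]
  rw [h2] at h1
  exact hP.ne_top ((Ideal.eq_top_iff_one P).mpr h1)

/-- a homogeneous prime contains its coefficient ideal. -/
theorem m59bn_coeffIdeal_le {P : Ideal (MvPowerSeries σ O)}
    (hcl : ∀ f : MvPowerSeries σ O,
      (∀ k, weightedHomogeneousComponent (m59bn_w a₀) k f ∈ P) → f ∈ P) :
    m59bn_coeffIdeal a₀ P ≤ P := by
  intro f hf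
  apply hcl
  intro k
  rw [m59bn_wHC_eq]
  exact P.mul_mem_left _ (hf k)

end Div

end Fermat.Agent.M59

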