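import Mathlib
import Fermat.Agent.M59.Loc.Hom
import Fermat.Agent.M59.Loc.NZNorm

/-!
# M59 / [B] : cell [NZ], abstract form for one free variable (helper4; prefix `m59bn_`)

`I` an ideal of `MvPowerSeries σ O` stable under the extraction of the coefficients of the powers of
`X a₀` ("generated by series free of `a₀`"), `P` a minimal prime over `I`.  Then `P` contains no
series `r` one of whose `a₀`-components is `c * X a₀ ^ k` with the constant `c ∉ P`.
-/

set_option autoImplicit false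
set_option linter.unusedSectionVars false

namespace Fermat.Agent.M59

open MvPowerSeries Finsupp

variable {σ : Type*} [Finite σ] [DecidableEq σ] {O : Type*} [CommRing O]
  [IsNoetherianRing (MvPowerSeries σ O)] [IsLocalRing (MvPowerSeries σ O)] (a₀ : σ)

theorem m59bn_w_le (s : σ) : m59bn_w a₀ s ≤ 1 := by
  unfold m59bn_w
  split_ifs <;> omega

/-- **[NZ], one free variable.** -/
theorem m59bn_nz (I P : Ideal (MvPowerSeries σ O))
    (hI : ∀ f ∈ I, ∀ k, m59bn_div a₀ k f ∈ I)
    (hP : P ∈ I.minimalPrimes) (r : MvPowerSeries σ O) (hr : r ∈ P)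
    (k : ℕ) (c : O) (hrk : weightedHomogeneousComponent (m59bn_w a₀) k r = C c * X a₀ ^ k)
    (hc : (C c : MvPowerSeries σ O) ∉ P) : False := by
  have hprime : P.IsPrime := hP.1.1
  have hIP : I ≤ P := hP.1.2
  -- `I` is stable under the components
  have hIst : ∀ f ∈ I, ∀ k, weightedHomogeneousComponent (m59bn_w a₀) k f ∈ I := by
    intro f hf k
    rw [m59bn_wHC_eq]
    exact I.mul_mem_left _ (hI f hf k)
  -- `P` is homogeneous
  have hhom := m59bh_hom_of_minimal (m59bn_w a₀) (m59bn_w_le a₀) I P hIst hP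
  -- `X a₀ ∈ P`
  have h1 : C c * X a₀ ^ k ∈ P := hrk ▸ hhom r hr k
  have h2 : (X a₀ : MvPowerSeries σ O) ^ k ∈ P := (hprime.mem_or_mem h1).resolve_left hc
  have h3 : (X a₀ : MvPowerSeries σ O) ∈ P := hprime.mem_of_pow_mem k h2
  -- the coefficient ideal
  have hQ : (m59bn_coeffIdeal a₀ P).IsPrime := m59bn_coeffIdeal_isPrime a₀ hprime
  have hIQ : I ≤ m59bn_coeffIdeal a₀ P := fun f hf k => hIP (hI f hf k)
  have hQP : m59bn_coeffIdeal a₀ P ≤ P := by
    apply m59bn_coeffIdeal_le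
    intro f hf
    exact m59bh_homPart_le (m59bn_w a₀) (m59bn_w_le a₀) P hprime.ne_top hf
  have hPQ : P ≤ m59bn_coeffIdeal a₀ P := hP.2 ⟨hQ, hIQ⟩ hQP
  exact m59bn_X_notMem a₀ hprime (hPQ h3)

/-- a minimal prime over `J` containing `K` is minimal over `J ⊔ K`. -/
theorem m59bn_minimal_sup {R : Type*} [CommRing R] {J K P : Ideal R} (hP : P ∈ J.minimalPrimes)
    (hK : K ≤ P) : P ∈ (J ⊔ K).minimalPrimes :=
  ⟨⟨hP.1.1, sup_le hP.1.2 hK⟩, fun Q hQ hQP => hP.2 ⟨hQ.1, le_trans le_sup_left hQ.2⟩ hQP⟩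

end Fermat.Agent.M59
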