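import Mathlib
import Fermat.Agent.M59.Loc.Dim
import Fermat.Agent.M59.Loc.Irr
import Fermat.Agent.M59.Loc.Walk

/-!
# M59 / [B] : [NZ] by dimension, and the block deliverable (helper4; prefix `m59bz_`)

* `m59bz_nz` : for a prime `P` of `R_∞ = m59b_R` of coheight `≥ 1 + |κ| + 3 |T8| + |Tn|`
  containing `r_b`, not all `N`-coordinates of `b` lie in `P` (the hypothesis `m59lw_NZ` of
  helper26's `m59lw_hpts`): otherwise `R_∞ / P` is a quotient of `P / (J + N_b + r_b)`, of dimension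
  one less (`m59bd_dim_nz8`, `m59bd_dim_nzn`);
* `m59bz_hpts` : **the `hpts` clause of `m59d_chain_patch` for `R_∞ = m59b_R`**, for a chain
  `ch : Fin m ≃ T8 ⊕ Tn` through all the primes of `B'`.
-/

set_option autoImplicit false
set_option linter.unusedSectionVars false
set_option linter.style.haveILetI false

namespace Fermat.Agent.M59

open MvPowerSeries Matrix IsLocalRing Fermat.Agent.TW

noncomputable section

section NZ

variable {O : Type} [CommRing O] [IsDomain O] [IsNoetherianRing O] [IsLocalRing O] [CharZero O]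
  {T8 Tn : Type} [Fintype T8] [Fintype Tn] {κ : Type} [Fintype κ]

/-- **[NZ] by dimension.** -/
theorem m59bz_nz {lam : O} (hmax : maximalIdeal O = Ideal.span {lam}) {p : ℕ} (hp : p.Prime)
    (hp2 : p ≠ 2) (hpl : (p : O) ∈ Ideal.span {lam}) (h2 : IsUnit (2 : O))
    (a : T8 → O) (l8 : T8 → ℕ) (t0 : Tn → O) (ln : Tn → ℕ) (hl8 : ∀ t, l8 t % p = 1)
    (han : ∀ t, a t ^ 2 - (l8 t : O) ∈ maximalIdeal O)
    (P : Ideal (m59b_R O κ a l8 t0 ln)) (hP : P.IsPrime)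
    (hdim : ((1 + Fintype.card κ + 3 * Fintype.card T8 + Fintype.card Tn : ℕ) : WithBot ℕ∞) ≤
      ringKrullDim (m59b_R O κ a l8 t0 ln ⧸ P))
    (b : T8 ⊕ Tn)
    (hr : Ideal.Quotient.mk (m59b_J O κ a l8 t0 ln) (m59lw_r κ a l8 t0 ln b) ∈ P) :
    m59lw_NZ O κ b (P.comap (Ideal.Quotient.mk (m59b_J O κ a l8 t0 ln))) := by
  set J := m59b_J O κ a l8 t0 ln with hJ
  set Pt := P.comap (Ideal.Quotient.mk J) with hPt
  haveI : Pt.IsPrime := hP.comap _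
  have hJPt : J ≤ Pt := by
    intro f hf
    rw [hPt, Ideal.mem_comap, Ideal.Quotient.eq_zero_iff_mem.mpr hf]
    exact zero_mem _
  -- `dim (R ⧸ P) ≤ dim (𝒫 ⧸ P̃)`
  let g : m59b_P O T8 Tn κ ⧸ Pt →+* m59b_R O κ a l8 t0 ln ⧸ P :=
    Ideal.Quotient.lift Pt ((Ideal.Quotient.mk P).comp (Ideal.Quotient.mk J)) (by
      intro f hf
      rw [RingHom.comp_apply, Ideal.Quotient.eq_zero_iff_mem]
      exact hf)
  have hsurj : Function.Surjective g := by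
    intro y
    obtain ⟨y', rfl⟩ := Ideal.Quotient.mk_surjective y
    obtain ⟨f, rfl⟩ := Ideal.Quotient.mk_surjective y'
    exact ⟨Ideal.Quotient.mk Pt f, rfl⟩
  have hle : ringKrullDim (m59b_R O κ a l8 t0 ln ⧸ P) ≤
      ringKrullDim (m59b_P O T8 Tn κ ⧸ Pt) := ringKrullDim_le_of_surjective g hsurj
  -- contradiction from a bound one less
  have hcontra : ringKrullDim (m59b_P O T8 Tn κ ⧸ Pt) ≤
      ((Fintype.card κ + 3 * Fintype.card T8 + Fintype.card Tn : ℕ) : WithBot ℕ∞) → False := by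
    intro h
    have h3 := (hdim.trans hle).trans h
    have h4 : 1 + Fintype.card κ + 3 * Fintype.card T8 + Fintype.card Tn ≤
        Fintype.card κ + 3 * Fintype.card T8 + Fintype.card Tn := by
      exact_mod_cast h3
    omega
  rcases b with t | l
  · show ¬ ∀ i j : Fin 2, (X (Sum.inl (t, 0, i, j)) : m59b_P O T8 Tn κ) ∈ Pt
    intro hN
    exact hcontra (m59bd_dim_nz8 hmax hp hp2 hpl h2 a l8 t0 ln hl8 han Pt hJPt t hN hr)
  · show (X (Sum.inr (Sum.inl (l, 2))) : m59b_P O T8 Tn κ) ∉ Pt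
    intro hn2
    have hn2' : m59b_n2 O T8 κ l ∈ Pt := hn2
    have hn1 : m59b_n1 O T8 κ l ∈ Pt := by
      have h3 : m59b_n1 O T8 κ l ^ 2 - m59b_n2 O T8 κ l ^ 2 ∈ Pt :=
        hJPt (Ideal.subset_span (Or.inr (Set.mem_iUnion.mpr ⟨l, Or.inr (Or.inr rfl)⟩)))
      have h4 : m59b_n1 O T8 κ l ^ 2 ∈ Pt := by
        have := add_mem h3 (Ideal.pow_mem_of_mem Pt hn2' 2 (by norm_num))
        rwa [sub_add_cancel] at this
      exact Ideal.IsPrime.mem_of_pow_mem inferInstance 2 h4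
    exact hcontra (m59bd_dim_nzn hmax hp hp2 hpl h2 a l8 t0 ln hl8 han Pt hJPt l hn1 hn2' hr)

/-- **the `hpts` clause of `m59d_chain_patch` for `R_∞ = m59b_R`** (chain through all the primes of
`B' = T8 ⊔ Tn`; `dS = ringKrullDim S`; `r k` = a power of `(tr Φ)² - (l + 1)²`). -/
theorem m59bz_hpts {lam : O} (hmax : maximalIdeal O = Ideal.span {lam}) {p : ℕ} (hp : p.Prime)
    (hp2 : p ≠ 2) (hpl : (p : O) ∈ Ideal.span {lam}) (h2 : IsUnit (2 : O))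
    (a : T8 → O) (l8 : T8 → ℕ) (t0 : Tn → O) (ln : Tn → ℕ) (hl8 : ∀ t, l8 t % p = 1)
    (han : ∀ t, a t ^ 2 - (l8 t : O) ∈ maximalIdeal O)
    {m : ℕ} (ch : Fin m ≃ T8 ⊕ Tn) (hl82 : ∀ t, 2 ≤ l8 t)
    (ε8 : T8 → ℤ) (hε8 : ∀ t, ε8 t * ε8 t = 1) (εn : Tn → ℤ) (hεn : ∀ l, εn l * εn l = 1)
    (dS : WithBot ℕ∞)
    (hdS : ((1 + Fintype.card κ + 3 * Fintype.card T8 + Fintype.card Tn : ℕ) : WithBot ℕ∞) ≤ dS)
    (ee : Fin m → ℕ)
    (x : m59b_R O κ a l8 t0 ln →+* O)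
    (hxC : ∀ c, x (Ideal.Quotient.mk _ (C c)) = c)
    (hxa : ∀ t, x (Ideal.Quotient.mk _ (m59b_Phi8 O κ a t 0 0)) = (ε8 t : O) * (l8 t : O))
    (hxc : ∀ t, x (Ideal.Quotient.mk _ (m59b_Phi8 O κ a t 1 0)) = 0)
    (hxd : ∀ t, x (Ideal.Quotient.mk _ (m59b_Phi8 O κ a t 1 1)) = (ε8 t : O))
    (hx11 : ∀ t, x (Ideal.Quotient.mk _ (X (Sum.inl (t, 0, 0, 0)))) = 0)
    (hx21 : ∀ t, x (Ideal.Quotient.mk _ (X (Sum.inl (t, 0, 1, 0)))) = 0)
    (hx22 : ∀ t, x (Ideal.Quotient.mk _ (X (Sum.inl (t, 0, 1, 1)))) = 0)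
    (hxt : ∀ l, x (Ideal.Quotient.mk _ (m59b_tn O T8 κ t0 l)) = (εn l : O) * ((ln l : O) + 1)) :
    ∃ y : Fin (m + 1) → (m59b_R O κ a l8 t0 ln →+* O),
      y (Fin.last m) = x ∧
      (∀ i, y 0 (m59bi_uR κ a l8 t0 ln i) = 0) ∧
      (∀ k : Fin m,
        y k.castSucc (Ideal.Quotient.mk _ (m59lw_s κ a l8 t0 ln ε8 εn (ch k))) = 0) ∧
      (∀ (k : Fin m) (P : Ideal (m59b_R O κ a l8 t0 ln)),
        P ∈ minimalPrimes (m59b_R O κ a l8 t0 ln) →
        dS ≤ ringKrullDim (m59b_R O κ a l8 t0 ln ⧸ P) →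
        Ideal.Quotient.mk _ (m59lw_r κ a l8 t0 ln (ch k)) ^ ee k ∈ P →
        P ≤ RingHom.ker (y k.castSucc) → P ≤ RingHom.ker (y k.succ)) := by
  obtain ⟨y, hlast, hy0, hys, hstep⟩ := m59lw_hpts κ a l8 t0 ln (⇑ch) ch.injective hl82 ε8 hε8
    εn hεn x hxC hxa hxc hxd hx11 hx21 hx22 hxt
  refine ⟨y, hlast, ?_, hys, ?_⟩
  · rintro (⟨t, i, j⟩ | ⟨l, i⟩)
    · refine hy0 (ch.symm (Sum.inl t)) (Sum.inl (t, 0, i, j)) ?_
      show m59lw_W κ (⇑ch) (ch.symm (Sum.inl t)) (Sum.inl (t, 0, i, j)) ≠ 0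
      unfold m59lw_W
      rw [Equiv.apply_symm_apply]
      show m59b_w8 (Tn := Tn) κ t (Sum.inl (t, 0, i, j)) ≠ 0
      rw [m59lw_w8_self]
      exact one_ne_zero
    · refine hy0 (ch.symm (Sum.inr l)) (Sum.inr (Sum.inl (l, Fin.succ i))) ?_
      show m59lw_W κ (⇑ch) (ch.symm (Sum.inr l)) (Sum.inr (Sum.inl (l, Fin.succ i))) ≠ 0
      unfold m59lw_W
      rw [Equiv.apply_symm_apply]
      show m59b_wn (T8 := T8) κ l (Sum.inr (Sum.inl (l, Fin.succ i))) ≠ 0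
      fin_cases i
      · exact (m59lw_wn_self1 κ l).symm ▸ one_ne_zero
      · exact (m59lw_wn_self2 κ l).symm ▸ one_ne_zero
  · intro k P hP hdim hr hle
    have hprime : P.IsPrime := hP.1.1
    have hr' : Ideal.Quotient.mk _ (m59lw_r κ a l8 t0 ln (ch k)) ∈ P :=
      hprime.mem_of_pow_mem (ee k) hr
    exact hstep k P hP hr'
      (m59bz_nz hmax hp hp2 hpl h2 a l8 t0 ln hl8 han P hprime (hdS.trans hdim) (ch k) hr') hle

end NZ

end

end Fermat.Agent.M59
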